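import Mathlib
import Fermat.Prelude.Def_ModularCurve_X0

/-!
# S28, Package L: level one q-expansions (E₄, Δ) and the q-expansion principle in level one

* `Fermat.Agent.S28.qExpansion_E4_eq` (L1): `qExpansion 1 E₄ = map eisenstein4`.
* `Fermat.Agent.S28.qExpansion_discriminant_eq` (L2): `qExpansion 1 Δ = map (X * etaProd ^ 24)`.
* `Fermat.Agent.S28.levelOne_poly_of_coeff_mem` (L3): a level one form of weight `12 m` whose
  `q`-expansion has coefficients in a subring `R ⊆ ℂ` is an `R`-polynomial in `E₄³` and `Δ`.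

Auxiliary: `tay` (Taylor series at `0` of a function `ℂ → ℂ` as a formal power series), its
multiplicativity, and its continuity under locally uniform limits.
-/

set_option autoImplicit false

open UpperHalfPlane ModularForm EisensteinSeries Filter Topology
open scoped MatrixGroups

namespace Fermat.Agent.S28

/-- L1: the `q`-expansion of `E₄` is the image of the Prelude's formal `eisenstein4`. -/
theorem qExpansion_E4_eq :
    UpperHalfPlane.qExpansion 1 E₄ = PowerSeries.map (Int.castRingHom ℂ) ModularCurve.eisenstein4 := by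
  ext n
  have h := E_qExpansion_coeff (k := 4) (by norm_num) ⟨2, rfl⟩ n
  rw [show (E₄ : ℍ → ℂ) = E (k := 4) (by norm_num) from rfl, h]
  simp only [PowerSeries.coeff_map, ModularCurve.eisenstein4, PowerSeries.coeff_mk]
  by_cases hn : n = 0
  · simp [hn]
  · simp only [hn, if_false]
    rw [ArithmeticFunction.sigma_apply]
    norm_num [show bernoulli 4 = -1 / 30 by decide +kernel]


/-- Taylor series at `0` of a function `ℂ → ℂ`, as a formal power series. -/
noncomputable def tay (g : ℂ → ℂ) : PowerSeries ℂ :=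
  .mk fun m ↦ (↑m.factorial)⁻¹ * iteratedDeriv m g 0

lemma coeff_tay (g : ℂ → ℂ) (m : ℕ) :
    PowerSeries.coeff m (tay g) = (↑m.factorial)⁻¹ * iteratedDeriv m g 0 := by
  simp [tay]

lemma tay_congr {g₁ g₂ : ℂ → ℂ} (h : g₁ =ᶠ[𝓝 0] g₂) : tay g₁ = tay g₂ := by
  ext m
  rw [coeff_tay, coeff_tay, h.iteratedDeriv_eq m]

lemma qExpansion_eq_tay (h : ℝ) (f : ℍ → ℂ) : qExpansion h f = tay (cuspFunction h f) := rfl

lemma tay_mul {f g : ℂ → ℂ} (hf : AnalyticAt ℂ f 0) (hg : AnalyticAt ℂ g 0) :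
    tay (f * g) = tay f * tay g := by
  ext n
  simp only [coeff_tay, iteratedDeriv_mul hf.contDiffAt hg.contDiffAt, Finset.mul_sum,
    PowerSeries.coeff_mul, Finset.Nat.sum_antidiagonal_eq_sum_range_succ_mk, Nat.succ_eq_add_one]
  refine Finset.sum_congr rfl fun i hi ↦ ?_
  rw [Nat.cast_choose _ (by grind)]
  field_simp [Nat.factorial_ne_zero]

lemma tay_one : tay (1 : ℂ → ℂ) = 1 := by
  ext m
  have h2 : iteratedDeriv m (1 : ℂ → ℂ) 0 = if m = 0 then 1 else 0 := by
    simpa [ite_apply] using! iteratedDeriv_const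
  simp +contextual [coeff_tay, h2]

lemma tay_pow {f : ℂ → ℂ} (hf : AnalyticAt ℂ f 0) (n : ℕ) : tay (f ^ n) = tay f ^ n := by
  induction n with
  | zero => simpa using tay_one
  | succ n ih => rw [pow_succ, pow_succ, tay_mul (hf.pow n) hf, ih]

lemma tay_id : tay (fun q : ℂ ↦ q) = PowerSeries.X := by
  ext m
  rw [coeff_tay, iteratedDeriv_fun_id_zero, PowerSeries.coeff_X]
  by_cases hm : m = 1
  · simp [hm]
  · simp [hm]

lemma tay_sub {f g : ℂ → ℂ} (hf : AnalyticAt ℂ f 0) (hg : AnalyticAt ℂ g 0) :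
    tay (f - g) = tay f - tay g := by
  ext m
  simp [coeff_tay, iteratedDeriv_sub hf.contDiffAt hg.contDiffAt, mul_sub]

lemma tay_one_sub_pow (n : ℕ) :
    tay (fun q : ℂ ↦ 1 - q ^ (n + 1)) = 1 - PowerSeries.X ^ (n + 1) := by
  have h1 : (fun q : ℂ ↦ 1 - q ^ (n + 1)) = (1 : ℂ → ℂ) - (fun q : ℂ ↦ q) ^ (n + 1) := by
    ext q; simp
  have hid : AnalyticAt ℂ (fun q : ℂ ↦ q) 0 := analyticAt_id
  rw [h1, tay_sub (by exact analyticAt_const) (hid.pow _), tay_one, tay_pow hid, tay_id]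

lemma tay_finset_prod (s : Finset ℕ) :
    tay (fun q : ℂ ↦ ∏ n ∈ s, (1 - q ^ (n + 1))) = ∏ n ∈ s, (1 - PowerSeries.X ^ (n + 1)) := by
  classical
  induction s using Finset.induction_on with
  | empty =>
    have : (fun q : ℂ ↦ ∏ n ∈ (∅ : Finset ℕ), (1 - q ^ (n + 1))) = (1 : ℂ → ℂ) := by
      ext q; simp
    rw [this, tay_one]; simp
  | insert a s ha ih =>
    have h1 : (fun q : ℂ ↦ ∏ n ∈ insert a s, (1 - q ^ (n + 1)))
        = (fun q : ℂ ↦ 1 - q ^ (a + 1)) * (fun q : ℂ ↦ ∏ n ∈ s, (1 - q ^ (n + 1))) := by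
      ext q; simp [Finset.prod_insert ha]
    rw [h1, tay_mul, ih, tay_one_sub_pow, Finset.prod_insert ha]
    · fun_prop
    · exact Finset.analyticAt_fun_prod _ (fun n _ ↦ by fun_prop)

lemma tendstoLocallyUniformlyOn_iteratedDeriv {ι : Type*} {φ : Filter ι} {F : ι → ℂ → ℂ}
    {f : ℂ → ℂ} {U : Set ℂ} (hU : IsOpen U)
    (hf : TendstoLocallyUniformlyOn F f φ U) (hF : ∀ᶠ n in φ, DifferentiableOn ℂ (F n) U)
    (m : ℕ) :
    TendstoLocallyUniformlyOn (fun n ↦ iteratedDeriv m (F n)) (iteratedDeriv m f) φ U ∧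
      ∀ᶠ n in φ, DifferentiableOn ℂ (iteratedDeriv m (F n)) U := by
  induction m with
  | zero =>
    simp only [iteratedDeriv_zero]
    exact ⟨hf, hF⟩
  | succ m ih =>
    obtain ⟨h1, h2⟩ := ih
    refine ⟨?_, ?_⟩
    · have := h1.deriv h2 hU
      simp only [iteratedDeriv_succ]
      exact this
    · filter_upwards [h2] with n hn
      rw [iteratedDeriv_succ]
      exact hn.deriv hU

lemma tendsto_iteratedDeriv_zero {ι : Type*} {φ : Filter ι} {F : ι → ℂ → ℂ}
    {f : ℂ → ℂ} {U : Set ℂ} (hU : IsOpen U) (h0 : (0 : ℂ) ∈ U)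
    (hf : TendstoLocallyUniformlyOn F f φ U) (hF : ∀ᶠ n in φ, DifferentiableOn ℂ (F n) U)
    (m : ℕ) :
    Tendsto (fun n ↦ iteratedDeriv m (F n) 0) φ (𝓝 (iteratedDeriv m f 0)) :=
  (tendstoLocallyUniformlyOn_iteratedDeriv hU hf hF m).1.tendsto_at h0


open scoped PowerSeries.WithPiTopology in
lemma tay_tprod_one_sub_pow :
    tay (fun q : ℂ ↦ ∏' n : ℕ, (1 - q ^ (n + 1)))
      = PowerSeries.map (Int.castRingHom ℂ) ModularCurve.etaProd := by
  ext m
  rw [coeff_tay, PowerSeries.coeff_map]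
  -- analytic side
  have hA := ModularForm.multipliableLocallyUniformlyOn_one_sub_pow.hasProdLocallyUniformlyOn
  have hA' : TendstoLocallyUniformlyOn (fun (I : Finset ℕ) (q : ℂ) ↦ ∏ n ∈ I, (1 - q ^ (n + 1)))
      (fun q : ℂ ↦ ∏' n : ℕ, (1 - q ^ (n + 1))) atTop (Metric.ball (0 : ℂ) 1) := hA
  have hdiff : ∀ᶠ I : Finset ℕ in atTop,
      DifferentiableOn ℂ (fun q : ℂ ↦ ∏ n ∈ I, (1 - q ^ (n + 1))) (Metric.ball (0 : ℂ) 1) :=
    .of_forall fun I ↦ DifferentiableOn.fun_finsetProd (fun n _ ↦ by fun_prop)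
  have h1 := tendsto_iteratedDeriv_zero Metric.isOpen_ball (Metric.mem_ball_self one_pos)
    hA' hdiff m
  have h2 : Tendsto (fun I : Finset ℕ ↦ (↑m.factorial : ℂ)⁻¹ *
      iteratedDeriv m (fun q : ℂ ↦ ∏ n ∈ I, (1 - q ^ (n + 1))) 0) atTop
      (𝓝 ((↑m.factorial : ℂ)⁻¹ * iteratedDeriv m (fun q : ℂ ↦ ∏' n : ℕ, (1 - q ^ (n + 1))) 0)) :=
    h1.const_mul _
  -- formal side
  have hB : HasProd (fun n : ℕ ↦ (1 : PowerSeries ℤ) - PowerSeries.X ^ (n + 1))
      ModularCurve.etaProd :=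
    (PowerSeries.WithPiTopology.multipliable_one_sub_X_pow ℤ).hasProd
  have hB' : Tendsto (fun I : Finset ℕ ↦
      PowerSeries.coeff m (∏ n ∈ I, ((1 : PowerSeries ℤ) - PowerSeries.X ^ (n + 1)))) atTop
      (𝓝 (PowerSeries.coeff m ModularCurve.etaProd)) :=
    ((PowerSeries.WithPiTopology.continuous_coeff ℤ m).tendsto _).comp hB
  have hB'' : Tendsto (fun I : Finset ℕ ↦
      ((PowerSeries.coeff m (∏ n ∈ I, ((1 : PowerSeries ℤ) - PowerSeries.X ^ (n + 1))) : ℤ) : ℂ))
      atTop (𝓝 ((PowerSeries.coeff m ModularCurve.etaProd : ℤ) : ℂ)) :=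
    ((continuous_of_discreteTopology (f := fun z : ℤ ↦ (z : ℂ))).tendsto _).comp hB'
  have hEq : (fun I : Finset ℕ ↦ (↑m.factorial : ℂ)⁻¹ *
      iteratedDeriv m (fun q : ℂ ↦ ∏ n ∈ I, (1 - q ^ (n + 1))) 0)
      = (fun I : Finset ℕ ↦
      ((PowerSeries.coeff m (∏ n ∈ I, ((1 : PowerSeries ℤ) - PowerSeries.X ^ (n + 1))) : ℤ) : ℂ)) := by
    funext I
    rw [← coeff_tay, tay_finset_prod]
    have : (∏ n ∈ I, ((1 : PowerSeries ℂ) - PowerSeries.X ^ (n + 1)))
        = PowerSeries.map (Int.castRingHom ℂ)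
          (∏ n ∈ I, ((1 : PowerSeries ℤ) - PowerSeries.X ^ (n + 1))) := by
      simp [map_prod]
    rw [this, PowerSeries.coeff_map]
    rfl
  rw [hEq] at h2
  exact tendsto_nhds_unique h2 hB''


/-- L2: the `q`-expansion of `Δ` is the image of the Prelude's formal `X * etaProd ^ 24`. -/
theorem qExpansion_discriminant_eq :
    UpperHalfPlane.qExpansion 1 ModularForm.discriminant
      = PowerSeries.map (Int.castRingHom ℂ) (PowerSeries.X * ModularCurve.etaProd ^ 24) := by
  rw [qExpansion_eq_tay]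
  have hball : Metric.ball (0 : ℂ) 1 ∈ 𝓝 (0 : ℂ) := Metric.ball_mem_nhds _ one_pos
  have hG : AnalyticAt ℂ (fun q : ℂ ↦ ∏' n : ℕ, (1 - q ^ (n + 1))) 0 :=
    ModularForm.differentiableOn_tprod_one_sub_pow.analyticAt hball
  have h1 : cuspFunction 1 ModularForm.discriminant =ᶠ[𝓝 0]
      (fun q : ℂ ↦ q) * (fun q : ℂ ↦ ∏' n : ℕ, (1 - q ^ (n + 1))) ^ 24 := by
    filter_upwards [hball] with q hq
    rw [ModularForm.discriminant_cuspFunction_eqOn hq]
    simp only [Pi.mul_apply, Pi.pow_apply]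
    rw [(ModularForm.multipliable_one_sub_pow (by simpa using hq)).tprod_pow 24]
  have hid : AnalyticAt ℂ (fun q : ℂ ↦ q) 0 := analyticAt_id
  rw [tay_congr h1, tay_mul hid (hG.pow 24), tay_pow hG, tay_id, tay_tprod_one_sub_pow]
  simp


/-- All coefficients of a power series lie in the subring `R`. -/
def CoeffMem (R : Subring ℂ) (p : PowerSeries ℂ) : Prop := ∀ n, PowerSeries.coeff n p ∈ R

namespace CoeffMem

variable {R : Subring ℂ} {p q : PowerSeries ℂ}

lemma map_int (p : PowerSeries ℤ) : CoeffMem R (PowerSeries.map (Int.castRingHom ℂ) p) := by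
  intro n
  rw [PowerSeries.coeff_map]
  simp

lemma one : CoeffMem R 1 := by
  have := map_int (R := R) 1
  simpa using this

lemma mul (hp : CoeffMem R p) (hq : CoeffMem R q) : CoeffMem R (p * q) := by
  intro n
  rw [PowerSeries.coeff_mul]
  exact Subring.sum_mem R fun x _ ↦ Subring.mul_mem R (hp _) (hq _)

lemma sub (hp : CoeffMem R p) (hq : CoeffMem R q) : CoeffMem R (p - q) := by
  intro n
  rw [map_sub]
  exact Subring.sub_mem R (hp _) (hq _)

lemma pow (hp : CoeffMem R p) (n : ℕ) : CoeffMem R (p ^ n) := by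
  induction n with
  | zero => simpa using one
  | succ n ih => rw [pow_succ]; exact ih.mul hp

lemma smul {a : ℂ} (ha : a ∈ R) (hp : CoeffMem R p) : CoeffMem R (a • p) := by
  intro n
  rw [PowerSeries.coeff_smul]
  exact Subring.mul_mem R ha (hp _)

end CoeffMem

lemma one_mem_strictPeriods_SL'' : (1 : ℝ) ∈ (𝒮ℒ).strictPeriods := by simp

lemma levelOne_poly_aux (R : Subring ℂ) : ∀ (m : ℕ) (k : ℤ) (_ : k = 12 * (m : ℤ))
    (F : ModularForm 𝒮ℒ k), CoeffMem R (qExpansion 1 F) →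
    ∃ c : Fin (m + 1) → ℂ, (∀ i, c i ∈ R) ∧
      ∀ τ : ℍ, F τ = ∑ i : Fin (m + 1),
        c i * E₄ τ ^ (3 * (i : ℕ)) * ModularForm.discriminant τ ^ (m - (i : ℕ)) := by
  intro m
  induction m with
  | zero =>
    intro k hk F hF
    obtain rfl : k = 0 := by simpa using hk
    obtain ⟨c, hc⟩ := ModularFormClass.levelOne_weight_zero_const F
    have hf : F = c • (1 : ModularForm 𝒮ℒ 0) := by
      ext z
      simp [hc]
    have hq : qExpansion 1 F = c • 1 := by
      rw [hf, show (⇑(c • (1 : ModularForm 𝒮ℒ 0)) : ℍ → ℂ) = c • ⇑(1 : ModularForm 𝒮ℒ 0) from rfl,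
        ModularForm.qExpansion_smul one_pos one_mem_strictPeriods_SL'', ModularForm.qExpansion_one]
    have hcR : c ∈ R := by
      have := hF 0
      rw [hq] at this
      simpa using this
    refine ⟨fun _ ↦ c, fun _ ↦ hcR, fun τ ↦ ?_⟩
    simp [hc]
  | succ m ih =>
    intro k hk F hF
    set a₀ : ℂ := PowerSeries.coeff 0 (qExpansion 1 F) with ha₀
    have ha₀R : a₀ ∈ R := hF 0
    have hw : ((3 * (m + 1) : ℕ) : ℤ) * 4 = k := by rw [hk]; push_cast; ring
    set g : ModularForm 𝒮ℒ k := ModularForm.mcast hw (E₄.pow (3 * (m + 1))) with hg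
    have hgq : qExpansion 1 g = qExpansion 1 E₄ ^ (3 * (m + 1)) := by
      rw [hg, ModularForm.qExpansion_mcast,
        ModularForm.qExpansion_pow one_pos one_mem_strictPeriods_SL'']
    have hE4R : CoeffMem R (qExpansion 1 E₄) := by
      rw [qExpansion_E4_eq]; exact CoeffMem.map_int _
    have hgR : CoeffMem R (qExpansion 1 g) := by rw [hgq]; exact hE4R.pow _
    have hg0 : PowerSeries.constantCoeff (qExpansion 1 g) = 1 := by
      rw [hgq, map_pow, qExpansion_E4_eq, ← PowerSeries.coeff_zero_eq_constantCoeff_apply,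
        PowerSeries.coeff_map, PowerSeries.coeff_zero_eq_constantCoeff_apply,
        ModularCurve.constantCoeff_eisenstein4]
      simp
    set F₀ : ModularForm 𝒮ℒ k := F - a₀ • g with hF₀
    have hF₀q : qExpansion 1 F₀ = qExpansion 1 F - a₀ • qExpansion 1 g := by
      rw [hF₀, show (⇑(F - a₀ • g) : ℍ → ℂ) = ⇑F - ⇑(a₀ • g) from rfl,
        ModularForm.qExpansion_sub one_pos one_mem_strictPeriods_SL'',
        show (⇑(a₀ • g) : ℍ → ℂ) = a₀ • ⇑g from rfl,
        ModularForm.qExpansion_smul one_pos one_mem_strictPeriods_SL'']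
    have hF₀R : CoeffMem R (qExpansion 1 F₀) := by
      rw [hF₀q]; exact hF.sub (hgR.smul ha₀R)
    have h0 : PowerSeries.coeff 0 (qExpansion 1 F₀) = 0 := by
      rw [hF₀q]
      simp [hg0, ha₀]
    set h : ModularForm 𝒮ℒ (k - 12) := CuspForm.discriminantEquiv (ModularForm.toCuspForm F₀ h0)
      with hh
    have hmul : qExpansion 1 F₀ = qExpansion 1 ModularForm.discriminant * qExpansion 1 h :=
      ModularForm.qExpansion_eq_qExpansion_discriminant_mul F₀ h0
    -- coefficients of `h`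
    have hhR : CoeffMem R (qExpansion 1 h) := by
      have hV : PowerSeries.map (Int.castRingHom ℂ) ModularCurve.dedekindEtaUnit *
          PowerSeries.map (Int.castRingHom ℂ) ModularCurve.dedekindEtaUnitInv = 1 := by
        rw [← map_mul, ModularCurve.dedekindEtaUnit_mul_inv, map_one]
      have hX : PowerSeries.X * qExpansion 1 h
          = qExpansion 1 F₀ * PowerSeries.map (Int.castRingHom ℂ) ModularCurve.dedekindEtaUnitInv := by
        rw [hmul, qExpansion_discriminant_eq, map_mul, PowerSeries.map_X,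
          show ModularCurve.etaProd ^ 24 = ModularCurve.dedekindEtaUnit from rfl]
        calc PowerSeries.X * qExpansion 1 h
            = PowerSeries.X * qExpansion 1 h *
              (PowerSeries.map (Int.castRingHom ℂ) ModularCurve.dedekindEtaUnit *
                PowerSeries.map (Int.castRingHom ℂ) ModularCurve.dedekindEtaUnitInv) := by
              rw [hV, mul_one]
          _ = _ := by ring
      intro n
      have h1 : PowerSeries.coeff n (qExpansion 1 h)
          = PowerSeries.coeff (n + 1) (PowerSeries.X * qExpansion 1 h) := by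
        rw [PowerSeries.coeff_succ_X_mul]
      rw [h1, hX]
      exact (hF₀R.mul (CoeffMem.map_int _)) (n + 1)
    obtain ⟨c', hc'R, hc'⟩ := ih (k - 12) (by rw [hk]; push_cast; ring) h hhR
    refine ⟨Fin.snoc c' a₀, fun i ↦ ?_, fun τ ↦ ?_⟩
    · refine Fin.lastCases ?_ (fun j ↦ ?_) i
      · simpa using ha₀R
      · simpa using hc'R j
    · have hFτ : F τ = a₀ * E₄ τ ^ (3 * (m + 1)) + ModularForm.discriminant τ * h τ := by
        have h1 := ModularForm.discriminant_mul_discriminantEquiv_apply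
          (ModularForm.toCuspForm F₀ h0) τ
        rw [ModularForm.toCuspForm_apply] at h1
        rw [← hh] at h1
        rw [h1, hF₀]
        simp only [sub_apply, smul_apply, smul_eq_mul, hg,
          ModularForm.mcast_apply, ModularForm.coe_pow, Pi.pow_apply]
        ring
      rw [Fin.sum_univ_castSucc]
      simp only [Fin.snoc_castSucc, Fin.snoc_last, Fin.val_castSucc, Fin.val_last,
        Nat.sub_self, pow_zero, mul_one]
      rw [hFτ, hc' τ, add_comm, Finset.mul_sum]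
      congr 1
      refine Finset.sum_congr rfl fun i _ ↦ ?_
      have hi : m + 1 - (i : ℕ) = (m - (i : ℕ)) + 1 := by have := i.2; omega
      rw [hi, pow_succ]
      ring

/-- L3: q-expansion principle in level one. -/
theorem levelOne_poly_of_coeff_mem (R : Subring ℂ) (m : ℕ) (F : ModularForm 𝒮ℒ (12 * (m : ℤ)))
    (hF : ∀ n, PowerSeries.coeff n (UpperHalfPlane.qExpansion 1 F) ∈ R) :
    ∃ c : Fin (m + 1) → ℂ, (∀ i, c i ∈ R) ∧
      ∀ τ : ℍ, F τ = ∑ i : Fin (m + 1), c i * E₄ τ ^ (3 * (i : ℕ)) * ModularForm.discriminant τ ^ (m - (i : ℕ)) :=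
  levelOne_poly_aux R m _ rfl F hF

end Fermat.Agent.S28
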