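import Fermat.Agent.S28.QExp
import Mathlib.RingTheory.MvPolynomial.Homogeneous

/-!
# S28: "nice" functions (periodic, holomorphic, bounded at `i∞`) and their `q`-expansions
-/

set_option autoImplicit false

open scoped MatrixGroups ModularForm Real Manifold
open UpperHalfPlane hiding I
open ModularForm Complex

namespace Fermat.Agent.S28

/-- `f` is `h`-periodic, holomorphic and bounded at `i∞`. -/
def Nice (h : ℝ) (f : ℍ → ℂ) : Prop :=
  Function.Periodic (f ∘ ofComplex) h ∧ MDiff f ∧ IsBoundedAtImInfty f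

namespace Nice

variable {h : ℝ} {f g : ℍ → ℂ}

theorem analyticAt (hh : 0 < h) (hf : Nice h f) : AnalyticAt ℂ (cuspFunction h f) 0 :=
  analyticAt_cuspFunction_zero hh hf.1 hf.2.1 hf.2.2

theorem add (hf : Nice h f) (hg : Nice h g) : Nice h (f + g) :=
  ⟨fun z ↦ by simpa using congrArg₂ (· + ·) (hf.1 z) (hg.1 z), hf.2.1.add hg.2.1,
    hf.2.2.add hg.2.2⟩

theorem mul (hf : Nice h f) (hg : Nice h g) : Nice h (f * g) :=
  ⟨fun z ↦ by simpa using congrArg₂ (· * ·) (hf.1 z) (hg.1 z), hf.2.1.mul hg.2.1,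
    hf.2.2.mul hg.2.2⟩

theorem const (c : ℂ) : Nice h (fun _ ↦ c) :=
  ⟨fun _ ↦ rfl, mdifferentiable_const, Filter.const_boundedAtFilter _ c⟩

theorem smul (c : ℂ) (hf : Nice h f) : Nice h (c • f) := by
  have : c • f = (fun _ ↦ c) * f := by ext; simp
  rw [this]
  exact (const c).mul hf

theorem eq_zero_of_qExpansion (hh : 0 < h) (hf : Nice h f) (h0 : qExpansion h f = 0) : f = 0 :=
  (qExpansion_eq_zero_iff hh hf.1 hf.2.1 hf.2.2).mp h0

end Nice

theorem qExpansion_const (h : ℝ) (c : ℂ) :
    qExpansion h (fun _ : ℍ ↦ c) = PowerSeries.C c := by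
  have h1 : (fun _ : ℍ ↦ c) = c • (1 : ℍ → ℂ) := by ext; simp
  have hone : AnalyticAt ℂ (cuspFunction h (1 : ℍ → ℂ)) 0 := by
    have : cuspFunction h (1 : ℍ → ℂ) = 1 := by
      ext q
      rcases eq_or_ne q 0 with rfl | hq
      · simpa [cuspFunction, Function.Periodic.cuspFunction] using!
          tendsto_const_nhds.limUnder_eq
      · simp [cuspFunction, Function.Periodic.cuspFunction_eq_of_nonzero h _ hq]
    rw [this]
    exact analyticAt_const
  rw [h1, qExpansion_smul hone, qExpansion_one]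
  ext n
  simp [PowerSeries.coeff_C, PowerSeries.coeff_one]

/-- `qExpansion` commutes with polynomial expressions in nice functions. -/
theorem nice_aeval {σ : Type*} {h : ℝ} (G : σ → ℍ → ℂ) (hG : ∀ i, Nice h (G i))
    (P : MvPolynomial σ ℂ) : Nice h (MvPolynomial.aeval G P) := by
  induction P using MvPolynomial.induction_on with
  | C a =>
    have : (MvPolynomial.aeval G (MvPolynomial.C a) : ℍ → ℂ) = fun _ ↦ a := by
      ext τ; simp [Algebra.algebraMap_eq_smul_one]
    rw [this]; exact Nice.const a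
  | add p q hp hq => rw [map_add]; exact hp.add hq
  | mul_X p i hp => rw [map_mul, MvPolynomial.aeval_X]; exact hp.mul (hG i)

theorem qExpansion_aeval {σ : Type*} {h : ℝ} (hh : 0 < h) (G : σ → ℍ → ℂ)
    (hG : ∀ i, Nice h (G i)) (P : MvPolynomial σ ℂ) :
    qExpansion h (MvPolynomial.aeval G P) =
      MvPolynomial.aeval (fun i ↦ qExpansion h (G i)) P := by
  induction P using MvPolynomial.induction_on with
  | C a =>
    have : (MvPolynomial.aeval G (MvPolynomial.C a) : ℍ → ℂ) = fun _ ↦ a := by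
      ext τ; simp [Algebra.algebraMap_eq_smul_one]
    rw [this, qExpansion_const]
    simp [PowerSeries.algebraMap_apply]
  | add p q hp hq =>
    rw [map_add, map_add, ← hp, ← hq]
    exact qExpansion_add ((nice_aeval G hG p).analyticAt hh) ((nice_aeval G hG q).analyticAt hh)
  | mul_X p i hp =>
    rw [map_mul, map_mul, MvPolynomial.aeval_X, MvPolynomial.aeval_X, ← hp]
    exact qExpansion_mul ((nice_aeval G hG p).analyticAt hh) ((hG i).analyticAt hh)

end Fermat.Agent.S28
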