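import Fermat.Agent.S28.AC
import Fermat.Agent.S28.Nice
import Fermat.Agent.S28.LevelOneQ

/-!
# S28: the conjugates of the generators, their `q^{1/N}`-expansions (AC0) and (Conj) = AC1
-/

set_option autoImplicit false

open scoped MatrixGroups ModularForm Real Manifold
open UpperHalfPlane hiding I
open ModularForm Complex CongruenceSubgroup EisensteinSeries

namespace Fermat.Agent.S28

local notation "𝕢" => Function.Periodic.qParam

/-- the base forms as modular forms of weight 12 and level one -/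
noncomputable def baseForm : Bool → ModularForm 𝒮ℒ 12
  | true => ModularForm.mcast (by norm_num) ((E₄.mul E₄).mul E₄)
  | false => (CuspForm.discriminant : ModularForm 𝒮ℒ 12)

theorem coe_baseForm (f : Bool) : ⇑(baseForm f) = baseFn f := by
  cases f
  · rfl
  · ext τ
    simp only [baseForm, baseFn]
    show E₄ τ * E₄ τ * E₄ τ = E₄ τ ^ 3
    ring

theorem baseFn_slash_SL (f : Bool) (γ : SL(2, ℤ)) : baseFn f ∣[(12 : ℤ)] γ = baseFn f := by
  rw [← coe_baseForm]
  exact SlashInvariantForm.slash_action_eqn (baseForm f) _ ⟨γ, rfl⟩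

theorem qExpansion_baseFn (f : Bool) :
    qExpansion 1 (baseFn f) = PowerSeries.map (Int.castRingHom ℂ) (baseSeries f) := by
  cases f
  · simp only [baseFn, baseSeries]
    exact qExpansion_discriminant_eq
  · simp only [baseFn, baseSeries, map_pow]
    rw [← qExpansion_E4_eq]
    have hE : AnalyticAt ℂ (cuspFunction 1 (E₄ : ℍ → ℂ)) 0 :=
      ModularFormClass.analyticAt_cuspFunction_zero E₄ one_pos one_mem_strictPeriods_SL
    have h2 : (fun τ ↦ E₄ τ ^ 3) = (E₄ : ℍ → ℂ) * ((E₄ : ℍ → ℂ) * (E₄ : ℍ → ℂ)) := by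
      ext τ; simp only [Pi.mul_apply]; ring
    have hEE : AnalyticAt ℂ (cuspFunction 1 ((E₄ : ℍ → ℂ) * (E₄ : ℍ → ℂ))) 0 := by
      rw [cuspFunction_mul hE.continuousAt hE.continuousAt]
      exact hE.mul hE
    rw [h2, qExpansion_mul hE hEE, qExpansion_mul hE hE]
    ring


/-- the conjugate `α` of the generator `(f, d)`, as a function -/
noncomputable def conjFn (N : ℕ) (α : Cos N) (g : Gen N) : ℍ → ℂ :=
  genFn g.1 g.2 ∣[(12 : ℤ)] (rep N α)

theorem conjFn_eq (N : ℕ) (α : Cos N) (g : Gen N) :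
    conjFn N α g = ((g.2 : ℕ) : ℂ) •
      (baseFn g.1 ∣[(12 : ℤ)] ut (cA N α g.2) (cB N α g.2) (cD N α g.2)) := by
  have hd : 0 < (g.2 : ℕ) := Nat.pos_of_mem_divisors g.2.2
  obtain ⟨γ', hγ'⟩ := cB_spec N α hd
  unfold conjFn genFn
  rw [ModularForm.SL_smul_slash]
  congr 1
  rw [ModularForm.SL_slash, ← SlashAction.slash_mul]
  rw [hγ', SlashAction.slash_mul]
  congr 1
  exact baseFn_slash_SL g.1 γ'


theorem cE_mul (N : ℕ) (α : Cos N) {d : ℕ} (hd : d ∣ N) :
    (cA N α d * N / cD N α d) * cD N α d = cA N α d * N := by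
  apply Nat.div_mul_cancel
  have h1 : cD N α d ∣ d := Dvd.intro_left _ (cA_mul_cD N α d)
  exact Dvd.dvd.mul_left (h1.trans hd) _

open ConjAct Pointwise in
theorem nice_slash_ut (f : Bool) {a b d N : ℕ} (ha : 0 < a) (hd : 0 < d) (hN : 0 < N) (e : ℕ)
    (he : e * d = a * N) : Nice (N : ℝ) (baseFn f ∣[(12 : ℤ)] ut a b d) := by
  have hΓ := mem_strictPeriods_conj_ut (b := b) ha hd e he
  have hN' : (0 : ℝ) < N := by exact_mod_cast hN
  have hc : ⇑(ModularForm.translate (baseForm f) (ut a b d)) = baseFn f ∣[(12 : ℤ)] ut a b d := by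
    rw [ModularForm.coe_translate, coe_baseForm]
  rw [← hc]
  have : Fact (IsCusp OnePoint.infty (toConjAct (ut a b d)⁻¹ • (𝒮ℒ : Subgroup (GL (Fin 2) ℝ)))) :=
    ⟨Subgroup.isCusp_of_mem_strictPeriods hN' hΓ⟩
  exact ⟨SlashInvariantFormClass.periodic_comp_ofComplex _ hΓ, ModularFormClass.holo _,
    ModularFormClass.bdd_at_infty _⟩

theorem rootU_eq (N : ℕ) (hN : 0 < N) {b d : ℕ} (hd : 0 < d) (hdN : d ∣ N) :
    rootU b d = zetaC N ^ (b * (N / d)) := by
  unfold rootU zetaC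
  rw [← Complex.exp_nat_mul]
  congr 1
  obtain ⟨m, rfl⟩ := hdN
  have hd0 : (d : ℂ) ≠ 0 := by exact_mod_cast hd.ne'
  have hm : 0 < m := Nat.pos_of_mul_pos_right hN |> fun h => by
    rcases Nat.eq_zero_or_pos m with h0 | h0
    · simp [h0] at hN
    · exact h0
  have hm0 : (m : ℂ) ≠ 0 := by exact_mod_cast hm.ne'
  rw [Nat.mul_div_cancel_left _ hd]
  push_cast
  field_simp


theorem nice_conjFn (N : ℕ) [NeZero N] (α : Cos N) (g : Gen N) : Nice (N : ℝ) (conjFn N α g) := by
  have hd : 0 < (g.2 : ℕ) := Nat.pos_of_mem_divisors g.2.2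
  have hdN : (g.2 : ℕ) ∣ N := Nat.dvd_of_mem_divisors g.2.2
  rw [conjFn_eq]
  exact (nice_slash_ut g.1 (cA_pos N α hd) (cD_pos N α hd) (NeZero.pos N) _
    (cE_mul N α hdN)).smul _

/-- **AC0**: the `q^{1/N}`-expansion of the conjugate `α` of the generator `g`. -/
theorem qExpansion_conjFn (N : ℕ) [NeZero N] (α : Cos N) (g : Gen N) :
    qExpansion (N : ℝ) (conjFn N α g) = csC N α g := by
  have hd : 0 < (g.2 : ℕ) := Nat.pos_of_mem_divisors g.2.2
  have hdN : (g.2 : ℕ) ∣ N := Nat.dvd_of_mem_divisors g.2.2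
  have hN : 0 < N := NeZero.pos N
  have hN' : (0 : ℝ) < N := by exact_mod_cast hN
  have ha := cA_pos N α hd
  have hd' := cD_pos N α hd
  have he := cE_mul N α hdN
  have hd'N : cD N α g.2 ∣ N := (Dvd.intro_left _ (cA_mul_cD N α g.2)).trans hdN
  have hΓ := mem_strictPeriods_conj_ut (b := cB N α g.2) ha hd' _ he
  have hc : ⇑((((g.2 : ℕ) : ℂ)) • ModularForm.translate (baseForm g.1)
      (ut (cA N α g.2) (cB N α g.2) (cD N α g.2))) = conjFn N α g := by
    rw [conjFn_eq, FunLike.coe_smul, ModularForm.coe_translate, coe_baseForm]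
  rw [← hc]
  ext n
  symm
  refine ModularFormClass.qExpansion_coeff_unique
    (c := fun n ↦ PowerSeries.coeff n (csC N α g)) hN' hΓ ?_ n
  intro τ
  have h1 := hasSum_slash_ut (baseForm g.1) (b := cB N α g.2) ha hd' hN _ he τ
  rw [coe_baseForm] at h1
  have h2 := h1.const_smul (((g.2 : ℕ) : ℂ))
  rw [hc, conjFn_eq]
  simp only [Pi.smul_apply]
  refine h2.congr_fun ?_ |>.congr_fun fun _ ↦ rfl
  intro m
  simp only [csC, cs, conjS, PowerSeries.coeff_mk, conjCoeff, smul_eq_mul]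
  split_ifs with hdvd
  · rw [qExpansion_baseFn, PowerSeries.coeff_map, rootU_eq N hN hd' hd'N]
    have hc : (((g.2 : ℕ) : ℂ)) * slashConst 12 (cA N α g.2) (cD N α g.2) =
        ((cA N α g.2 : ℕ) : ℂ) ^ 12 := by
      have hprod : (((g.2 : ℕ) : ℂ)) = (cA N α g.2 : ℂ) * (cD N α g.2 : ℂ) := by
        rw [← Nat.cast_mul, cA_mul_cD]
      have ha0 : ((cA N α g.2 : ℕ) : ℂ) ≠ 0 := by exact_mod_cast ha.ne'
      have hd0 : ((cD N α g.2 : ℕ) : ℂ) ≠ 0 := by exact_mod_cast hd'.ne'
      unfold slashConst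
      rw [hprod]
      norm_num [zpow_neg]
      field_simp
    simp only [eq_intCast]
    rw [← hc]
    ring
  · simp


theorem eval_mul_of_isHomogeneous {σ R : Type*} [CommRing R] {P : MvPolynomial σ R} {m : ℕ}
    (hP : P.IsHomogeneous m) (c : R) (x : σ → R) :
    MvPolynomial.eval (fun i ↦ c * x i) P = c ^ m * MvPolynomial.eval x P := by
  rw [MvPolynomial.eval_eq, MvPolynomial.eval_eq, Finset.mul_sum]
  refine Finset.sum_congr rfl fun μ hμ ↦ ?_
  have hdeg : ∑ i ∈ μ.support, μ i = m := by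
    have := hP (MvPolynomial.mem_support_iff.mp hμ)
    simpa [Finsupp.weight_apply, Finsupp.sum] using this
  simp only [mul_pow, Finset.prod_mul_distrib, Finset.prod_pow_eq_pow_sum]
  rw [hdeg]
  ring

theorem aeval_apply_eq_eval {σ : Type*} (G : σ → ℍ → ℂ) (P : MvPolynomial σ ℂ) (τ : ℍ) :
    (MvPolynomial.aeval G P) τ = MvPolynomial.eval (fun i ↦ G i τ) P := by
  induction P using MvPolynomial.induction_on with
  | C a => simp
  | add p q hp hq => simp [hp, hq]
  | mul_X p i hp => simp [hp]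

/-- **AC1** (Conj). -/
theorem ac1 (N : ℕ) [NeZero N] : AC1 N := by
  intro m P hP h0 α
  have hN' : (0 : ℝ) < N := by exact_mod_cast NeZero.pos N
  have hq : ∀ β : Cos N, MvPolynomial.aeval (csC N β) P =
      qExpansion (N : ℝ) (MvPolynomial.aeval (conjFn N β) P) := by
    intro β
    rw [qExpansion_aeval hN' _ (nice_conjFn N β)]
    congr 2
    ext g : 1
    exact (qExpansion_conjFn N β g).symm
  rw [hq] at h0 ⊢
  have hz : MvPolynomial.aeval (conjFn N (cos0 N)) P = 0 :=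
    (nice_aeval _ (nice_conjFn N (cos0 N)) P).eq_zero_of_qExpansion hN' h0
  have hα : MvPolynomial.aeval (conjFn N α) P = 0 := by
    ext τ
    set γ : SL(2, ℤ) := (rep N (cos0 N))⁻¹ * rep N α with hγ
    have hrel : ∀ g, conjFn N α g = conjFn N (cos0 N) g ∣[(12 : ℤ)] γ := by
      intro g
      unfold conjFn
      rw [← SlashAction.slash_mul, hγ, mul_inv_cancel_left]
    rw [aeval_apply_eq_eval]
    have : (fun g ↦ conjFn N α g τ) =
        fun g ↦ (UpperHalfPlane.denom γ τ) ^ (-(12 : ℤ)) * conjFn N (cos0 N) g (γ • τ) := by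
      ext g
      rw [hrel g, ModularForm.SL_slash_apply]
      ring
    rw [this, eval_mul_of_isHomogeneous hP, ← aeval_apply_eq_eval, hz]
    simp
  rw [hα, qExpansion_zero]

end Fermat.Agent.S28
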