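import Fermat.Agent.S28.Hnf
import Mathlib.NumberTheory.ModularForms.QExpansion

/-!
# S28 helper: slash by upper triangular matrices and the conjugates of `f(dτ)`
-/

set_option autoImplicit false

open scoped MatrixGroups ModularForm
open UpperHalfPlane ModularForm

namespace Fermat.Agent.S28

/-- The upper triangular matrix `!![a, b; 0, d]` in `GL(2, ℝ)` (junk value `1` if `a * d = 0`). -/
noncomputable def ut (a b d : ℕ) : GL (Fin 2) ℝ :=
  if h : ((a : ℝ) * (d : ℝ)) ≠ 0 then ModularForm.upperTriangularGL a b d h else 1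

theorem val_ut {a b d : ℕ} (ha : 0 < a) (hd : 0 < d) :
    ((ut a b d : GL (Fin 2) ℝ) : Matrix (Fin 2) (Fin 2) ℝ) = !![(a : ℝ), (b : ℝ); 0, (d : ℝ)] := by
  have h : ((a : ℝ) * (d : ℝ)) ≠ 0 := by positivity
  simp [ut, h]

theorem det_ut {a b d : ℕ} (ha : 0 < a) (hd : 0 < d) : ((ut a b d).det : ℝ) = a * d := by
  rw [Matrix.GeneralLinearGroup.val_det_apply, val_ut ha hd, Matrix.det_fin_two_of]
  ring

theorem det_ut_pos {a b d : ℕ} (ha : 0 < a) (hd : 0 < d) : 0 < ((ut a b d).det : ℝ) := by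
  rw [det_ut ha hd]; positivity

theorem denom_ut {a b d : ℕ} (ha : 0 < a) (hd : 0 < d) (τ : ℍ) :
    UpperHalfPlane.denom (ut a b d) τ = d := by
  simp [UpperHalfPlane.denom, val_ut ha hd]

theorem coe_ut_smul {a b d : ℕ} (ha : 0 < a) (hd : 0 < d) (τ : ℍ) :
    ((ut a b d • τ : ℍ) : ℂ) = ((a : ℂ) * (τ : ℂ) + b) / d := by
  rw [UpperHalfPlane.coe_smul_of_det_pos (det_ut_pos ha hd)]
  simp [UpperHalfPlane.num, UpperHalfPlane.denom, val_ut ha hd]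

theorem σ_ut {a b d : ℕ} (ha : 0 < a) (hd : 0 < d) :
    UpperHalfPlane.σ (ut a b d) = .refl ℝ ℂ := by
  rw [UpperHalfPlane.σ, if_pos (det_ut_pos ha hd)]

theorem slash_ut_apply (k : ℤ) {a b d : ℕ} (ha : 0 < a) (hd : 0 < d) (f : ℍ → ℂ) (τ : ℍ) :
    (f ∣[k] ut a b d) τ = f (ut a b d • τ) * ((a : ℂ) * d) ^ (k - 1) * (d : ℂ) ^ (-k) := by
  rw [ModularForm.slash_apply, σ_ut ha hd, det_ut ha hd, denom_ut ha hd]
  have : |(a : ℝ) * (d : ℝ)| = (a : ℝ) * d := abs_of_pos (by positivity)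
  simp [this]

/-- GL version of the Hermite normal form. -/
theorem hnf_GL (γ : SL(2, ℤ)) (d : ℕ) (hd : 0 < d) :
    ∃ (γ' : SL(2, ℤ)) (a b d' : ℕ), 0 < a ∧ 0 < d' ∧ a * d' = d ∧
      a = Nat.gcd d (γ 1 0).natAbs ∧ b < d' ∧
      ut d 0 1 * (γ : GL (Fin 2) ℝ) = (γ' : GL (Fin 2) ℝ) * ut a b d' := by
  obtain ⟨γ', a, b, d', ha, hd', hadd, hag, hb, h⟩ := hnf_int γ d hd
  refine ⟨γ', a, b, d', ha, hd', hadd, hag, hb, ?_⟩
  apply Matrix.GeneralLinearGroup.ext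
  intro i j
  have h' := congrArg (fun M : Matrix (Fin 2) (Fin 2) ℤ => M.map (Int.castRingHom ℝ)) h
  simp only [Matrix.map_mul] at h'
  have e1 : ((ut d 0 1 * (γ : GL (Fin 2) ℝ) : GL (Fin 2) ℝ) : Matrix (Fin 2) (Fin 2) ℝ) =
      (!![(d : ℤ), 0; 0, 1] : Matrix (Fin 2) (Fin 2) ℤ).map (Int.castRingHom ℝ) *
        (γ : Matrix (Fin 2) (Fin 2) ℤ).map (Int.castRingHom ℝ) := by
    rw [Matrix.GeneralLinearGroup.coe_mul, val_ut hd one_pos]
    congr 1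
    · ext i j; fin_cases i <;> fin_cases j <;> simp
  have e2 : (((γ' : GL (Fin 2) ℝ) * ut a b d' : GL (Fin 2) ℝ) : Matrix (Fin 2) (Fin 2) ℝ) =
      (γ' : Matrix (Fin 2) (Fin 2) ℤ).map (Int.castRingHom ℝ) *
        (!![(a : ℤ), (b : ℤ); 0, (d' : ℤ)] : Matrix (Fin 2) (Fin 2) ℤ).map
          (Int.castRingHom ℝ) := by
    rw [Matrix.GeneralLinearGroup.coe_mul, val_ut ha hd']
    congr 1
    · ext i j; fin_cases i <;> fin_cases j <;> simp
  rw [e1, e2, h']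

end Fermat.Agent.S28
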