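import Mathlib.NumberTheory.ModularForms.LevelOne.DimensionFormula
import Mathlib.NumberTheory.ModularForms.LevelOne.Basic
import Mathlib.NumberTheory.ModularForms.CuspFormSubmodule
import Mathlib.NumberTheory.ModularForms.QExpansion
import Mathlib.NumberTheory.ModularForms.Discriminant

/-!
# S28 Package T: a level one modular form without zeros on `ℍ` is `c * Δ ^ s`

* `Fermat.Agent.S28.levelOneOfData` : a holomorphic, `SL(2,ℤ)`-invariant function which is bounded
  at `i∞` is a level one modular form.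
* `Fermat.Agent.S28.eq_const_mul_discriminant_pow`.
-/

set_option autoImplicit false

open scoped MatrixGroups ModularForm Real Manifold
open UpperHalfPlane hiding I
open ModularForm Complex Filter Topology

namespace Fermat.Agent.S28

/-- A holomorphic `SL(2,ℤ)`-invariant function, bounded at `i∞`, as a level one modular form. -/
noncomputable def levelOneOfData (k : ℤ) (f : ℍ → ℂ) (h1 : MDiff f)
    (h2 : ∀ γ : SL(2, ℤ), f ∣[k] γ = f) (h3 : IsBoundedAtImInfty f) : ModularForm 𝒮ℒ k where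
  toFun := f
  slash_action_eq' := by
    rintro γ ⟨γ', rfl⟩
    exact h2 γ'
  holo' := h1
  bdd_at_cusps' := by
    intro c hc
    rw [OnePoint.isBoundedAt_iff_forall_SL2Z hc]
    intro γ _
    rw [h2 γ]
    exact h3

@[simp] theorem coe_levelOneOfData (k : ℤ) (f : ℍ → ℂ) (h1 : MDiff f)
    (h2 : ∀ γ : SL(2, ℤ), f ∣[k] γ = f) (h3 : IsBoundedAtImInfty f) :
    ⇑(levelOneOfData k f h1 h2 h3) = f := rfl

/-- A level one modular form tends to its constant `q`-coefficient at `i∞`. -/
theorem pkgT_tendsto (k : ℤ) (F : ModularForm 𝒮ℒ k) :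
    Tendsto (fun τ : ℍ ↦ F τ) atImInfty (𝓝 ((qExpansion 1 F).coeff 0)) := by
  have han : AnalyticAt ℂ (cuspFunction 1 (F : ℍ → ℂ)) 0 :=
    ModularFormClass.analyticAt_cuspFunction_zero F one_pos one_mem_strictPeriods_SL
  have hper : Function.Periodic ((F : ℍ → ℂ) ∘ ofComplex) 1 :=
    SlashInvariantFormClass.periodic_comp_ofComplex F one_mem_strictPeriods_SL
  have h0 : (qExpansion 1 F).coeff 0 = cuspFunction 1 (F : ℍ → ℂ) 0 := by
    rw [qExpansion_coeff_zero one_pos han hper, cuspFunction_apply_zero one_pos han hper]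
  rw [h0]
  have : (cuspFunction 1 (F : ℍ → ℂ) ∘ fun τ : ℍ ↦ Function.Periodic.qParam 1 τ : ℍ → ℂ) =
      fun τ ↦ F τ := by
    funext τ
    simpa using eq_cuspFunction τ one_ne_zero hper
  rw [← this]
  exact han.continuousAt.tendsto.comp (qParam_tendsto_atImInfty one_pos)

/-- A level one form of positive weight without zeros has vanishing constant term. -/
theorem pkgT_coeff_zero (k : ℤ) (hk : 0 < k) (F : ModularForm 𝒮ℒ k) (hF : ∀ τ : ℍ, F τ ≠ 0) :
    (qExpansion 1 F).coeff 0 = 0 := by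
  by_contra h0
  -- `1 / F` is a modular form of weight `-k < 0`
  have hmd : MDiff (fun τ : ℍ ↦ (1 : ℂ) / F τ) :=
    (mdifferentiable_const (c := (1 : ℂ))).div F.holo' hF
  have hsl : ∀ γ : SL(2, ℤ), (fun τ : ℍ ↦ (1 : ℂ) / F τ) ∣[(-k)] γ = fun τ ↦ (1 : ℂ) / F τ := by
    intro γ
    have h1 : (fun τ : ℍ ↦ (1 : ℂ) / F τ) = (1 : ℍ → ℂ) / (F : ℍ → ℂ) := by
      ext τ; simp
    have hFs : (F : ℍ → ℂ) ∣[k] γ = F := SlashInvariantForm.slash_action_eqn F _ ⟨γ, rfl⟩
    have h1s : (1 : ℍ → ℂ) ∣[(0 : ℤ)] γ = 1 := by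
      ext τ
      simp [ModularForm.SL_slash_apply]
    rw [h1, show (-k) = 0 - k by ring, div_slash_SL2, hFs, h1s]
  have hbd : IsBoundedAtImInfty (fun τ : ℍ ↦ (1 : ℂ) / F τ) := by
    have ht := (pkgT_tendsto k F).inv₀ h0
    have ht' : Tendsto (fun τ : ℍ ↦ (1 : ℂ) / F τ) atImInfty
        (𝓝 ((qExpansion 1 F).coeff 0)⁻¹) := by
      simpa [one_div] using ht
    exact ht'.isBigO_one ℝ
  have hz := ModularFormClass.levelOne_neg_weight_eq_zero (k := -k) (by omega)
    (levelOneOfData (-k) _ hmd hsl hbd)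
  have := congrFun hz UpperHalfPlane.I
  simp only [coe_levelOneOfData, Pi.zero_apply, one_div, inv_eq_zero] at this
  exact hF _ this

theorem pkgT_aux : ∀ (n : ℕ) (k : ℤ) (F : ModularForm 𝒮ℒ k), k.toNat = n →
    (∀ τ : ℍ, F τ ≠ 0) →
    ∃ (s : ℕ) (c : ℂ), c ≠ 0 ∧ k = 12 * (s : ℤ) ∧
      ∀ τ : ℍ, F τ = c * ModularForm.discriminant τ ^ s := by
  intro n
  induction n using Nat.strong_induction_on with
  | _ n ih =>
    intro k F hkn hF
    rcases lt_trichotomy k 0 with hk | hk | hk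
    · exfalso
      have hz := ModularFormClass.levelOne_neg_weight_eq_zero hk F
      exact hF UpperHalfPlane.I (by rw [hz]; rfl)
    · subst hk
      obtain ⟨c, hc⟩ := ModularFormClass.levelOne_weight_zero_const F
      refine ⟨0, c, ?_, by simp, fun τ ↦ ?_⟩
      · intro h0
        apply hF UpperHalfPlane.I
        rw [hc, h0]; rfl
      · rw [hc]; simp
    · have h0 := pkgT_coeff_zero k hk F hF
      set F' : ModularForm 𝒮ℒ (k - 12) :=
        CuspForm.discriminantEquiv (ModularForm.toCuspForm F h0) with hF'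
      have hF'apply : ∀ τ : ℍ, F' τ = F τ / ModularForm.discriminant τ := fun τ ↦ by
        rw [hF', CuspForm.discriminantEquiv_apply, ModularForm.toCuspForm_apply]
      have hF'ne : ∀ τ : ℍ, F' τ ≠ 0 := fun τ ↦ by
        rw [hF'apply]
        exact div_ne_zero (hF τ) (ModularForm.discriminant_ne_zero τ)
      have hlt : (k - 12).toNat < n := by omega
      obtain ⟨s, c, hc, hks, hval⟩ := ih _ hlt (k - 12) F' rfl hF'ne
      refine ⟨s + 1, c, hc, by push_cast; omega, fun τ ↦ ?_⟩
      have := hval τ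
      rw [hF'apply, div_eq_iff (ModularForm.discriminant_ne_zero τ)] at this
      rw [this, pow_succ]
      ring

/-- **Package T**: a level one modular form without zeros on `ℍ` is `c * Δ ^ s`. -/
theorem eq_const_mul_discriminant_pow (k : ℤ) (F : ModularForm 𝒮ℒ k) (hF : ∀ τ : ℍ, F τ ≠ 0) :
    ∃ (s : ℕ) (c : ℂ), c ≠ 0 ∧ k = 12 * (s : ℤ) ∧
      ∀ τ : ℍ, F τ = c * ModularForm.discriminant τ ^ s :=
  pkgT_aux _ k F rfl hF

end Fermat.Agent.S28
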