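import Fermat.Agent.S28.AC
import Mathlib.RingTheory.PowerSeries.Expand

/-!
# S28: elementary facts on the conjugate data `cA`, `cB`, `cD`, `conjS`, and `AC4`

* `cA_eq_gcd`, `cA_cos0`, `cD_cos0`, `cB_cos0`, `cA_one`, `cD_one`, `cB_one`
* `ac4 : AC4 N` (distinct cosets have distinct Hermite normal forms at `d = N`)
* `cA_eq_self_iff`
* explicit coefficients of `conjS`, `conjS_eq_expand`
* low coefficients of `baseSeries`
-/

set_option autoImplicit false

open scoped MatrixGroups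
open CongruenceSubgroup

namespace Fermat.Agent.S28

/-! ### (a) the gcd formula -/

theorem cA_eq_gcd (N : ℕ) [NeZero N] (α : Cos N) {d : ℕ} (hd : d ∣ N) :
    cA N α d = Nat.gcd d (cA N α N) := by
  unfold cA
  rw [← Nat.gcd_assoc, Nat.gcd_eq_left hd]

/-! ### (b) data at the identity coset -/

theorem rep_cos0_mem (N : ℕ) : rep N (cos0 N) ∈ Gamma0 N := by
  unfold rep cos0
  have h : ((Quotient.out (QuotientGroup.mk 1 : Cos N) : SL(2, ℤ)) : Cos N) =
      QuotientGroup.mk 1 := Quotient.out_eq _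
  rw [QuotientGroup.eq] at h
  simpa using h

theorem dvd_rep_cos0 (N : ℕ) : N ∣ ((rep N (cos0 N)) 1 0).natAbs := by
  have h := rep_cos0_mem N
  rw [Gamma0_mem, ZMod.intCast_zmod_eq_zero_iff_dvd] at h
  exact Int.natCast_dvd.mp h

theorem cA_cos0 (N : ℕ) [NeZero N] {d : ℕ} (hd : d ∣ N) : cA N (cos0 N) d = d := by
  unfold cA
  exact Nat.gcd_eq_left (hd.trans (dvd_rep_cos0 N))

theorem cD_cos0 (N : ℕ) [NeZero N] {d : ℕ} (hd : d ∣ N) : cD N (cos0 N) d = 1 := by
  unfold cD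
  rw [cA_cos0 N hd]
  exact Nat.div_self (Nat.pos_of_dvd_of_pos hd (NeZero.pos N))

theorem cB_cos0 (N : ℕ) [NeZero N] {d : ℕ} (hd : d ∣ N) : cB N (cos0 N) d = 0 := by
  have hdpos : 0 < d := Nat.pos_of_dvd_of_pos hd (NeZero.pos N)
  have h := cB_lt N (cos0 N) hdpos
  rw [cD_cos0 N hd] at h
  omega

/-! ### (c) `d = 1` -/

theorem cA_one (N : ℕ) (α : Cos N) : cA N α 1 = 1 := by
  unfold cA
  exact Nat.gcd_one_left _

theorem cD_one (N : ℕ) (α : Cos N) : cD N α 1 = 1 := by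
  unfold cD
  rw [cA_one]

theorem cB_one (N : ℕ) (α : Cos N) : cB N α 1 = 0 := by
  have h := cB_lt N α (d := 1) one_pos
  rw [cD_one] at h
  omega

/-! ### `AC4` -/

/-- If `diag(N,1) * M = Γ * diag(N,1)` in `GL(2,ℝ)` with `M, Γ ∈ SL(2,ℤ)`, then `M ∈ Γ₀(N)`. -/
theorem mem_Gamma0_of_conj (N : ℕ) (hN : 0 < N) (M Γ : SL(2, ℤ))
    (h : ut N 0 1 * (M : GL (Fin 2) ℝ) = (Γ : GL (Fin 2) ℝ) * ut N 0 1) : M ∈ Gamma0 N := by
  have h' := congrArg (fun g : GL (Fin 2) ℝ => (g : Matrix (Fin 2) (Fin 2) ℝ) 1 0) h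
  simp only [Matrix.GeneralLinearGroup.coe_mul, val_ut hN one_pos, Matrix.mul_apply,
    Fin.sum_univ_two] at h'
  simp at h'
  -- h' : (M 1 0 : ℝ) = (Γ 1 0 : ℝ) * N
  have hz : (M 1 0 : ℤ) = Γ 1 0 * (N : ℤ) := by
    have : ((M 1 0 : ℤ) : ℝ) = ((Γ 1 0 * (N : ℤ) : ℤ) : ℝ) := by
      push_cast
      linarith
    exact_mod_cast this
  rw [Gamma0_mem, hz]
  simp

theorem ac4 (N : ℕ) [NeZero N] : AC4 N := by
  intro α β hA hB
  have hNpos : 0 < N := NeZero.pos N
  obtain ⟨γα, hα⟩ := cB_spec N α hNpos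
  obtain ⟨γβ, hβ⟩ := cB_spec N β hNpos
  have hD : cD N α N = cD N β N := by unfold cD; rw [hA]
  rw [hA, hB, hD] at hα
  have hT : ut (cA N β N) (cB N β N) (cD N β N) =
      (γβ : GL (Fin 2) ℝ)⁻¹ * (ut N 0 1 * (rep N β : GL (Fin 2) ℝ)) := by
    rw [hβ]; group
  have key : ut N 0 1 * ((rep N α * (rep N β)⁻¹ : SL(2, ℤ)) : GL (Fin 2) ℝ) =
      ((γα * γβ⁻¹ : SL(2, ℤ)) : GL (Fin 2) ℝ) * ut N 0 1 := by
    simp only [map_mul, map_inv]
    rw [← mul_assoc, hα, hT]
    group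
  have hmem := mem_Gamma0_of_conj N hNpos _ _ key
  -- rep α * (rep β)⁻¹ = (out α)⁻¹ * out β
  unfold rep at hmem
  rw [inv_inv] at hmem
  have := (QuotientGroup.eq (s := Gamma0 N)).mpr hmem
  rwa [QuotientGroup.out_eq', QuotientGroup.out_eq'] at this

theorem cA_eq_self_iff (N : ℕ) [NeZero N] (α : Cos N) : cA N α N = N ↔ α = cos0 N := by
  constructor
  · intro h
    apply ac4 N
    · rw [h, cA_cos0 N dvd_rfl]
    · have hD : cD N α N = 1 := by
        unfold cD; rw [h]; exact Nat.div_self (NeZero.pos N)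
      have hlt := cB_lt N α (NeZero.pos N)
      rw [hD] at hlt
      rw [cB_cos0 N dvd_rfl]
      omega
  · rintro rfl
    exact cA_cos0 N dvd_rfl

/-! ### (d) explicit coefficients of `conjS` and `baseSeries` -/

theorem coeff_conjS_mul {A : Type*} [CommRing A] (z : A) (N a b d' : ℕ) (φ : PowerSeries ℤ)
    (he : a * N / d' ≠ 0) (r : ℕ) :
    PowerSeries.coeff ((a * N / d') * r) (conjS A z N a b d' φ) =
      (a : A) ^ 12 * ((z ^ (b * (N / d'))) ^ r * ((PowerSeries.coeff r φ : ℤ) : A)) := by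
  unfold conjS
  rw [PowerSeries.coeff_mk, if_pos (Dvd.intro _ rfl),
    Nat.mul_div_cancel_left _ (Nat.pos_of_ne_zero he)]

theorem coeff_conjS_of_not_dvd {A : Type*} [CommRing A] (z : A) (N a b d' : ℕ)
    (φ : PowerSeries ℤ) {n : ℕ} (h : ¬ (a * N / d') ∣ n) :
    PowerSeries.coeff n (conjS A z N a b d' φ) = 0 := by
  unfold conjS
  rw [PowerSeries.coeff_mk, if_neg h]

theorem conjS_eq_expand {A : Type*} [CommRing A] (z : A) (N a b d' : ℕ) (φ : PowerSeries ℤ)
    (he : a * N / d' ≠ 0) :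
    conjS A z N a b d' φ = (a : A) ^ 12 • PowerSeries.expand (a * N / d') he
      (PowerSeries.rescale (z ^ (b * (N / d'))) (PowerSeries.map (Int.castRingHom A) φ)) := by
  ext n
  rw [PowerSeries.coeff_smul, PowerSeries.coeff_expand]
  by_cases h : (a * N / d') ∣ n
  · rw [if_pos h]
    obtain ⟨r, rfl⟩ := h
    rw [coeff_conjS_mul z N a b d' φ he, Nat.mul_div_cancel_left _ (Nat.pos_of_ne_zero he),
      PowerSeries.coeff_rescale, PowerSeries.coeff_map]
    simp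
  · rw [if_neg h, coeff_conjS_of_not_dvd z N a b d' φ h, smul_zero]

theorem coeff_zero_baseSeries_true : PowerSeries.coeff 0 (baseSeries true) = 1 := by
  simp [baseSeries]

theorem coeff_zero_baseSeries_false : PowerSeries.coeff 0 (baseSeries false) = 0 := by
  simp [baseSeries]

theorem coeff_one_baseSeries_false : PowerSeries.coeff 1 (baseSeries false) = 1 := by
  unfold baseSeries
  rw [show (1 : ℕ) = 0 + 1 from rfl, PowerSeries.coeff_succ_X_mul,
    PowerSeries.coeff_zero_eq_constantCoeff_apply, map_pow, ModularCurve.constantCoeff_etaProd,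
    one_pow]

end Fermat.Agent.S28
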