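import Mathlib

/-!
# S28, Package V: a valuation subring of `ℂ` over `ℓ`, scaling, rational descent (pure algebra)
-/

set_option autoImplicit false

namespace Fermat.Agent.S28

/-- for `x ≠ 0` in a valuation subring: `x⁻¹ ∉ V ↔ v x < 1`. -/
theorem S28_inv_not_mem_iff (V : ValuationSubring ℂ) (x : ℂ) :
    x⁻¹ ∉ V ↔ V.valuation x < 1 ∧ x ≠ 0 := by
  rw [← V.valuation_le_one_iff, map_inv₀, not_le]
  constructor
  · intro h
    have hx : x ≠ 0 := by
      rintro rfl
      simp at h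
    have hv : V.valuation x ≠ 0 := (Valuation.ne_zero_iff _).2 hx
    exact ⟨(one_lt_inv₀ (zero_lt_iff.2 hv)).1 h, hx⟩
  · rintro ⟨h, hx⟩
    have hv : V.valuation x ≠ 0 := (Valuation.ne_zero_iff _).2 hx
    exact (one_lt_inv₀ (zero_lt_iff.2 hv)).2 h

/-- V2: elements of `ℂ` integral over `ℤ` lie in every valuation subring. -/
theorem mem_valuationSubring_of_isIntegral (V : ValuationSubring ℂ) (z : ℂ) (hz : IsIntegral ℤ z) :
    z ∈ V := by
  have h : IsIntegral V z := hz.tower_top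
  obtain ⟨y, rfl⟩ := IsIntegrallyClosed.isIntegral_iff.1 h
  exact y.2

/-- integers lie in every valuation subring. -/
theorem S28_intCast_mem (V : ValuationSubring ℂ) (n : ℤ) : (n : ℂ) ∈ V :=
  intCast_mem V n

/-- V1: a valuation subring of `ℂ` in which `ℓ` is a non-unit. -/
theorem exists_valuationSubring_prime (ℓ : ℕ) (hℓ : ℓ.Prime) :
    ∃ V : ValuationSubring ℂ, (ℓ : ℂ) ∈ V ∧ ((ℓ : ℂ))⁻¹ ∉ V := by
  let A : Subring ℂ := (Int.castRingHom ℂ).range
  let a : A := ⟨(ℓ : ℂ), ⟨(ℓ : ℤ), by simp⟩⟩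
  have hI : Ideal.span {a} ≠ ⊤ := by
    intro h
    rw [Ideal.span_singleton_eq_top] at h
    obtain ⟨⟨b, n, hn⟩, hb⟩ := isUnit_iff_exists_inv.1 h
    have h1 : ((ℓ : ℂ)) * b = 1 := congrArg Subtype.val hb
    rw [← hn] at h1
    have h2 : ((ℓ : ℤ)) * n = 1 := by
      have : (((ℓ : ℤ) * n : ℤ) : ℂ) = ((1 : ℤ) : ℂ) := by
        push_cast
        simpa using h1
      exact_mod_cast this
    have h3 : ((ℓ : ℤ)) ∣ 1 := ⟨n, h2.symm⟩
    have h4 : (ℓ : ℤ) = 1 ∨ (ℓ : ℤ) = -1 := Int.isUnit_iff.1 (isUnit_of_dvd_one h3)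
    have hℓ2 := hℓ.two_le
    omega
  obtain ⟨V, _, hV⟩ := Ideal.image_subset_nonunits_valuationSubring (Ideal.span {a}) hI
  have hmem : (ℓ : ℂ) ∈ V.nonunits := hV ⟨a, Ideal.subset_span rfl, rfl⟩
  rw [ValuationSubring.mem_nonunits_iff] at hmem
  refine ⟨V, ?_, ?_⟩
  · rw [← V.valuation_le_one_iff]
    exact hmem.le
  · rw [S28_inv_not_mem_iff]
    exact ⟨hmem, by exact_mod_cast hℓ.ne_zero⟩

/-- V3: integers prime to `ℓ` are units of `V`. -/
theorem inv_natCast_mem_valuationSubring (V : ValuationSubring ℂ) (ℓ : ℕ) (hℓ : ℓ.Prime)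
    (hV : ((ℓ : ℂ))⁻¹ ∉ V) (N : ℕ) (hN : ¬ ℓ ∣ N) : ((N : ℂ))⁻¹ ∈ V := by
  by_contra hNV
  rw [S28_inv_not_mem_iff] at hV hNV
  have hcop : IsCoprime (N : ℤ) (ℓ : ℤ) := by
    rw [Int.isCoprime_iff_gcd_eq_one, Int.gcd_natCast_natCast]
    exact ((Nat.Prime.coprime_iff_not_dvd hℓ).2 hN).symm
  obtain ⟨u, w, huw⟩ := hcop
  have h1 : ((u : ℂ)) * (N : ℂ) + (w : ℂ) * (ℓ : ℂ) = 1 := by exact_mod_cast huw
  have hu : V.valuation (u : ℂ) ≤ 1 := (V.valuation_le_one_iff _).2 (S28_intCast_mem V u)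
  have hw : V.valuation (w : ℂ) ≤ 1 := (V.valuation_le_one_iff _).2 (S28_intCast_mem V w)
  have h2 : V.valuation ((u : ℂ) * (N : ℂ)) < 1 := by
    rw [map_mul]
    exact mul_lt_one_of_nonneg_of_lt_one_right hu zero_le hNV.1
  have h3 : V.valuation ((w : ℂ) * (ℓ : ℂ)) < 1 := by
    rw [map_mul]
    exact mul_lt_one_of_nonneg_of_lt_one_right hw zero_le hV.1
  have h4 := Valuation.map_add_lt _ h2 h3
  rw [h1, map_one] at h4
  exact lt_irrefl _ h4

/-- V4: a nonzero finite family can be scaled into `V` with one member a unit. -/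
theorem exists_scale_valuationSubring (V : ValuationSubring ℂ) {ι : Type} [Finite ι] (x : ι → ℂ)
    (hx : x ≠ 0) :
    ∃ c : ℂ, c ≠ 0 ∧ (∀ i, c * x i ∈ V) ∧ ∃ i, c * x i ∈ V ∧ (c * x i)⁻¹ ∈ V := by
  cases nonempty_fintype ι
  obtain ⟨k, hk⟩ : ∃ k, x k ≠ 0 := by
    by_contra h
    push Not at h
    exact hx (funext h)
  obtain ⟨i, -, hi⟩ := Finset.exists_max_image Finset.univ (fun i => V.valuation (x i))
    ⟨k, Finset.mem_univ k⟩
  have hvk : V.valuation (x k) ≠ 0 := (Valuation.ne_zero_iff _).2 hk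
  have hvi : V.valuation (x i) ≠ 0 := by
    intro h0
    have := hi k (Finset.mem_univ k)
    rw [h0] at this
    exact hvk (le_zero_iff.1 this)
  have hxi : x i ≠ 0 := (Valuation.ne_zero_iff _).1 hvi
  refine ⟨(x i)⁻¹, inv_ne_zero hxi, fun j => ?_, i, ?_, ?_⟩
  · rw [← V.valuation_le_one_iff, map_mul, map_inv₀]
    rw [inv_mul_le_iff₀ (zero_lt_iff.2 hvi), mul_one]
    exact hi j (Finset.mem_univ j)
  · rw [inv_mul_cancel₀ hxi]; exact V.one_mem
  · rw [inv_mul_cancel₀ hxi, inv_one]; exact V.one_mem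

/-- V5: the residue field of `V` has characteristic `ℓ`. -/
theorem charP_residueField_valuationSubring (V : ValuationSubring ℂ) (ℓ : ℕ) (hℓ : ℓ.Prime)
    (hV : ((ℓ : ℂ))⁻¹ ∉ V) : CharP (IsLocalRing.ResidueField V) ℓ := by
  rw [CharP.charP_iff_prime_eq_zero hℓ]
  rw [S28_inv_not_mem_iff] at hV
  have h1 : ((ℓ : V) : ℂ) = (ℓ : ℂ) := by simp
  have h2 : (ℓ : V) ∈ IsLocalRing.maximalIdeal V := by
    rw [V.valuation_lt_one_iff, h1]
    exact hV.1
  have h3 : IsLocalRing.residue V (ℓ : V) = 0 := (IsLocalRing.residue_eq_zero_iff _).2 h2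
  rwa [map_natCast] at h3

/-- V6 (rational descent): a homogeneous linear system with rational coefficients (possibly
infinitely many equations) that has a nonzero complex solution has a nonzero integer solution. -/
theorem exists_int_solution {ι κ : Type} [Fintype ι] (A : κ → ι → ℚ) (x : ι → ℂ) (hx : x ≠ 0)
    (h : ∀ k, ∑ i, (A k i : ℂ) * x i = 0) :
    ∃ y : ι → ℤ, y ≠ 0 ∧ ∀ k, ∑ i, A k i * (y i : ℚ) = 0 := by
  classical
  obtain ⟨i₀, hi₀⟩ : ∃ k, x k ≠ 0 := by
    by_contra h'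
    push Not at h'
    exact hx (funext h')
  -- a `ℚ`-linear functional not vanishing at `x i₀`
  obtain ⟨π, hπ, -⟩ := Submodule.exists_dual_map_eq_bot_of_notMem (R := ℚ) (M := ℂ)
    (p := ⊥) (x := x i₀) (by simpa using hi₀) inferInstance
  -- rational solution
  have hz : ∀ k, ∑ i, A k i * π (x i) = 0 := by
    intro k
    have := congrArg π (h k)
    rw [map_sum, map_zero] at this
    rw [← this]
    refine Finset.sum_congr rfl fun i _ => ?_
    have : ((A k i : ℂ)) * x i = (A k i) • x i := by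
      rw [Algebra.smul_def]; rfl
    rw [this, map_smul, smul_eq_mul]
  -- clear denominators
  obtain ⟨b, hb⟩ := IsLocalization.exist_integer_multiples (nonZeroDivisors ℤ) Finset.univ
    (fun i => π (x i))
  have hb0 : (b : ℤ) ≠ 0 := nonZeroDivisors.coe_ne_zero b
  choose y hy using fun i => hb i (Finset.mem_univ i)
  have hy' : ∀ i, (y i : ℚ) = (b : ℤ) * π (x i) := by
    intro i
    have := hy i
    simpa [Algebra.smul_def] using this
  refine ⟨y, ?_, fun k => ?_⟩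
  · intro h0
    have := hy' i₀
    rw [h0] at this
    simp only [Pi.zero_apply, Int.cast_zero] at this
    rcases mul_eq_zero.1 this.symm with h1 | h1
    · exact hb0 (by exact_mod_cast h1)
    · exact hπ h1
  · calc ∑ i, A k i * (y i : ℚ) = (b : ℤ) * ∑ i, A k i * π (x i) := by
          rw [Finset.mul_sum]
          refine Finset.sum_congr rfl fun i _ => ?_
          rw [hy' i]; ring
      _ = 0 := by rw [hz k, mul_zero]

end Fermat.Agent.S28
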