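import Fermat.Agent.S28.AC
import Fermat.Agent.S28.Data
import Fermat.Agent.S28.LevelOneQ
import Fermat.Prelude.Thm_ModularForm_sturm_bound_Gamma0

/-!
# S28, AC2 (Rank): any `ψ + 1` forms of the same degree in the generators are dependent over
binary forms in `E = E₄³`, `D = Δ` (dimension count via the Prelude Sturm bound)

Main result: `Fermat.Agent.S28.ac2 : AC2 N`.
-/

set_option autoImplicit false

open scoped MatrixGroups ModularForm Real
open UpperHalfPlane hiding I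
open ModularForm Complex CongruenceSubgroup

namespace Fermat.Agent.S28

/-- restriction of a modular form to a subgroup -/
noncomputable def rk_restrictMF {Γ Γ' : Subgroup (GL (Fin 2) ℝ)} {k : ℤ} (h : Γ' ≤ Γ)
    (f : ModularForm Γ k) : ModularForm Γ' k where
  toFun := f
  slash_action_eq' γ hγ := f.slash_action_eq' γ (h hγ)
  holo' := f.holo'
  bdd_at_cusps' hc := f.bdd_at_cusps' (hc.mono h)

@[simp] lemma rk_coe_restrictMF {Γ Γ' : Subgroup (GL (Fin 2) ℝ)} {k : ℤ} (h : Γ' ≤ Γ)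
    (f : ModularForm Γ k) : ⇑(rk_restrictMF h f) = ⇑f := rfl

open ConjAct Pointwise in
lemma rk_Gamma0_le_conj_ut (N : ℕ) [NeZero N] {d : ℕ} (hd : d ∣ N) :
    ((Gamma0 N : Subgroup SL(2, ℤ)) : Subgroup (GL (Fin 2) ℝ)) ≤
      toConjAct (ut d 0 1)⁻¹ • (𝒮ℒ : Subgroup (GL (Fin 2) ℝ)) := by
  have hd0 : 0 < d := Nat.pos_of_dvd_of_pos hd (Nat.pos_of_ne_zero (NeZero.ne N))
  rintro x ⟨γ, hγ, rfl⟩
  rw [map_inv, Subgroup.mem_inv_pointwise_smul_iff, toConjAct_smul]
  obtain ⟨γ', a, b, d', ha, hd', hadd, hag, hb, h⟩ := hnf_GL γ d hd0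
  have hc : (N : ℤ) ∣ γ 1 0 := by
    have := (Gamma0_mem).mp hγ
    exact (ZMod.intCast_zmod_eq_zero_iff_dvd _ _).mp this
  have hdc : d ∣ (γ 1 0).natAbs := by
    have : (d : ℤ) ∣ γ 1 0 := dvd_trans (by exact_mod_cast hd) hc
    exact Int.natCast_dvd.mp this
  have ha' : a = d := by rw [hag]; exact Nat.gcd_eq_left hdc
  subst ha'
  have hd1 : d' = 1 := by
    have : a * d' = a * 1 := by rw [hadd, mul_one]
    exact Nat.eq_of_mul_eq_mul_left ha this
  subst hd1
  have hb0 : b = 0 := by omega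
  subst hb0
  refine ⟨γ', ?_⟩
  rw [eq_mul_inv_iff_mul_eq]
  exact h.symm


lemma rk_one_mem_strictPeriods_Gamma0 (N : ℕ) :
    (1 : ℝ) ∈ ((Gamma0 N : Subgroup SL(2, ℤ)) : Subgroup (GL (Fin 2) ℝ)).strictPeriods := by
  simp

/-- the level one base forms of weight 12: `E₄³` and `Δ` -/
noncomputable def rk_baseForm : Bool → ModularForm 𝒮ℒ 12
  | true => ModularForm.mcast (by norm_num) (E₄.pow 3)
  | false => ModularFormClass.modularForm CuspForm.discriminant

lemma rk_coe_baseForm (f : Bool) : ⇑(rk_baseForm f) = baseFn f := by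
  cases f
  · rfl
  · ext τ
    show (E₄.pow 3) τ = E₄ τ ^ 3
    rw [ModularForm.coe_pow]
    rfl

lemma rk_qExpansion_baseForm (f : Bool) :
    qExpansion 1 (rk_baseForm f) = PowerSeries.map (Int.castRingHom ℂ) (baseSeries f) := by
  cases f
  · show qExpansion 1 ModularForm.discriminant = _
    rw [qExpansion_discriminant_eq]; rfl
  · show qExpansion 1 (E₄.pow 3) = _
    rw [ModularForm.qExpansion_pow one_pos one_mem_strictPeriods_SL'',
      qExpansion_E4_eq, baseSeries, map_pow]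

/-- the generators as modular forms of weight 12 on `Γ₀(N)` -/
noncomputable def rk_genForm (N : ℕ) [NeZero N] (g : Gen N) : ModularForm (Gamma0 N) 12 :=
  (((g.2 : ℕ) : ℂ)) • rk_restrictMF (rk_Gamma0_le_conj_ut N (Nat.dvd_of_mem_divisors g.2.2))
    (ModularForm.translate (rk_baseForm g.1) (ut g.2 0 1))

lemma rk_coe_genForm (N : ℕ) [NeZero N] (g : Gen N) : ⇑(rk_genForm N g) = genFn g.1 g.2 := by
  ext τ
  show ((g.2 : ℕ) : ℂ) • (⇑(rk_baseForm g.1) ∣[(12 : ℤ)] ut g.2 0 1) τ = _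
  rw [rk_coe_baseForm]
  rfl


local notation "𝕢" => Function.Periodic.qParam

/-- the coefficients of the `q`-expansion of the generator `g` -/
noncomputable def rk_genCoeff (N : ℕ) (g : Gen N) (n : ℕ) : ℂ :=
  if (g.2 : ℕ) ∣ n then ((g.2 : ℕ) : ℂ) ^ 12 *
    ((PowerSeries.coeff (n / (g.2 : ℕ)) (baseSeries g.1) : ℤ) : ℂ) else 0

lemma rk_hasSum_genForm (N : ℕ) [NeZero N] (g : Gen N) (τ : ℍ) :
    HasSum (fun n ↦ rk_genCoeff N g n • 𝕢 (1 : ℝ) (τ : ℂ) ^ n) (rk_genForm N g τ) := by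
  have hd0 : 0 < (g.2 : ℕ) := Nat.pos_of_mem_divisors g.2.2
  have h1 := hasSum_slash_ut (rk_baseForm g.1) (a := (g.2 : ℕ)) (b := 0) (d := 1) (N := 1) hd0 one_pos
    one_pos (g.2 : ℕ) (by simp) τ
  have h2 := h1.mul_left (((g.2 : ℕ) : ℂ))
  have hval : rk_genForm N g τ = ((g.2 : ℕ) : ℂ) * (⇑(rk_baseForm g.1) ∣[(12 : ℤ)] ut (g.2 : ℕ) 0 1) τ := rfl
  rw [hval]
  simp only [Nat.cast_one] at h2
  refine h2.congr_fun ?_ |>.congr_fun fun _ ↦ rfl
  intro n
  simp only [rk_genCoeff, conjCoeff, smul_eq_mul]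
  have hroot : rootU 0 1 = 1 := by simp [rootU]
  have hsl : slashConst 12 (g.2 : ℕ) 1 = ((g.2 : ℕ) : ℂ) ^ 11 := by
    simp [slashConst]
  by_cases hdn : (g.2 : ℕ) ∣ n
  · simp only [hdn, if_true, hroot, hsl, one_pow, one_mul, rk_qExpansion_baseForm,
      PowerSeries.coeff_map, eq_intCast]
    ring
  · simp [hdn]

lemma rk_qExpansion_genForm (N : ℕ) [NeZero N] (g : Gen N) :
    qExpansion 1 (rk_genForm N g) = PowerSeries.mk (rk_genCoeff N g) := by
  ext n
  rw [PowerSeries.coeff_mk]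
  exact (ModularFormClass.qExpansion_coeff_unique one_pos (rk_one_mem_strictPeriods_Gamma0 N)
    (f := rk_genForm N g) (rk_hasSum_genForm N g) n).symm


lemma rk_csC_cos0_eq (N : ℕ) [NeZero N]
    (hA : ∀ d : N.divisors, cA N (cos0 N) d = d) (hB : ∀ d : N.divisors, cB N (cos0 N) d = 0)
    (hD : ∀ d : N.divisors, cD N (cos0 N) d = 1) (g : Gen N) :
    csC N (cos0 N) g = PowerSeries.expand N (NeZero.ne N) (qExpansion 1 (rk_genForm N g)) := by
  have hN0 : 0 < N := Nat.pos_of_ne_zero (NeZero.ne N)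
  have hd0 : 0 < (g.2 : ℕ) := Nat.pos_of_mem_divisors g.2.2
  rw [rk_qExpansion_genForm]
  ext n
  simp only [csC, cs, conjS, hA g.2, hB g.2, hD g.2, PowerSeries.coeff_mk, Nat.div_one, zero_mul,
    pow_zero, one_pow, one_mul]
  by_cases hNn : N ∣ n
  · obtain ⟨m, rfl⟩ := hNn
    rw [PowerSeries.coeff_expand_mul, PowerSeries.coeff_mk, rk_genCoeff]
    have h1 : ((g.2 : ℕ) * N ∣ N * m) ↔ ((g.2 : ℕ) ∣ m) := by
      rw [mul_comm (g.2 : ℕ) N]
      exact Nat.mul_dvd_mul_iff_left hN0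
    have h2 : N * m / ((g.2 : ℕ) * N) = m / (g.2 : ℕ) := by
      rw [mul_comm (g.2 : ℕ) N]
      exact Nat.mul_div_mul_left _ _ hN0
    simp only [h1, h2]
  · rw [PowerSeries.coeff_expand_of_not_dvd _ _ _ hNn]
    have : ¬ ((g.2 : ℕ) * N ∣ n) := fun h ↦ hNn (dvd_trans (dvd_mul_left N _) h)
    simp [this]

/-- the generators as functions -/
noncomputable def rk_genFun (N : ℕ) [NeZero N] (g : Gen N) : ℍ → ℂ := ⇑(rk_genForm N g)

lemma rk_aeval_analytic_qExp (N : ℕ) [NeZero N] (P : MvPolynomial (Gen N) ℂ) :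
    AnalyticAt ℂ (cuspFunction 1 (MvPolynomial.aeval (rk_genFun N) P)) 0 ∧
    qExpansion 1 (MvPolynomial.aeval (rk_genFun N) P)
      = MvPolynomial.aeval (fun g ↦ qExpansion 1 (rk_genForm N g)) P := by
  induction P using MvPolynomial.induction_on with
  | C a =>
    have h1 : (MvPolynomial.aeval (rk_genFun N) (MvPolynomial.C a) : ℍ → ℂ)
        = ⇑(a • (1 : ModularForm (Gamma0 N) 0)) := by
      ext τ
      simp
    rw [h1]
    refine ⟨ModularFormClass.analyticAt_cuspFunction_zero _ one_pos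
      (rk_one_mem_strictPeriods_Gamma0 N), ?_⟩
    rw [show (⇑(a • (1 : ModularForm (Gamma0 N) 0)) : ℍ → ℂ)
        = a • ⇑(1 : ModularForm (Gamma0 N) 0) from rfl,
      ModularForm.qExpansion_smul one_pos (rk_one_mem_strictPeriods_Gamma0 N),
      ModularForm.qExpansion_one, MvPolynomial.aeval_C, PowerSeries.smul_eq_C_mul, mul_one,
      PowerSeries.C_eq_algebraMap]
  | add p q hp hq =>
    obtain ⟨hp1, hp2⟩ := hp
    obtain ⟨hq1, hq2⟩ := hq
    rw [map_add, map_add]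
    refine ⟨?_, ?_⟩
    · rw [cuspFunction_add hp1.continuousAt hq1.continuousAt]
      exact hp1.add hq1
    · rw [qExpansion_add hp1 hq1, hp2, hq2]
  | mul_X p g hp =>
    obtain ⟨hp1, hp2⟩ := hp
    have hg1 : AnalyticAt ℂ (cuspFunction 1 (rk_genFun N g)) 0 :=
      ModularFormClass.analyticAt_cuspFunction_zero (rk_genForm N g) one_pos
        (rk_one_mem_strictPeriods_Gamma0 N)
    rw [map_mul, map_mul, MvPolynomial.aeval_X, MvPolynomial.aeval_X]
    refine ⟨?_, ?_⟩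
    · rw [cuspFunction_mul hp1.continuousAt hg1.continuousAt]
      exact hp1.mul hg1
    · rw [qExpansion_mul hp1 hg1, hp2]
      rfl

lemma rk_aeval_csC_cos0 (N : ℕ) [NeZero N]
    (hA : ∀ d : N.divisors, cA N (cos0 N) d = d) (hB : ∀ d : N.divisors, cB N (cos0 N) d = 0)
    (hD : ∀ d : N.divisors, cD N (cos0 N) d = 1) (P : MvPolynomial (Gen N) ℂ) :
    MvPolynomial.aeval (csC N (cos0 N)) P
      = PowerSeries.expand N (NeZero.ne N) (qExpansion 1 (MvPolynomial.aeval (rk_genFun N) P)) := by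
  rw [(rk_aeval_analytic_qExp N P).2]
  have h1 : (csC N (cos0 N)) = fun g ↦
      PowerSeries.expand N (NeZero.ne N) (qExpansion 1 (rk_genForm N g)) := by
    funext g
    exact rk_csC_cos0_eq N hA hB hD g
  rw [h1]
  exact (MvPolynomial.comp_aeval_apply (f := fun g ↦ qExpansion 1 (rk_genForm N g))
    (PowerSeries.expand N (NeZero.ne N)) P).symm


/-- `f` is the underlying function of a modular form of weight `k` on `Γ₀(N)` -/
def rk_IsM (N : ℕ) (k : ℤ) (f : ℍ → ℂ) : Prop :=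
  ∃ F : ModularForm (Gamma0 N) k, ⇑F = f

namespace rk_IsM

variable {N : ℕ} {k l : ℤ} {f g : ℍ → ℂ}

lemma add (hf : rk_IsM N k f) (hg : rk_IsM N k g) : rk_IsM N k (f + g) := by
  obtain ⟨F, rfl⟩ := hf
  obtain ⟨G, rfl⟩ := hg
  exact ⟨F + G, rfl⟩

lemma smul (c : ℂ) (hf : rk_IsM N k f) : rk_IsM N k (c • f) := by
  obtain ⟨F, rfl⟩ := hf
  exact ⟨c • F, rfl⟩

lemma zero : rk_IsM N k (0 : ℍ → ℂ) := ⟨0, rfl⟩

lemma mul {m : ℤ} (hf : rk_IsM N k f) (hg : rk_IsM N l g) (hm : m = k + l) : rk_IsM N m (f * g) := by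
  subst hm
  obtain ⟨F, rfl⟩ := hf
  obtain ⟨G, rfl⟩ := hg
  exact ⟨F.mul G, rfl⟩

lemma one : rk_IsM N 0 (1 : ℍ → ℂ) := ⟨1, rfl⟩

lemma pow (hf : rk_IsM N k f) (n : ℕ) : rk_IsM N (n * k) (f ^ n) := by
  induction n with
  | zero =>
    simp only [Nat.cast_zero, zero_mul, pow_zero]
    exact one
  | succ n ih =>
    rw [pow_succ]
    exact ih.mul hf (by push_cast; ring)

lemma sum {ι : Type*} (s : Finset ι) (F : ι → ℍ → ℂ) (h : ∀ i ∈ s, rk_IsM N k (F i)) :
    rk_IsM N k (∑ i ∈ s, F i) := by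
  classical
  induction s using Finset.induction_on with
  | empty => simpa using zero
  | insert a s ha ih =>
    rw [Finset.sum_insert ha]
    exact (h a (Finset.mem_insert_self a s)).add
      (ih fun i hi ↦ h i (Finset.mem_insert_of_mem hi))

end rk_IsM

lemma rk_isM_genFun (N : ℕ) [NeZero N] (g : Gen N) : rk_IsM N 12 (rk_genFun N g) := ⟨rk_genForm N g, rfl⟩

lemma rk_isM_monomial (N : ℕ) [NeZero N] (v : Gen N →₀ ℕ) :
    rk_IsM N (12 * (v.degree : ℤ)) (v.prod fun g k ↦ rk_genFun N g ^ k) := by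
  classical
  induction v using Finsupp.induction with
  | zero =>
    simp only [Finsupp.prod_zero_index, map_zero, Nat.cast_zero, mul_zero]
    exact rk_IsM.one
  | single_add a b v ha hb ih =>
    rw [Finsupp.prod_add_index' (fun _ ↦ pow_zero _) (fun _ _ _ ↦ pow_add _ _ _)]
    have h1 : ((Finsupp.single a b).prod fun g k ↦ rk_genFun N g ^ k) = rk_genFun N a ^ b :=
      Finsupp.prod_single_index (pow_zero _)
    rw [h1]
    refine ((rk_isM_genFun N a).pow b).mul ih ?_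
    rw [map_add, Finsupp.degree_single]
    push_cast
    ring

lemma rk_isM_aeval (N : ℕ) [NeZero N] {m : ℕ} {P : MvPolynomial (Gen N) ℂ}
    (hP : P.IsHomogeneous m) : rk_IsM N (12 * (m : ℤ)) (MvPolynomial.aeval (rk_genFun N) P) := by
  classical
  conv_rhs => rw [P.as_sum]
  rw [map_sum]
  refine rk_IsM.sum _ _ fun v hv ↦ ?_
  rw [MvPolynomial.aeval_monomial, Algebra.algebraMap_eq_smul_one, smul_mul_assoc, one_mul]
  have hv' : v.degree = m := by
    by_contra hne
    exact (MvPolynomial.mem_support_iff.mp hv) (hP.coeff_eq_zero hne)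
  rw [← hv']
  exact (rk_isM_monomial N v).smul _


lemma rk_qExpansion_sum_smul (N : ℕ) [NeZero N] {k : ℤ} {ι : Type*} (s : Finset ι)
    (lam : ι → ℂ) (H : ι → ModularForm (Gamma0 N) k) :
    qExpansion 1 (⇑(∑ x ∈ s, lam x • H x)) = ∑ x ∈ s, lam x • qExpansion 1 (H x) := by
  have h1 := map_sum (ModularForm.qExpansionAddHom one_pos (rk_one_mem_strictPeriods_Gamma0 N) k)
    (fun x ↦ lam x • H x) s
  have h2 : ∀ x, ModularForm.qExpansionAddHom one_pos (rk_one_mem_strictPeriods_Gamma0 N) k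
      (lam x • H x) = lam x • qExpansion 1 (H x) := fun x ↦
    ModularForm.qExpansion_smul one_pos (rk_one_mem_strictPeriods_Gamma0 N) (lam x) (H x)
  simp only [h2] at h1
  exact h1

/-- the exponent vector of `E^a D^(s-a)` -/
noncomputable def rk_dmon (s : ℕ) (a : Fin (s + 1)) : Bool →₀ ℕ :=
  Finsupp.single true (a : ℕ) + Finsupp.single false (s - (a : ℕ))

lemma rk_dmon_degree (s : ℕ) (a : Fin (s + 1)) : (rk_dmon s a).degree = s := by
  rw [rk_dmon, map_add, Finsupp.degree_single, Finsupp.degree_single]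
  have := a.2
  omega

lemma rk_dmon_injective (s : ℕ) : Function.Injective (rk_dmon s) := by
  intro a b h
  have h1 := DFunLike.congr_fun h true
  simp [rk_dmon] at h1
  exact Fin.ext h1

theorem rk_ac2_aux (N : ℕ) [NeZero N]
    (hA : ∀ d : N.divisors, cA N (cos0 N) d = d) (hB : ∀ d : N.divisors, cB N (cos0 N) d = 0)
    (hD : ∀ d : N.divisors, cD N (cos0 N) d = 1) (ψ : ℕ)
    (hidx : (CongruenceSubgroup.Gamma0 N).index = ψ) (m : ℕ)
    (P : Fin (ψ + 1) → MvPolynomial (Gen N) ℂ) (hP : ∀ i, (P i).IsHomogeneous m) :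
    ∃ (s : ℕ) (c : Fin (ψ + 1) → MvPolynomial Bool ℂ),
      (∀ i, (c i).IsHomogeneous s) ∧ (∃ i, c i ≠ 0) ∧
      ∑ i, MvPolynomial.aeval (csC N (cos0 N)) (MvPolynomial.rename (gen1 N) (c i) * P i) = 0 := by
  classical
  set s := m * ψ + 1 with hs
  set Q : Fin (s + 1) × Fin (ψ + 1) → MvPolynomial (Gen N) ℂ := fun x ↦
    MvPolynomial.rename (gen1 N) (MvPolynomial.monomial (rk_dmon s x.1) (1 : ℂ)) * P x.2 with hQdef
  have hQ : ∀ x, (Q x).IsHomogeneous (s + m) := fun x ↦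
    ((MvPolynomial.isHomogeneous_monomial (1 : ℂ) (rk_dmon_degree s x.1)).rename_isHomogeneous).mul
      (hP x.2)
  have hM : ∀ x, rk_IsM N (12 * ((s + m : ℕ) : ℤ)) (MvPolynomial.aeval (rk_genFun N) (Q x)) :=
    fun x ↦ rk_isM_aeval N (hQ x)
  choose H hH using hM
  set B := (s + m) * ψ with hB'
  set v : Fin (s + 1) × Fin (ψ + 1) → (Fin (B + 1) → ℂ) := fun x n ↦
    PowerSeries.coeff (n : ℕ) (qExpansion 1 (H x)) with hv
  set L : (Fin (s + 1) × Fin (ψ + 1) → ℂ) →ₗ[ℂ] (Fin (B + 1) → ℂ) :=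
    Fintype.linearCombination ℂ v with hL
  have hker : LinearMap.ker L ≠ ⊥ := by
    apply LinearMap.ker_ne_bot_of_finrank_lt
    simp only [Module.finrank_fintype_fun_eq_card, Fintype.card_fin, Fintype.card_prod]
    rw [hB', hs]
    nlinarith [Nat.zero_le m, Nat.zero_le ψ, Nat.zero_le (m * ψ)]
  obtain ⟨lam, hlam, hlam0⟩ := Submodule.exists_mem_ne_zero_of_ne_bot hker
  set F : ModularForm (Gamma0 N) (12 * ((s + m : ℕ) : ℤ)) := ∑ x, lam x • H x with hF
  have hFq : qExpansion 1 F = ∑ x, lam x • qExpansion 1 (H x) :=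
    rk_qExpansion_sum_smul N Finset.univ lam H
  have hF0 : F = 0 := by
    apply ModularForm.sturm_bound_Gamma0 N F
    intro n hn
    have hn' : n ≤ B := by
      rw [hidx] at hn
      have : ((12 * ((s + m : ℕ) : ℤ)) * (ψ : ℤ)).toNat = 12 * ((s + m) * ψ) := by
        have : (12 * ((s + m : ℕ) : ℤ)) * (ψ : ℤ) = ((12 * ((s + m) * ψ) : ℕ) : ℤ) := by
          push_cast; ring
        rw [this, Int.toNat_natCast]
      rw [this, Nat.mul_div_cancel_left _ (by norm_num : 0 < 12)] at hn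
      exact hn
    have h1 : L lam = 0 := hlam
    have h2 := congrFun h1 ⟨n, Nat.lt_succ_of_le hn'⟩
    rw [hFq, map_sum]
    simp only [hL, Fintype.linearCombination_apply, Finset.sum_apply, Pi.smul_apply, hv,
      smul_eq_mul, Pi.zero_apply] at h2
    simpa [PowerSeries.coeff_smul] using h2
  -- the binary forms
  refine ⟨s, fun i ↦ ∑ a : Fin (s + 1), MvPolynomial.monomial (rk_dmon s a) (lam (a, i)),
    fun i ↦ ?_, ?_, ?_⟩
  · exact MvPolynomial.IsHomogeneous.sum _ _ _ fun a _ ↦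
      MvPolynomial.isHomogeneous_monomial _ (rk_dmon_degree s a)
  · obtain ⟨⟨a₀, i₀⟩, hx⟩ : ∃ x, lam x ≠ 0 := by
      by_contra hcon
      push Not at hcon
      exact hlam0 (funext hcon)
    refine ⟨i₀, fun h0 ↦ hx ?_⟩
    have h1 := congrArg (MvPolynomial.coeff (rk_dmon s a₀)) h0
    rw [MvPolynomial.coeff_sum] at h1
    simp only [MvPolynomial.coeff_monomial, MvPolynomial.coeff_zero] at h1
    rw [Finset.sum_eq_single a₀] at h1
    · simpa using h1
    · intro b _ hb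
      rw [if_neg]
      exact fun h ↦ hb (rk_dmon_injective s h)
    · intro h; exact absurd (Finset.mem_univ _) h
  · have hterm : ∀ i, MvPolynomial.rename (gen1 N)
        (∑ a : Fin (s + 1), MvPolynomial.monomial (rk_dmon s a) (lam (a, i))) * P i
        = ∑ a : Fin (s + 1), MvPolynomial.C (lam (a, i)) * Q (a, i) := by
      intro i
      rw [map_sum, Finset.sum_mul]
      refine Finset.sum_congr rfl fun a _ ↦ ?_
      rw [hQdef]
      simp only
      rw [← mul_assoc, MvPolynomial.rename_monomial, MvPolynomial.rename_monomial,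
        MvPolynomial.C_mul_monomial, mul_one]
    show ∑ i, MvPolynomial.aeval (csC N (cos0 N)) (MvPolynomial.rename (gen1 N)
      (∑ a : Fin (s + 1), MvPolynomial.monomial (rk_dmon s a) (lam (a, i))) * P i) = 0
    simp only [hterm]
    simp only [map_sum, map_mul, MvPolynomial.aeval_C]
    have hx : ∀ x : Fin (s + 1) × Fin (ψ + 1),
        MvPolynomial.aeval (csC N (cos0 N)) (Q x)
          = PowerSeries.expand N (NeZero.ne N) (qExpansion 1 (H x)) := by
      intro x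
      rw [rk_aeval_csC_cos0 N hA hB hD, hH x]
    simp only [hx]
    have hfin : ∑ i : Fin (ψ + 1), ∑ a : Fin (s + 1),
        (algebraMap ℂ (PowerSeries ℂ)) (lam (a, i)) *
          PowerSeries.expand N (NeZero.ne N) (qExpansion 1 (H (a, i)))
        = PowerSeries.expand N (NeZero.ne N) (qExpansion 1 F) := by
      rw [hFq, map_sum, Fintype.sum_prod_type, Finset.sum_comm]
      refine Finset.sum_congr rfl fun i _ ↦ Finset.sum_congr rfl fun a _ ↦ ?_
      rw [PowerSeries.expand_smul, Algebra.smul_def]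
    rw [hfin, hF0]
    have : qExpansion 1 (⇑(0 : ModularForm (Gamma0 N) (12 * ((s + m : ℕ) : ℤ)))) = 0 :=
      qExpansion_zero 1
    rw [this, map_zero]

/-- `AC2` from the data at `cos0`. -/
theorem ac2_of_data (N : ℕ) [NeZero N]
    (hA : ∀ d : N.divisors, cA N (cos0 N) d = d) (hB : ∀ d : N.divisors, cB N (cos0 N) d = 0)
    (hD : ∀ d : N.divisors, cD N (cos0 N) d = 1) : AC2 N :=
  fun m P hP ↦ rk_ac2_aux N hA hB hD (Nat.card (Cos N)) rfl m P hP

/-- **AC2** (Rank). -/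
theorem ac2 (N : ℕ) [NeZero N] : AC2 N :=
  ac2_of_data N (fun d ↦ cA_cos0 N (Nat.dvd_of_mem_divisors d.2))
    (fun d ↦ cB_cos0 N (Nat.dvd_of_mem_divisors d.2))
    (fun d ↦ cD_cos0 N (Nat.dvd_of_mem_divisors d.2))

end Fermat.Agent.S28
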