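import Fermat.Agent.S28.Conj
import Fermat.Agent.S28.Data
import Fermat.Agent.S28.ValRing

/-!
# S28 AC3, Package LC: level one vs level `N` expansions, leading coefficients, `IsGood` facts
-/

set_option autoImplicit false

open scoped MatrixGroups ModularForm Real Manifold
open UpperHalfPlane hiding I
open ModularForm Complex CongruenceSubgroup

namespace Fermat.Agent.S28

theorem lc_ut_one : ut 1 0 1 = 1 := by
  apply Matrix.GeneralLinearGroup.ext
  intro i j
  rw [val_ut one_pos one_pos]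
  fin_cases i <;> fin_cases j <;> simp

theorem lc_natCast_mem_strictPeriods_SL (N : ℕ) :
    ((N : ℕ) : ℝ) ∈ (𝒮ℒ : Subgroup (GL (Fin 2) ℝ)).strictPeriods := by
  have h : N • (1 : ℝ) ∈ (𝒮ℒ : Subgroup (GL (Fin 2) ℝ)).strictPeriods :=
    nsmul_mem one_mem_strictPeriods_SL N
  simpa using h

/-- LC1: the `q^{1/N}`-expansion of a level one form is the `q`-expansion expanded by `N`. -/
theorem coeff_qExpansion_levelOne (N : ℕ) (hN : 0 < N) (k : ℤ) (F : ModularForm 𝒮ℒ k) (n : ℕ) :
    (qExpansion (N : ℝ) F).coeff (N * n) = (qExpansion 1 F).coeff n := by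
  have hN' : (0 : ℝ) < N := by exact_mod_cast hN
  have key := ModularFormClass.qExpansion_coeff_unique (f := F)
    (c := conjCoeff k 1 0 1 N (fun m ↦ (qExpansion 1 F).coeff m)) hN'
    (lc_natCast_mem_strictPeriods_SL N) (fun τ => by
      have h := hasSum_slash_ut F (a := 1) (b := 0) (d := 1) one_pos one_pos hN N (by ring) τ
      rw [lc_ut_one, SlashAction.slash_one] at h
      exact h) (N * n)
  rw [← key]
  simp only [conjCoeff, dvd_mul_right, if_true, Nat.mul_div_cancel_left n hN]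
  simp [slashConst, rootU]

/-- two-factor case of LC2. -/
theorem lc_lead_mul (f g : PowerSeries ℂ) (a b : ℕ)
    (hf : ∀ m < a, PowerSeries.coeff m f = 0) (hg : ∀ m < b, PowerSeries.coeff m g = 0) :
    (∀ m < a + b, PowerSeries.coeff m (f * g) = 0) ∧
      PowerSeries.coeff (a + b) (f * g) = PowerSeries.coeff a f * PowerSeries.coeff b g := by
  constructor
  · intro m hm
    rw [PowerSeries.coeff_mul]
    refine Finset.sum_eq_zero ?_
    rintro ⟨i, j⟩ hij
    rw [Finset.HasAntidiagonal.mem_antidiagonal] at hij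
    simp only at hij
    by_cases hi : i < a
    · rw [hf i hi, zero_mul]
    · rw [hg j (by omega), mul_zero]
  · rw [PowerSeries.coeff_mul, Finset.sum_eq_single (a, b)]
    · rintro ⟨i, j⟩ hij hne
      rw [Finset.HasAntidiagonal.mem_antidiagonal] at hij
      simp only at hij
      by_cases hi : i < a
      · rw [hf i hi, zero_mul]
      · have hj : j < b := by
          by_contra hj
          apply hne
          have h1 : i = a := by omega
          have h2 : j = b := by omega
          rw [h1, h2]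
        rw [hg j hj, mul_zero]
    · intro h
      exact absurd (Finset.HasAntidiagonal.mem_antidiagonal.2 (by simp)) h

/-- LC2: orders add and leading coefficients multiply (finite products of power series). -/
theorem lead_prod {ι : Type*} (s : Finset ι) (p : ι → PowerSeries ℂ) (e : ι → ℕ)
    (hlow : ∀ i ∈ s, ∀ m < e i, PowerSeries.coeff m (p i) = 0) :
    (∀ m < ∑ i ∈ s, e i, PowerSeries.coeff m (∏ i ∈ s, p i) = 0) ∧
      PowerSeries.coeff (∑ i ∈ s, e i) (∏ i ∈ s, p i) = ∏ i ∈ s, PowerSeries.coeff (e i) (p i) := by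
  classical
  induction s using Finset.induction_on with
  | empty =>
    refine ⟨fun m hm => absurd hm (by simp), ?_⟩
    simp
  | insert a s ha ih =>
    have ih' := ih (fun i hi => hlow i (Finset.mem_insert_of_mem hi))
    have h := lc_lead_mul (p a) (∏ i ∈ s, p i) (e a) (∑ i ∈ s, e i)
      (hlow a (Finset.mem_insert_self a s)) ih'.1
    rw [Finset.sum_insert ha, Finset.prod_insert ha, Finset.prod_insert ha]
    refine ⟨h.1, ?_⟩
    rw [h.2, ih'.2]

/-- LC3: order and leading coefficient of the conjugates of `Δ_d`. -/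
theorem csC_false_low (N : ℕ) [NeZero N] (α : Cos N) (d : N.divisors) (m : ℕ)
    (hm : m < cA N α d * N / cD N α d) : PowerSeries.coeff m (csC N α (false, d)) = 0 := by
  unfold csC cs
  by_cases h : (cA N α d * N / cD N α d) ∣ m
  · obtain ⟨r, rfl⟩ := h
    have he : cA N α d * N / cD N α d ≠ 0 := by omega
    have hr : r = 0 := by
      by_contra hr
      have : cA N α d * N / cD N α d * 1 ≤ cA N α d * N / cD N α d * r :=
        Nat.mul_le_mul_left _ (Nat.one_le_iff_ne_zero.2 hr)
      omega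
    subst hr
    rw [coeff_conjS_mul _ _ _ _ _ _ he, coeff_zero_baseSeries_false]
    simp
  · exact coeff_conjS_of_not_dvd _ _ _ _ _ _ h

theorem lc_e_ne_zero (N : ℕ) [NeZero N] (α : Cos N) (d : N.divisors) :
    cA N α d * N / cD N α d ≠ 0 := by
  have hd : 0 < (d : ℕ) := Nat.pos_of_mem_divisors d.2
  have hdN : (d : ℕ) ∣ N := Nat.dvd_of_mem_divisors d.2
  have hD : cD N α d ∣ N := (Dvd.intro_left _ (cA_mul_cD N α d)).trans hdN
  have hDpos := cD_pos N α hd
  have hApos := cA_pos N α hd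
  rw [Nat.mul_div_assoc _ hD]
  exact Nat.mul_ne_zero hApos.ne'
    (Nat.div_pos (Nat.le_of_dvd (NeZero.pos N) hD) hDpos).ne'

theorem csC_false_lead (N : ℕ) [NeZero N] (α : Cos N) (d : N.divisors) :
    PowerSeries.coeff (cA N α d * N / cD N α d) (csC N α (false, d)) =
      (cA N α d : ℂ) ^ 12 * zetaC N ^ (cB N α d * (N / cD N α d)) := by
  unfold csC cs
  have h := coeff_conjS_mul (zetaC N) N (cA N α d) (cB N α d) (cD N α d) (baseSeries false)
    (lc_e_ne_zero N α d) 1
  rw [mul_one, coeff_one_baseSeries_false] at h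
  rw [h]
  simp

theorem lc_zetaC_pow (N : ℕ) [NeZero N] : zetaC N ^ N = 1 := by
  unfold zetaC
  rw [← Complex.exp_nat_mul, mul_div_cancel₀ _ (by exact_mod_cast NeZero.ne N)]
  exact Complex.exp_two_pi_mul_I

theorem lc_zetaC_mem (N : ℕ) [NeZero N] (V : ValuationSubring ℂ) : zetaC N ∈ V := by
  refine mem_valuationSubring_of_isIntegral V _ ?_
  refine ⟨Polynomial.X ^ N - 1, Polynomial.monic_X_pow_sub_C 1 (NeZero.ne N), ?_⟩
  simp [lc_zetaC_pow N]

/-- LC4: `IsGood` facts. -/
theorem isGood_of_mem_closure (N : ℕ) [NeZero N] {x : ℂ} (hx : x ∈ Subring.closure {zetaC N}) :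
    IsGood N x := by
  intro V _
  have h : Subring.closure {zetaC N} ≤ V.toSubring := by
    rw [Subring.closure_le]
    intro y hy
    rw [Set.mem_singleton_iff] at hy
    rw [hy]
    exact lc_zetaC_mem N V
  exact h hx

theorem IsGood.mul {N : ℕ} {x y : ℂ} (hx : IsGood N x) (hy : IsGood N y) : IsGood N (x * y) :=
  fun V hV => V.mul_mem _ _ (hx V hV) (hy V hV)

theorem lc_isGood_pow {N : ℕ} {x : ℂ} (hx : IsGood N x) (n : ℕ) : IsGood N (x ^ n) :=
  fun V hV => pow_mem (hx V hV) n

theorem lc_isGood_inv_natCast (N : ℕ) [NeZero N] {a : ℕ} (ha : a ∣ N) : IsGood N ((a : ℂ))⁻¹ := by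
  intro V hV
  obtain ⟨b, hb⟩ := ha
  have ha0 : (a : ℂ) ≠ 0 := by
    intro h
    have : a = 0 := by exact_mod_cast h
    rw [this, zero_mul] at hb
    exact NeZero.ne N hb
  have hN0 : (N : ℂ) ≠ 0 := by exact_mod_cast NeZero.ne N
  have hb0 : (b : ℂ) ≠ 0 := by
    intro h
    have : b = 0 := by exact_mod_cast h
    rw [this, mul_zero] at hb
    exact NeZero.ne N hb
  have h : ((a : ℂ))⁻¹ = (b : ℂ) * ((N : ℂ))⁻¹ := by
    have hN : (N : ℂ) = (a : ℂ) * (b : ℂ) := by rw [hb]; push_cast; rfl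
    rw [hN]
    field_simp
  rw [h]
  exact V.mul_mem _ _ (natCast_mem V b) hV

theorem lc_isGood_inv_zetaC (N : ℕ) [NeZero N] : IsGood N (zetaC N)⁻¹ := by
  intro V _
  have h : (zetaC N)⁻¹ = zetaC N ^ (N - 1) := by
    apply inv_eq_of_mul_eq_one_right
    rw [← pow_succ']
    have : N - 1 + 1 = N := Nat.sub_add_cancel (NeZero.pos N)
    rw [this]
    exact lc_zetaC_pow N
  rw [h]
  exact pow_mem (lc_zetaC_mem N V) _

theorem isGood_inv_lead (N : ℕ) [NeZero N] (α : Cos N) (d : N.divisors) :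
    IsGood N ((cA N α d : ℂ) ^ 12 * zetaC N ^ (cB N α d * (N / cD N α d)))⁻¹ := by
  rw [mul_inv, ← inv_pow, ← inv_pow]
  exact (lc_isGood_pow (lc_isGood_inv_natCast N
    ((cA_dvd N α d).trans (Nat.dvd_of_mem_divisors d.2))) 12).mul
      (lc_isGood_pow (lc_isGood_inv_zetaC N) _)

theorem lead_ne_zero (N : ℕ) [NeZero N] (α : Cos N) (d : N.divisors) :
    (cA N α d : ℂ) ^ 12 * zetaC N ^ (cB N α d * (N / cD N α d)) ≠ 0 := by
  have hd : 0 < (d : ℕ) := Nat.pos_of_mem_divisors d.2
  have ha : (cA N α d : ℂ) ≠ 0 := by exact_mod_cast (cA_pos N α hd).ne'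
  have hz : zetaC N ≠ 0 := by unfold zetaC; exact Complex.exp_ne_zero _
  exact mul_ne_zero (pow_ne_zero _ ha) (pow_ne_zero _ hz)

end Fermat.Agent.S28
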