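import Fermat.Agent.S28.SymFn
import Fermat.Agent.S28.LeadCoeff

/-!
# S28: AC3 (Int) — modular equations via symmetric functions of the conjugates

Main result: `Fermat.Agent.S28.ac3 : AC3 N`.
-/

set_option autoImplicit false

open scoped MatrixGroups ModularForm Real Manifold
open UpperHalfPlane hiding I
open ModularForm Complex CongruenceSubgroup

namespace Fermat.Agent.S28

/-! ### generalities -/

theorem nice_prod {ι : Type*} {h : ℝ} (hh : 0 < h) (s : Finset ι) (f : ι → ℍ → ℂ)
    (hf : ∀ i ∈ s, Nice h (f i)) :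
    Nice h (∏ i ∈ s, f i) ∧ qExpansion h (∏ i ∈ s, f i) = ∏ i ∈ s, qExpansion h (f i) := by
  classical
  induction s using Finset.induction_on with
  | empty =>
    simp only [Finset.prod_empty]
    refine ⟨?_, qExpansion_one h⟩
    have : (1 : ℍ → ℂ) = fun _ ↦ (1 : ℂ) := rfl
    rw [this]
    exact Nice.const 1
  | insert i s hi ih =>
    have ih' := ih (fun j hj ↦ hf j (Finset.mem_insert_of_mem hj))
    have hfi := hf i (Finset.mem_insert_self i s)
    rw [Finset.prod_insert hi, Finset.prod_insert hi]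
    refine ⟨hfi.mul ih'.1, ?_⟩
    rw [qExpansion_mul (hfi.analyticAt hh) (ih'.1.analyticAt hh), ih'.2]

theorem isGood_one (N : ℕ) : IsGood N 1 := fun V _ ↦ V.one_mem

theorem isGood_prod {ι : Type*} (N : ℕ) (s : Finset ι) (f : ι → ℂ) (hf : ∀ i ∈ s, IsGood N (f i)) :
    IsGood N (∏ i ∈ s, f i) := by
  classical
  induction s using Finset.induction_on with
  | empty => simpa using isGood_one N
  | insert i s hi ih =>
    rw [Finset.prod_insert hi]
    exact IsGood.mul (hf i (Finset.mem_insert_self i s))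
      (ih (fun j hj ↦ hf j (Finset.mem_insert_of_mem hj)))

theorem lead_unique (p : PowerSeries ℂ) (m₁ m₂ : ℕ)
    (h₁ : ∀ m < m₁, PowerSeries.coeff m p = 0) (h₁' : PowerSeries.coeff m₁ p ≠ 0)
    (h₂ : ∀ m < m₂, PowerSeries.coeff m p = 0) (h₂' : PowerSeries.coeff m₂ p ≠ 0) : m₁ = m₂ := by
  rcases lt_trichotomy m₁ m₂ with h | h | h
  · exact absurd (h₂ m₁ h) h₁'
  · exact h
  · exact absurd (h₁ m₂ h) h₂'

/-! ### the conjugates of `Δ_d` have no zeros -/

theorem conjFn_false_ne_zero (N : ℕ) [NeZero N] (α : Cos N) (d : N.divisors) (τ : ℍ) :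
    conjFn N α (false, d) τ ≠ 0 := by
  have hd : 0 < (d : ℕ) := Nat.pos_of_mem_divisors d.2
  have ha := cA_pos N α hd
  have hd' := cD_pos N α hd
  rw [conjFn_eq]
  simp only [Pi.smul_apply, smul_eq_mul]
  rw [slash_ut_apply 12 ha hd']
  have h1 : ((d : ℕ) : ℂ) ≠ 0 := by exact_mod_cast hd.ne'
  have h2 : ((cA N α d : ℕ) : ℂ) ≠ 0 := by exact_mod_cast ha.ne'
  have h3 : ((cD N α d : ℕ) : ℂ) ≠ 0 := by exact_mod_cast hd'.ne'
  refine mul_ne_zero h1 (mul_ne_zero (mul_ne_zero ?_ ?_) ?_)
  · exact ModularForm.discriminant_ne_zero _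
  · exact zpow_ne_zero _ (mul_ne_zero h2 h3)
  · exact zpow_ne_zero _ h3

/-! ### step (c): level one expansions of the symmetric functions -/

section main

variable (N : ℕ) [NeZero N] [Fintype (Cos N)]

theorem cSym_expansion (A B : Gen N) (k : ℕ) :
    ∃ r : Fin (Fintype.card (Cos N) + 1) → ℂ, (∀ i, r i ∈ R0 N) ∧
      ∀ τ : ℍ, cSym N A B k τ = ∑ i : Fin (Fintype.card (Cos N) + 1),
        r i * E₄ τ ^ (3 * (i : ℕ)) *
          ModularForm.discriminant τ ^ (Fintype.card (Cos N) - (i : ℕ)) := by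
  have hN := NeZero.pos N
  obtain ⟨c, hc, h⟩ := levelOne_poly_of_coeff_mem (R0 N) (Fintype.card (Cos N))
    (cForm N A B k) (fun n ↦ by
      rw [← coeff_qExpansion_levelOne N hN]
      exact (niceR_cSym N A B k).2 (N * n))
  exact ⟨c, hc, h⟩

/-! ### step (d): the leading constant -/

/-- the leading coefficient of the conjugate `α` of `Δ_d` -/
noncomputable def leadL (α : Cos N) (d : N.divisors) : ℂ :=
  (cA N α d : ℂ) ^ 12 * zetaC N ^ (cB N α d * (N / cD N α d))

/-- the leading constant `c₀ = ∏_α (leading coefficient of the conjugate α of Δ_d)` -/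
noncomputable def leadC (d : N.divisors) : ℂ := ∏ α : Cos N, leadL N α d

theorem leadC_ne_zero (d : N.divisors) : leadC N d ≠ 0 :=
  Finset.prod_ne_zero_iff.mpr fun α _ ↦ lead_ne_zero N α d

theorem isGood_inv_leadC (d : N.divisors) : IsGood N (leadC N d)⁻¹ := by
  unfold leadC
  rw [← Finset.prod_inv_distrib]
  exact isGood_prod N _ _ fun α _ ↦ isGood_inv_lead N α d

theorem leadL_gen1 (α : Cos N) : leadL N α (gen1 N false).2 = 1 := by
  unfold leadL
  simp only [gen1]
  rw [cA_one, cB_one]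
  simp

theorem prod_conjFn_false (d : N.divisors) (τ : ℍ) :
    ∏ α : Cos N, conjFn N α (false, d) τ =
      leadC N d * ModularForm.discriminant τ ^ (Fintype.card (Cos N)) := by
  classical
  have hN := NeZero.pos N
  have hN' : (0 : ℝ) < N := by exact_mod_cast hN
  set ψ := Fintype.card (Cos N) with hψ
  set B : Gen N := (false, d) with hB
  -- the product as a level one form
  have htop : ⇑(cForm N B B ψ) = ∏ α : Cos N, conjFn N α B := by
    rw [coe_cForm, cSym_top]
  have hne : ∀ τ : ℍ, cForm N B B ψ τ ≠ 0 := by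
    intro τ
    rw [htop, Finset.prod_apply]
    exact Finset.prod_ne_zero_iff.mpr fun α _ ↦ conjFn_false_ne_zero N α d τ
  obtain ⟨s, c, hc, hks, hval⟩ := eq_const_mul_discriminant_pow _ (cForm N B B ψ) hne
  have hs : s = ψ := by
    have : (ψ : ℤ) = s := by linarith
    exact_mod_cast this.symm
  subst hs
  -- identify `c`
  have hfun : (∏ α : Cos N, conjFn N α B) =
      c • ∏ α : Cos N, conjFn N α (gen1 N false) := by
    ext τ
    rw [← htop, hval τ]
    simp only [Pi.smul_apply, smul_eq_mul, Finset.prod_apply, conjFn_gen1, baseFn,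
      Finset.prod_const, Finset.card_univ, Pi.pow_apply]
    rfl
  have hn1 := nice_prod hN' Finset.univ (fun α : Cos N ↦ conjFn N α B)
    (fun α _ ↦ nice_conjFn N α B)
  have hn2 := nice_prod hN' Finset.univ (fun α : Cos N ↦ conjFn N α (gen1 N false))
    (fun α _ ↦ nice_conjFn N α _)
  have hq : ∏ α : Cos N, csC N α B = c • ∏ α : Cos N, csC N α (gen1 N false) := by
    have h1 := hn1.2
    have h2 := hn2.2
    simp only [qExpansion_conjFn] at h1 h2
    rw [← h1, ← h2, hfun, qExpansion_smul (hn2.1.analyticAt hN')]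
  -- leading data of both sides
  have hl1 := lead_prod Finset.univ (fun α : Cos N ↦ csC N α B)
    (fun α ↦ cA N α d * N / cD N α d) (fun α _ m hm ↦ csC_false_low N α d m hm)
  have hl2 := lead_prod Finset.univ (fun α : Cos N ↦ csC N α (gen1 N false))
    (fun α ↦ cA N α (gen1 N false).2 * N / cD N α (gen1 N false).2)
    (fun α _ m hm ↦ csC_false_low N α (gen1 N false).2 m hm)
  have hlead1 : PowerSeries.coeff (∑ α : Cos N, cA N α d * N / cD N α d)
      (∏ α : Cos N, csC N α B) = leadC N d := by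
    rw [hl1.2]
    exact Finset.prod_congr rfl fun α _ ↦ csC_false_lead N α d
  have hlead2 : PowerSeries.coeff
      (∑ α : Cos N, cA N α (gen1 N false).2 * N / cD N α (gen1 N false).2)
      (c • ∏ α : Cos N, csC N α (gen1 N false)) = c := by
    rw [PowerSeries.coeff_smul, hl2.2]
    have : ∏ α : Cos N, PowerSeries.coeff
        (cA N α (gen1 N false).2 * N / cD N α (gen1 N false).2) (csC N α (gen1 N false)) = 1 := by
      apply Finset.prod_eq_one
      intro α _
      have := csC_false_lead N α (gen1 N false).2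
      rw [show ((false, (gen1 N false).2) : Gen N) = gen1 N false from rfl] at this
      rw [this]
      exact leadL_gen1 N α
    rw [this, smul_eq_mul, mul_one]
  have hlow2 : ∀ m < ∑ α : Cos N, cA N α (gen1 N false).2 * N / cD N α (gen1 N false).2,
      PowerSeries.coeff m (c • ∏ α : Cos N, csC N α (gen1 N false)) = 0 := by
    intro m hm
    rw [PowerSeries.coeff_smul, hl2.1 m hm, smul_zero]
  rw [← hq] at hlead2 hlow2
  have hm := lead_unique _ _ _ hl1.1 (by rw [hlead1]; exact leadC_ne_zero N d) hlow2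
    (by rw [hlead2]; exact hc)
  rw [← hm, hlead1] at hlead2
  have := hval τ
  rw [htop, Finset.prod_apply] at this
  rw [this, hlead2]

end main

/-! ### step (e): assembly -/

section assembly

variable (N : ℕ) [NeZero N] [Fintype (Cos N)]

local notation "Ψ" => Fintype.card (Cos N)

/-- the pointwise modular equation -/
theorem intRel_pointwise (A : Gen N) (d : N.divisors)
    (r₀ : ℕ → Fin (Ψ + 1) → ℂ)
    (hr₀ : ∀ k, ∀ τ : ℍ, cSym N A (false, d) k τ = ∑ i : Fin (Ψ + 1),
        r₀ k i * E₄ τ ^ (3 * (i : ℕ)) * ModularForm.discriminant τ ^ (Ψ - (i : ℕ))) (τ : ℍ) :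
    conjFn N (cos0 N) A τ ^ Ψ * ModularForm.discriminant τ ^ Ψ +
      ∑ k : Fin Ψ, ∑ i : Fin (Ψ + 1),
        ((leadC N d)⁻¹ * r₀ k i) *
          ((E₄ τ ^ 3) ^ (i : ℕ) * ModularForm.discriminant τ ^ (Ψ - (i : ℕ)) *
            conjFn N (cos0 N) A τ ^ (k : ℕ) *
            conjFn N (cos0 N) (false, d) τ ^ (Ψ - (k : ℕ))) = 0 := by
  have hv := cSym_vieta N A (false, d) (cos0 N) τ (conjFn_false_ne_zero N (cos0 N) d τ)
  rw [Finset.sum_range_succ, Finset.sum_range] at hv
  have htop : cSym N A (false, d) Ψ τ = leadC N d * ModularForm.discriminant τ ^ Ψ := by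
    rw [cSym_top, Finset.prod_apply]
    exact prod_conjFn_false N d τ
  rw [htop, Nat.sub_self, pow_zero, mul_one] at hv
  have hc := leadC_ne_zero N d
  have h2 : ∑ k : Fin Ψ, ∑ i : Fin (Ψ + 1), ((leadC N d)⁻¹ * r₀ k i) *
      ((E₄ τ ^ 3) ^ (i : ℕ) * ModularForm.discriminant τ ^ (Ψ - (i : ℕ)) *
        conjFn N (cos0 N) A τ ^ (k : ℕ) * conjFn N (cos0 N) (false, d) τ ^ (Ψ - (k : ℕ))) =
      (leadC N d)⁻¹ * ∑ k : Fin Ψ, cSym N A (false, d) (k : ℕ) τ *
        conjFn N (cos0 N) A τ ^ (k : ℕ) * conjFn N (cos0 N) (false, d) τ ^ (Ψ - (k : ℕ)) := by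
    rw [Finset.mul_sum]
    apply Finset.sum_congr rfl
    intro k _
    rw [hr₀ (k : ℕ) τ, Finset.sum_mul, Finset.sum_mul, Finset.mul_sum]
    apply Finset.sum_congr rfl
    intro i _
    rw [← pow_mul]
    ring
  rw [h2]
  have h3 : ∑ k : Fin Ψ, cSym N A (false, d) (k : ℕ) τ *
      conjFn N (cos0 N) A τ ^ (k : ℕ) * conjFn N (cos0 N) (false, d) τ ^ (Ψ - (k : ℕ)) =
      -(leadC N d * ModularForm.discriminant τ ^ Ψ * conjFn N (cos0 N) A τ ^ Ψ) := by
    linear_combination hv
  rw [h3]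
  field_simp
  ring

end assembly

theorem intRel_of_false (N : ℕ) [NeZero N] [Fintype (Cos N)] (A : Gen N) (d : N.divisors) :
    IntRel N A (false, d) := by
  have hN' : (0 : ℝ) < N := by exact_mod_cast NeZero.pos N
  choose r₀ hr₀R hr₀ using fun k ↦ cSym_expansion N A (false, d) k
  obtain ⟨r, hr⟩ : ∃ r : Fin (Fintype.card (Cos N)) → Fin (Fintype.card (Cos N) + 1) → ℂ,
      r = fun (k : Fin (Fintype.card (Cos N))) (i : Fin (Fintype.card (Cos N) + 1)) ↦
        (leadC N d)⁻¹ * r₀ (k : ℕ) i := ⟨_, rfl⟩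
  refine ⟨(Fintype.card (Cos N)), r, ?_, ?_⟩
  · intro k i
    rw [hr]
    exact IsGood.mul (isGood_inv_leadC N d) (isGood_of_mem_closure N (hr₀R (k : ℕ) i))
  · obtain ⟨P, hP⟩ : ∃ P : MvPolynomial (Gen N) ℂ, P =
      MvPolynomial.X A ^ (Fintype.card (Cos N)) * MvPolynomial.X (gen1 N false) ^ (Fintype.card (Cos N)) +
        ∑ k : Fin (Fintype.card (Cos N)), ∑ i : Fin ((Fintype.card (Cos N)) + 1), MvPolynomial.C (r k i) *
          (MvPolynomial.X (gen1 N true) ^ (i : ℕ) * MvPolynomial.X (gen1 N false) ^ ((Fintype.card (Cos N)) - (i : ℕ)) *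
            MvPolynomial.X A ^ (k : ℕ) * MvPolynomial.X (false, d) ^ ((Fintype.card (Cos N)) - (k : ℕ))) := ⟨_, rfl⟩
    have hP0 : MvPolynomial.aeval (conjFn N (cos0 N)) P = 0 := by
      ext τ
      rw [aeval_apply_eq_eval]
      simp only [hP, map_add, map_mul, map_pow, map_sum, MvPolynomial.eval_X,
        MvPolynomial.eval_C, conjFn_gen1, baseFn, Pi.zero_apply]
      rw [hr]
      exact intRel_pointwise N A d r₀ hr₀ τ
    have hq := qExpansion_aeval hN' (conjFn N (cos0 N)) (nice_conjFn N (cos0 N)) P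
    rw [hP0, qExpansion_zero] at hq
    have hcs : (fun g ↦ qExpansion (N : ℝ) (conjFn N (cos0 N) g)) = csC N (cos0 N) := by
      funext g
      exact qExpansion_conjFn N (cos0 N) g
    rw [hcs] at hq
    simp only [hP, map_add, map_mul, map_pow, map_sum, MvPolynomial.aeval_X,
      MvPolynomial.aeval_C, ← Algebra.smul_def] at hq
    exact hq.symm

/-- **AC3** (Int). -/
theorem ac3 (N : ℕ) [NeZero N] : AC3 N := by
  have : Finite (Cos N) := Subgroup.finite_quotient_of_finiteIndex
  let _ : Fintype (Cos N) := Fintype.ofFinite (Cos N)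
  intro d
  exact ⟨intRel_of_false N (true, d) d, intRel_of_false N (false, d) (gen1 N false).2,
    intRel_of_false N (gen1 N false) d⟩

end Fermat.Agent.S28
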