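import Mathlib

/-!
# S28 Package G: gcd-Gram combinatorics

* `Fermat.Agent.S28.gcdSq_injective` : the matrix `(gcd(d,δ)^2)_{d,δ ∣ N}` is injective.
* `Fermat.Agent.S28.balanced_subset` : the only "balanced" subsets are `∅` and `univ`.

The proof uses the Jordan totient `J₂ = μ * id²` (`gramJ`), `∑_{e ∣ n} J₂ e = n²`, `J₂ e > 0`.
-/

set_option autoImplicit false
namespace Fermat.Agent.S28

/-- The Jordan totient `J₂ = μ * id²` as an integer-valued arithmetic function. -/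
noncomputable def gramJ : ArithmeticFunction ℤ :=
  ArithmeticFunction.moebius *
    ((ArithmeticFunction.pow 2 : ArithmeticFunction ℕ) : ArithmeticFunction ℤ)

theorem gramJ_isMultiplicative : gramJ.IsMultiplicative :=
  ArithmeticFunction.isMultiplicative_moebius.mul
    (ArithmeticFunction.isMultiplicative_pow.natCast)

theorem gramJ_zeta_mul :
    ((ArithmeticFunction.zeta : ArithmeticFunction ℕ) : ArithmeticFunction ℤ) * gramJ =
      ((ArithmeticFunction.pow 2 : ArithmeticFunction ℕ) : ArithmeticFunction ℤ) := by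
  unfold gramJ
  rw [← mul_assoc, ArithmeticFunction.coe_zeta_mul_moebius, one_mul]

theorem gramJ_sum_divisors (n : ℕ) : ∑ e ∈ n.divisors, gramJ e = (n : ℤ) ^ 2 := by
  rw [← ArithmeticFunction.coe_zeta_mul_apply, gramJ_zeta_mul]
  rcases Nat.eq_zero_or_pos n with rfl | hn
  · simp
  · simp [ArithmeticFunction.pow_apply]

theorem gramJ_prime_pow_pos {p : ℕ} (hp : p.Prime) (k : ℕ) : 0 < gramJ (p ^ k) := by
  rcases Nat.eq_zero_or_pos k with rfl | hk
  · simp [gramJ_isMultiplicative.map_one]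
  · obtain ⟨k, rfl⟩ : ∃ j, k = j + 1 := ⟨k - 1, by omega⟩
    have h1 := gramJ_sum_divisors (p ^ (k + 1))
    have h0 := gramJ_sum_divisors (p ^ k)
    rw [Nat.sum_divisors_prime_pow hp] at h1 h0
    rw [Finset.sum_range_succ, h0] at h1
    have hp2 : (2 : ℤ) ≤ (p : ℤ) := by exact_mod_cast hp.two_le
    have hlt : ((p ^ k : ℕ) : ℤ) ^ 2 < ((p ^ (k + 1) : ℕ) : ℤ) ^ 2 := by
      have hpk : (0 : ℤ) < ((p ^ k : ℕ) : ℤ) := by
        exact_mod_cast Nat.pow_pos hp.pos
      have : ((p ^ (k + 1) : ℕ) : ℤ) = ((p ^ k : ℕ) : ℤ) * p := by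
        push_cast; ring
      rw [this]
      have h2 : ((p ^ k : ℕ) : ℤ) < ((p ^ k : ℕ) : ℤ) * p := by nlinarith
      exact pow_lt_pow_left₀ h2 hpk.le (by norm_num)
    linarith

theorem gramJ_pos {n : ℕ} (hn : 0 < n) : 0 < gramJ n := by
  rw [gramJ_isMultiplicative.multiplicative_factorization gramJ hn.ne']
  apply Finset.prod_pos
  intro p hp
  exact gramJ_prime_pow_pos (Nat.prime_of_mem_primeFactors (by simpa using hp)) _

theorem gramJ_gcd_sq (d δ : ℕ) :
    ((Nat.gcd d δ : ℤ)) ^ 2 = ∑ e ∈ (Nat.gcd d δ).divisors, gramJ e :=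
  (gramJ_sum_divisors _).symm

/-- Rational version of `gramJ_sum_divisors`. -/
theorem gramJ_sum_divisors_rat (n : ℕ) : ∑ e ∈ n.divisors, (gramJ e : ℚ) = (n : ℚ) ^ 2 := by
  have := gramJ_sum_divisors n
  exact_mod_cast this

/-- Möbius-type triangular inversion: if `∑_{e ∣ d} J e * C e = 0` for all `d ∣ N`
then `C e = 0` for all `e ∣ N`. -/
theorem gram_tri_lower (N : ℕ) (C : ℕ → ℚ)
    (key : ∀ d ∈ N.divisors, ∑ e ∈ d.divisors, (gramJ e : ℚ) * C e = 0) :
    ∀ e ∈ N.divisors, C e = 0 := by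
  intro e
  induction e using Nat.strong_induction_on with
  | _ e ih =>
    intro he
    have hk := key e he
    have hepos : 0 < e := Nat.pos_of_mem_divisors he
    rw [← Nat.insert_self_properDivisors hepos.ne',
      Finset.sum_insert (by simp [Nat.mem_properDivisors])] at hk
    have hz : ∑ e' ∈ e.properDivisors, (gramJ e' : ℚ) * C e' = 0 := by
      apply Finset.sum_eq_zero
      intro e' he'
      rw [Nat.mem_properDivisors] at he'
      have he'N : e' ∈ N.divisors := by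
        rw [Nat.mem_divisors] at he ⊢
        exact ⟨he'.1.trans he.1, he.2⟩
      rw [ih e' he'.2 he'N, mul_zero]
    rw [hz, add_zero] at hk
    have hJ : (gramJ e : ℚ) ≠ 0 := by
      have := gramJ_pos hepos
      exact_mod_cast this.ne'
    exact (mul_eq_zero.mp hk).resolve_left hJ

/-- Upper triangular inversion: if `∑_{δ ∣ N, e ∣ δ} c δ = 0` for all `e ∣ N`
then `c δ = 0` for all `δ ∣ N`. -/
theorem gram_tri_upper (N : ℕ) (c : ℕ → ℚ)
    (hC : ∀ e ∈ N.divisors, ∑ δ ∈ N.divisors.filter (fun δ => e ∣ δ), c δ = 0) :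
    ∀ δ ∈ N.divisors, c δ = 0 := by
  by_contra hcon
  obtain ⟨δ₀, hcon'⟩ := not_forall.mp hcon
  obtain ⟨hδ₀, hcδ₀⟩ := Classical.not_imp.mp hcon'
  -- take a maximal divisor with `c ≠ 0`
  have hne : (N.divisors.filter (fun δ => c δ ≠ 0)).Nonempty :=
    ⟨δ₀, Finset.mem_filter.mpr ⟨hδ₀, hcδ₀⟩⟩
  obtain ⟨m, hm, hmax⟩ := Finset.exists_max_image _ (fun δ => δ) hne
  rw [Finset.mem_filter] at hm
  have hsum := hC m hm.1
  have hmpos : 0 < m := Nat.pos_of_mem_divisors hm.1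
  rw [Finset.sum_eq_single_of_mem m (Finset.mem_filter.mpr ⟨hm.1, dvd_rfl⟩)] at hsum
  · exact hm.2 hsum
  · intro b hb hbm
    rw [Finset.mem_filter] at hb
    by_contra hcb
    have hle := hmax b (Finset.mem_filter.mpr ⟨hb.1, hcb⟩)
    have hbpos : 0 < b := Nat.pos_of_mem_divisors hb.1
    have := Nat.le_of_dvd hbpos hb.2
    exact hbm (le_antisymm hle this)

/-- G1: the matrix `(gcd(d,δ)^2)_{d,δ ∣ N}` is injective. -/
theorem gcdSq_injective (N : ℕ) (hN : 0 < N) (c : ℕ → ℚ)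
    (h : ∀ d ∈ N.divisors, ∑ δ ∈ N.divisors, c δ * ((Nat.gcd d δ : ℚ)) ^ 2 = 0) :
    ∀ δ ∈ N.divisors, c δ = 0 := by
  apply gram_tri_upper N c
  apply gram_tri_lower N (fun e => ∑ δ ∈ N.divisors.filter (fun δ => e ∣ δ), c δ)
  intro d hd
  rw [← h d hd]
  have hdpos : 0 < d := Nat.pos_of_mem_divisors hd
  have hterm : ∀ δ ∈ N.divisors, c δ * ((Nat.gcd d δ : ℚ)) ^ 2 =
      ∑ e ∈ d.divisors, if e ∣ δ then (gramJ e : ℚ) * c δ else 0 := by
    intro δ _
    rw [← gramJ_sum_divisors_rat, Finset.mul_sum, ← Finset.sum_filter]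
    apply Finset.sum_congr
    · ext e
      simp only [Nat.mem_divisors, Finset.mem_filter, Nat.dvd_gcd_iff, ne_eq, Nat.gcd_eq_zero_iff]
      constructor
      · rintro ⟨⟨h1, h2⟩, _⟩
        exact ⟨⟨h1, hdpos.ne'⟩, h2⟩
      · rintro ⟨⟨h1, _⟩, h2⟩
        exact ⟨⟨h1, h2⟩, fun hh => hdpos.ne' hh.1⟩
    · intro e _
      ring
  rw [Finset.sum_congr rfl hterm, Finset.sum_comm]
  apply Finset.sum_congr rfl
  intro e _
  rw [Finset.mul_sum, Finset.sum_filter]

/-- Fibre counting: a balanced finset gives a Gram relation for its fibre counts. -/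
theorem gram_fibre_count (N : ℕ) {Ω : Type} [DecidableEq Ω] (δ : Ω → ℕ)
    (hδ : ∀ α, δ α ∣ N) (hN : 0 < N) (T : Finset Ω) (d : ℕ)
    (hT : ∑ α ∈ T, (((Nat.gcd d (δ α) : ℤ)) ^ 2 - d) = 0) :
    ∑ δ' ∈ N.divisors, ((T.filter (fun α => δ α = δ')).card : ℚ) * ((Nat.gcd d δ' : ℚ)) ^ 2
      = (d : ℚ) * (T.card : ℚ) := by
  have hT' : ∑ α ∈ T, ((Nat.gcd d (δ α) : ℚ)) ^ 2 = (d : ℚ) * (T.card : ℚ) := by
    have h1 : ∑ α ∈ T, (((Nat.gcd d (δ α) : ℤ)) ^ 2) = (T.card : ℤ) * d := by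
      have := hT
      rw [Finset.sum_sub_distrib, Finset.sum_const, sub_eq_zero] at this
      rw [this]; simp
    have h2 : ((∑ α ∈ T, (((Nat.gcd d (δ α) : ℤ)) ^ 2) : ℤ) : ℚ) = (((T.card : ℤ) * d : ℤ) : ℚ) := by
      rw [h1]
    push_cast at h2
    rw [h2]; ring
  rw [← hT']
  rw [← Finset.sum_fiberwise_of_maps_to (s := T) (t := N.divisors) (g := δ)
    (fun α _ => Nat.mem_divisors.mpr ⟨hδ α, hN.ne'⟩)]
  apply Finset.sum_congr rfl
  intro δ' _
  rw [Finset.sum_congr rfl (g := fun _ => ((Nat.gcd d δ' : ℚ)) ^ 2)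
    (fun α hα => by rw [(Finset.mem_filter.mp hα).2])]
  rw [Finset.sum_const, nsmul_eq_mul]

/-- G2: the only "balanced" subsets are `∅` and `univ`. -/
theorem balanced_subset (N : ℕ) (hN : 0 < N) {Ω : Type} [Fintype Ω] [DecidableEq Ω] (δ : Ω → ℕ)
    (hδ : ∀ α, δ α ∣ N) (α₀ : Ω) (hα₀ : ∀ α, δ α = N ↔ α = α₀)
    (hΩ : ∀ d ∈ N.divisors, ∑ α, (((Nat.gcd d (δ α) : ℤ)) ^ 2 - d) = 0)
    (S : Finset Ω) (hS : ∀ d ∈ N.divisors, ∑ α ∈ S, (((Nat.gcd d (δ α) : ℤ)) ^ 2 - d) = 0) :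
    S = ∅ ∨ S = Finset.univ := by
  classical
  set cS : ℕ → ℚ := fun δ' => ((S.filter (fun α => δ α = δ')).card : ℚ) with hcS
  set cΩ : ℕ → ℚ := fun δ' => (((Finset.univ : Finset Ω).filter (fun α => δ α = δ')).card : ℚ)
    with hcΩ
  have hv : ∀ d ∈ N.divisors, ∑ δ' ∈ N.divisors,
      (((Finset.univ : Finset Ω).card : ℚ) * cS δ' - (S.card : ℚ) * cΩ δ') *
        ((Nat.gcd d δ' : ℚ)) ^ 2 = 0 := by
    intro d hd
    have e1 := gram_fibre_count N δ hδ hN S d (hS d hd)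
    have e2 := gram_fibre_count N δ hδ hN Finset.univ d (hΩ d hd)
    have : ∀ δ' ∈ N.divisors,
        (((Finset.univ : Finset Ω).card : ℚ) * cS δ' - (S.card : ℚ) * cΩ δ') *
          ((Nat.gcd d δ' : ℚ)) ^ 2 =
        ((Finset.univ : Finset Ω).card : ℚ) * (cS δ' * ((Nat.gcd d δ' : ℚ)) ^ 2) -
          (S.card : ℚ) * (cΩ δ' * ((Nat.gcd d δ' : ℚ)) ^ 2) := by
      intro δ' _; ring
    rw [Finset.sum_congr rfl this, Finset.sum_sub_distrib, ← Finset.mul_sum, ← Finset.mul_sum,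
      e1, e2]
    ring
  have hvN := gcdSq_injective N hN _ hv N (Nat.mem_divisors.mpr ⟨dvd_rfl, hN.ne'⟩)
  have hcΩN : cΩ N = 1 := by
    have : (Finset.univ : Finset Ω).filter (fun α => δ α = N) = {α₀} := by
      ext α
      simp [hα₀ α]
    simp [hcΩ, this]
  by_cases hmem : α₀ ∈ S
  · right
    have hcSN : cS N = 1 := by
      have : S.filter (fun α => δ α = N) = {α₀} := by
        ext α
        simp only [Finset.mem_filter, Finset.mem_singleton, hα₀ α]
        constructor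
        · exact fun h => h.2
        · rintro rfl; exact ⟨hmem, rfl⟩
      simp [hcS, this]
    rw [hcΩN, hcSN, mul_one, mul_one, sub_eq_zero] at hvN
    have hcard : S.card = (Finset.univ : Finset Ω).card := by
      exact_mod_cast hvN.symm
    rw [← Finset.card_eq_iff_eq_univ]
    rw [hcard, Finset.card_univ]
  · left
    have hcSN : cS N = 0 := by
      have : S.filter (fun α => δ α = N) = ∅ := by
        ext α
        simp only [Finset.mem_filter, hα₀ α, Finset.notMem_empty, iff_false, not_and]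
        rintro h rfl; exact hmem h
      simp [hcS, this]
    rw [hcΩN, hcSN, mul_zero, mul_one, zero_sub, neg_eq_zero] at hvN
    have hcard : S.card = 0 := by exact_mod_cast hvN
    exact Finset.card_eq_zero.mp hcard

end Fermat.Agent.S28
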