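import Fermat.Agent.S28.Slash
import Mathlib.NumberTheory.ModularForms.LevelOne.Basic
import Mathlib.RingTheory.PowerSeries.Expand

/-!
# S28 helper: q-expansion (in `q^{1/N}`) of `F ∣[k] !![a, b; 0, d]` for `F` of level one
-/

set_option autoImplicit false

open scoped MatrixGroups ModularForm Real
open UpperHalfPlane hiding I
open ModularForm Complex

namespace Fermat.Agent.S28

local notation "𝕢" => Function.Periodic.qParam

/-- the root of unity `exp(2πi b / d)` -/
noncomputable def rootU (b d : ℕ) : ℂ := Complex.exp (2 * π * I * (b : ℂ) / (d : ℂ))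

/-- the slash constant `(a d)^(k-1) d^(-k)` -/
noncomputable def slashConst (k : ℤ) (a d : ℕ) : ℂ := ((a : ℂ) * d) ^ (k - 1) * (d : ℂ) ^ (-k)

theorem qParam_ut_smul {a b d N : ℕ} (ha : 0 < a) (hd : 0 < d) (hN : 0 < N) (e : ℕ)
    (he : e * d = a * N) (τ : ℍ) :
    𝕢 (1 : ℝ) ((ut a b d • τ : ℍ) : ℂ) = rootU b d * (𝕢 (N : ℝ) (τ : ℂ)) ^ e := by
  rw [coe_ut_smul ha hd]
  unfold Function.Periodic.qParam rootU
  rw [← Complex.exp_nat_mul, ← Complex.exp_add]
  congr 1
  have hd0 : (d : ℂ) ≠ 0 := by exact_mod_cast hd.ne'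
  have hN0 : (N : ℂ) ≠ 0 := by exact_mod_cast hN.ne'
  have he' : (e : ℂ) * d = a * N := by exact_mod_cast he
  have he'' : (e : ℂ) = a * N / d := by field_simp; exact he'
  push_cast
  rw [he'']
  field_simp
  ring

end Fermat.Agent.S28

namespace Fermat.Agent.S28

local notation "𝕢" => Function.Periodic.qParam

open ConjAct Pointwise in
theorem mem_strictPeriods_conj_ut {a b d N : ℕ} (ha : 0 < a) (hd : 0 < d) (e : ℕ)
    (he : e * d = a * N) :
    (N : ℝ) ∈ (toConjAct (ut a b d)⁻¹ • (𝒮ℒ : Subgroup (GL (Fin 2) ℝ))).strictPeriods := by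
  rw [Subgroup.mem_strictPeriods_iff, map_inv, Subgroup.mem_inv_pointwise_smul_iff,
    toConjAct_smul]
  refine ⟨ModularGroup.T ^ (e : ℤ), ?_⟩
  rw [eq_mul_inv_iff_mul_eq]
  apply Matrix.GeneralLinearGroup.ext
  intro i j
  have he' : (e : ℝ) * d = a * N := by exact_mod_cast he
  rw [Matrix.GeneralLinearGroup.coe_mul, Matrix.GeneralLinearGroup.coe_mul, val_ut ha hd]
  have hT : ((Matrix.SpecialLinearGroup.mapGL ℝ (ModularGroup.T ^ (e : ℤ)) : GL (Fin 2) ℝ) :
      Matrix (Fin 2) (Fin 2) ℝ) = !![1, (e : ℝ); 0, 1] := by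
    rw [Matrix.SpecialLinearGroup.mapGL_coe_matrix, Matrix.SpecialLinearGroup.map_apply_coe,
      ModularGroup.coe_T_zpow]
    ext i j
    fin_cases i <;> fin_cases j <;> simp
  have hU : ((Matrix.GeneralLinearGroup.upperRightHom (N : ℝ) : GL (Fin 2) ℝ) :
      Matrix (Fin 2) (Fin 2) ℝ) = !![1, (N : ℝ); 0, 1] := by
    simp [Matrix.GeneralLinearGroup.upperRightHom]
  rw [hT, hU]
  fin_cases i <;> fin_cases j <;> simp [Matrix.mul_apply, Fin.sum_univ_two] <;> linarith


/-- The explicit coefficients of the `q^{1/N}`-expansion of `F ∣[k] !![a, b; 0, d]`. -/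
noncomputable def conjCoeff (k : ℤ) (a b d e : ℕ) (c : ℕ → ℂ) (n : ℕ) : ℂ :=
  if e ∣ n then slashConst k a d * (rootU b d ^ (n / e) * c (n / e)) else 0

theorem hasSum_slash_ut {k : ℤ} (F : ModularForm 𝒮ℒ k) {a b d N : ℕ} (ha : 0 < a) (hd : 0 < d)
    (hN : 0 < N) (e : ℕ) (he : e * d = a * N) (τ : ℍ) :
    HasSum (fun n ↦ conjCoeff k a b d e (fun m ↦ (qExpansion 1 F).coeff m) n •
      𝕢 (N : ℝ) (τ : ℂ) ^ n) ((⇑F ∣[k] ut a b d) τ) := by
  have he0 : 0 < e := by
    rcases Nat.eq_zero_or_pos e with h | h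
    · rw [h, zero_mul] at he
      exact absurd he.symm (Nat.mul_ne_zero ha.ne' hN.ne')
    · exact h
  have h1 := ModularForm.hasSum_qExpansion F (h := 1) one_pos
    one_mem_strictPeriods_SL (ut a b d • τ)
  have hq := qParam_ut_smul (b := b) ha hd hN e he τ
  rw [hq] at h1
  have h2 := h1.mul_left (slashConst k a d)
  rw [slash_ut_apply k ha hd]
  have hval : slashConst k a d * F (ut a b d • τ) =
      F (ut a b d • τ) * ((a : ℂ) * d) ^ (k - 1) * (d : ℂ) ^ (-k) := by
    unfold slashConst; ring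
  rw [hval] at h2
  have hinj : Function.Injective (fun m : ℕ ↦ e * m) := fun x y h ↦
    Nat.eq_of_mul_eq_mul_left he0 h
  rw [← hinj.hasSum_iff]
  · refine h2.congr_fun ?_ |>.congr_fun fun _ ↦ rfl
    intro m
    simp only [Function.comp_apply, conjCoeff, dvd_mul_right, if_true,
      Nat.mul_div_cancel_left m he0, smul_eq_mul]
    rw [mul_pow, pow_mul]
    ring
  · intro n hn
    have : ¬ e ∣ n := fun ⟨m, hm⟩ ↦ hn ⟨m, hm.symm⟩
    simp [conjCoeff, this]

end Fermat.Agent.S28
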