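import Mathlib
import Fermat.Prelude.Def_ModularCurve_IgusaScheme
import Fermat.Prelude.Def_ModularCurve_X0ModL
import Fermat.Agent.S28.PkgB.Generic
import Fermat.Agent.S28.PkgB.Zl
import Fermat.Agent.S28.PkgB.Gauss
import Fermat.Agent.S28.PkgB.Field
import Fermat.Agent.S28.PkgB.Charts
import Fermat.Agent.S28.PkgB.Kernel
import Fermat.Agent.S28.PkgB.KernelInf

/-!
# S28, Package B: the chart algebras of the Igusa scheme have integral special fibre

Input: a family `x i` of integral Laurent series which are integral over `ℤ_(ℓ)[j]`, span the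
modular function field over `ℚ(j)` and are independent over `𝔽_ℓ(j)` after reduction.
Output: `A_fin ⊗ K` and `A_inf ⊗ K` are domains and `A_mid ⊗ K` is nontrivial.
-/

set_option autoImplicit false
set_option linter.unusedSectionVars false

open ModularCurve ModularCurve.IgusaScheme Polynomial
open scoped TensorProduct

noncomputable section

namespace Fermat.Agent.S28

variable (N : ℕ) [NeZero N] (ℓ : ℕ) [Fact ℓ.Prime]

/-- Ring homomorphisms out of `ℤ_(ℓ)` into a domain in which the integers prime to `ℓ` are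
nonzero are unique. -/
theorem pkgB_ringHom_ext_Zl {T : Type*} [CommRing T] [IsDomain T]
    (hT : ∀ d : ℕ, ¬ ℓ ∣ d → (d : T) ≠ 0) (φ ψ : ↥(GaloisRep.ratLocalizedAt ℓ) →+* T) :
    φ = ψ := by
  ext r
  have hden : ¬ ℓ ∣ (r : ℚ).den := (pkgB_mem_Zl_iff ℓ).mp r.2
  have h1 : (((r : ℚ).den : ℕ) : ↥(GaloisRep.ratLocalizedAt ℓ)) * r
      = (((r : ℚ).num : ℤ) : ↥(GaloisRep.ratLocalizedAt ℓ)) := by
    apply Subtype.ext
    push_cast
    rw [mul_comm]
    exact Rat.mul_den_eq_num _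
  have h2 := congrArg φ h1
  have h3 := congrArg ψ h1
  rw [map_mul, map_natCast, map_intCast] at h2 h3
  exact mul_left_cancel₀ (hT _ hden) (h2.trans h3.symm)

variable (K : Type) [Field K] [CharP K ℓ]

theorem pkgB_natCast_LK_ne_zero (d : ℕ) (hd : ¬ ℓ ∣ d) : (d : LaurentSeries K) ≠ 0 := by
  rw [← map_natCast (HahnSeries.C : K →+* LaurentSeries K) d]
  intro h
  have h1 := HahnSeries.C_injective (Γ := ℤ) (R := K) (h.trans (map_zero _).symm)
  exact hd ((CharP.cast_eq_zero_iff K ℓ d).mp h1)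

variable [Algebra ↥(GaloisRep.ratLocalizedAt ℓ) K]

/-- The reduction map on a subalgebra of the Gauss valuation ring. -/
def pkgB_ρ (A : Subalgebra ↥(GaloisRep.ratLocalizedAt ℓ) ↥(modularFunctionFieldFull N))
    (hA : A ≤ pkgB_OF N ℓ) : ↥A →+* LaurentSeries (ZMod ℓ) :=
  (pkgB_redO ℓ).comp
    (((algebraMap ↥(modularFunctionFieldFull N) (LaurentSeries ℚ)).comp
      A.val.toRingHom).codRestrict (pkgB_O ℓ) (fun x => hA x.2))

theorem pkgB_ρ_apply (A : Subalgebra ↥(GaloisRep.ratLocalizedAt ℓ) ↥(modularFunctionFieldFull N))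
    (hA : A ≤ pkgB_OF N ℓ) (a : ↥A) :
    pkgB_ρ N ℓ A hA a = pkgB_redFun ℓ ((a : ↥(modularFunctionFieldFull N)) : LaurentSeries ℚ) :=
  rfl

/-- The first leg `A → K((q))` as an algebra homomorphism. -/
def pkgB_f (A : Subalgebra ↥(GaloisRep.ratLocalizedAt ℓ) ↥(modularFunctionFieldFull N))
    (hA : A ≤ pkgB_OF N ℓ) : ↥A →ₐ[↥(GaloisRep.ratLocalizedAt ℓ)] LaurentSeries K :=
  { (coeffMap (ZMod.castHom (dvd_refl ℓ) K)).comp (pkgB_ρ N ℓ A hA) with
    commutes' := fun r => by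
      have := pkgB_ringHom_ext_Zl ℓ (pkgB_natCast_LK_ne_zero ℓ K)
        (((coeffMap (ZMod.castHom (dvd_refl ℓ) K)).comp (pkgB_ρ N ℓ A hA)).comp
          (algebraMap ↥(GaloisRep.ratLocalizedAt ℓ) ↥A))
        (algebraMap ↥(GaloisRep.ratLocalizedAt ℓ) (LaurentSeries K))
      exact congrArg (fun φ => φ r) this }

/-- The second leg `K → K((q))` as an algebra homomorphism. -/
def pkgB_g : K →ₐ[↥(GaloisRep.ratLocalizedAt ℓ)] LaurentSeries K :=
  { (HahnSeries.C : K →+* LaurentSeries K) with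
    commutes' := fun r => by
      have := pkgB_ringHom_ext_Zl ℓ (pkgB_natCast_LK_ne_zero ℓ K)
        ((HahnSeries.C : K →+* LaurentSeries K).comp
          (algebraMap ↥(GaloisRep.ratLocalizedAt ℓ) K))
        (algebraMap ↥(GaloisRep.ratLocalizedAt ℓ) (LaurentSeries K))
      exact congrArg (fun φ => φ r) this }

/-- The reduction map on the tensor product. -/
def pkgB_Φ (A : Subalgebra ↥(GaloisRep.ratLocalizedAt ℓ) ↥(modularFunctionFieldFull N))
    (hA : A ≤ pkgB_OF N ℓ) :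
    ↥A ⊗[↥(GaloisRep.ratLocalizedAt ℓ)] K →ₐ[↥(GaloisRep.ratLocalizedAt ℓ)] LaurentSeries K :=
  Algebra.TensorProduct.productMap (pkgB_f N ℓ K A hA) (pkgB_g ℓ K)

theorem pkgB_Φ_coeff (A : Subalgebra ↥(GaloisRep.ratLocalizedAt ℓ) ↥(modularFunctionFieldFull N))
    (hA : A ≤ pkgB_OF N ℓ) (a : ↥A) (c : K) (k : ℤ) :
    (pkgB_Φ N ℓ K A hA (a ⊗ₜ[↥(GaloisRep.ratLocalizedAt ℓ)] c)).coeff k
      = c * ZMod.castHom (dvd_refl ℓ) K ((pkgB_ρ N ℓ A hA a).coeff k) := by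
  rw [pkgB_Φ, Algebra.TensorProduct.productMap_apply_tmul]
  show (coeffMap (ZMod.castHom (dvd_refl ℓ) K) (pkgB_ρ N ℓ A hA a) * HahnSeries.C c).coeff k = _
  rw [mul_comm, HahnSeries.C_mul_eq_smul, HahnSeries.coeff_smul, smul_eq_mul, coeffMap_coeff]

/-- Injectivity of the reduction map on the tensor product, from the kernel property. -/
theorem pkgB_Φ_injective
    (A : Subalgebra ↥(GaloisRep.ratLocalizedAt ℓ) ↥(modularFunctionFieldFull N))
    (hA : A ≤ pkgB_OF N ℓ)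
    (hker : ∀ m ∈ A, pkgB_redFun ℓ (m : LaurentSeries ℚ) = 0 →
      ∃ m' ∈ A, m = (ℓ : ↥(modularFunctionFieldFull N)) * m') :
    Function.Injective (pkgB_Φ N ℓ K A hA) := by
  have h := pkgB_tensor_injective (R := ↥(GaloisRep.ratLocalizedAt ℓ)) (A := ↥A) (K := K) ℓ
    (pkgB_ρ N ℓ A hA).toAddMonoidHom
    (fun a ha => by
      obtain ⟨m', hm', he⟩ := hker a a.2 ha
      refine ⟨⟨m', hm'⟩, Subtype.ext ?_⟩
      rw [he]
      simp)
    (pkgB_Φ N ℓ K A hA).toRingHom.toAddMonoidHom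
    (fun a c k => pkgB_Φ_coeff N ℓ K A hA a c k)
  exact h

/-- Conversion of the independence hypothesis to integer polynomials. -/
theorem pkgB_hind_int (n : ℕ) (x : Fin n → LaurentSeries ℤ)
    (hind : ∀ c : Fin n → Polynomial (ZMod ℓ),
      ∑ i, Polynomial.aeval (jqModC (ZMod ℓ)) (c i) * (x i).map (Int.castRingHom (ZMod ℓ)) = 0 →
        ∀ i, c i = 0) :
    ∀ c : Fin n → Polynomial ℤ,
      ∑ i, eval₂ (Int.castRingHom (LaurentSeries (ZMod ℓ))) (jqModC (ZMod ℓ)) (c i)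
        * pkgB_red ℓ (x i) = 0 → ∀ i, C (ℓ : ℤ) ∣ c i := by
  intro c hc i
  have h1 := hind (fun i => (c i).map (Int.castRingHom (ZMod ℓ))) (by
    rw [← hc]
    refine Finset.sum_congr rfl fun i _ => ?_
    congr 1
    rw [aeval_def, eval₂_map]
    congr 1
    exact RingHom.ext_int _ _) i
  rw [C_dvd_iff_dvd_coeff]
  intro k
  have h2 := congrArg (fun p => p.coeff k) h1
  simp only [coeff_map, coeff_zero] at h2
  exact (ZMod.intCast_zmod_eq_zero_iff_dvd _ _).mp h2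

/-- **Package B.** From an integral basis of the modular function field over `ℚ(j)` whose
reduction is independent over `𝔽_ℓ(j)`, the chart algebras of the Igusa scheme have
integral special fibres. -/
theorem charts_of_basis (N : ℕ) [NeZero N] (ℓ : ℕ) [Fact ℓ.Prime]
    (K : Type) [Field K] [CharP K ℓ] [Algebra ↥(GaloisRep.ratLocalizedAt ℓ) K]
    (n : ℕ) (x : Fin n → LaurentSeries ℤ)
    (hF : ∀ i, (x i).map (Int.castRingHom ℚ) ∈ modularFunctionFieldFull N)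
    (hInt : ∀ i, ∀ hF : (x i).map (Int.castRingHom ℚ) ∈ modularFunctionFieldFull N,
      (⟨(x i).map (Int.castRingHom ℚ), hF⟩ : ↥(modularFunctionFieldFull N)) ∈ chartAlgFin N ℓ)
    (hdep : ∀ m ∈ modularFunctionFieldFull N, ∃ (c₀ : Polynomial ℤ) (c : Fin n → Polynomial ℤ),
      (c₀ ≠ 0 ∨ ∃ i, c i ≠ 0) ∧
      Polynomial.aeval jq c₀ * m
        + ∑ i, Polynomial.aeval jq (c i) * (x i).map (Int.castRingHom ℚ) = 0)
    (hind : ∀ c : Fin n → Polynomial (ZMod ℓ),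
      ∑ i, Polynomial.aeval (jqModC (ZMod ℓ)) (c i) * (x i).map (Int.castRingHom (ZMod ℓ)) = 0 →
        ∀ i, c i = 0) :
    IsDomain (↥(chartAlgFin N ℓ) ⊗[↥(GaloisRep.ratLocalizedAt ℓ)] K) ∧
    IsDomain (↥(chartAlgInf N ℓ) ⊗[↥(GaloisRep.ratLocalizedAt ℓ)] K) ∧
    Nontrivial (↥(chartAlgMid N ℓ) ⊗[↥(GaloisRep.ratLocalizedAt ℓ)] K) := by
  have hF' : ∀ i, pkgB_ι (x i) ∈ modularFunctionFieldFull N := hF
  have hInt' : ∀ i, (⟨pkgB_ι (x i), hF' i⟩ : ↥(modularFunctionFieldFull N)) ∈ chartAlgFin N ℓ :=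
    fun i => hInt i (hF i)
  have hdep' : ∀ m ∈ modularFunctionFieldFull N, ∃ (c₀ : Polynomial ℤ)
      (c : Fin n → Polynomial ℤ), (c₀ ≠ 0 ∨ ∃ i, c i ≠ 0) ∧
      eval₂ (Int.castRingHom (LaurentSeries ℚ)) jq c₀ * m
        + ∑ i, eval₂ (Int.castRingHom (LaurentSeries ℚ)) jq (c i) * pkgB_ι (x i) = 0 := by
    intro m hm
    obtain ⟨c₀, c, hne, h⟩ := hdep m hm
    refine ⟨c₀, c, hne, ?_⟩
    rw [← h, pkgB_aeval_int]
    congr 1
    refine Finset.sum_congr rfl fun i _ => ?_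
    rw [pkgB_aeval_int]
    rfl
  have hind' := pkgB_hind_int ℓ n x hind
  have hinjFin := pkgB_Φ_injective N ℓ K (chartAlgFin N ℓ) (pkgB_chartAlgFin_le N ℓ)
    (fun m hm hred => pkgB_ker_fin N ℓ n x hF' hInt' hdep' hind' m hm hred)
  have hinjInf := pkgB_Φ_injective N ℓ K (chartAlgInf N ℓ) (pkgB_chartAlgInf_le N ℓ)
    (fun m hm hred => pkgB_ker_inf N ℓ n x hF' hInt' hdep' hind' m hm hred)
  refine ⟨?_, ?_, ?_⟩
  · exact Function.Injective.isDomain
      (pkgB_Φ N ℓ K (chartAlgFin N ℓ) (pkgB_chartAlgFin_le N ℓ)).toRingHom hinjFin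
  · exact Function.Injective.isDomain
      (pkgB_Φ N ℓ K (chartAlgInf N ℓ) (pkgB_chartAlgInf_le N ℓ)).toRingHom hinjInf
  · exact RingHom.domain_nontrivial
      (pkgB_Φ N ℓ K (chartAlgMid N ℓ) (pkgB_chartAlgMid_le N ℓ)).toRingHom

end Fermat.Agent.S28
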