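import Fermat.Agent.S28.PkgA
import Fermat.Agent.S28.PkgB
import Fermat.Agent.S28.KCore.Defs

/-!
# S28: final wiring

`S28_of_kcore`: the conclusion of the K-core (`kcore`, in the exact shape of the skeleton)
implies the frozen statement S28, via Package B (`charts_of_basis`) and Package A
(`isIntegral_of_charts`).
-/

set_option autoImplicit false

open AlgebraicGeometry CategoryTheory CategoryTheory.Limits ModularCurve ModularCurve.IgusaScheme

noncomputable section

namespace Fermat.Agent.S28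

theorem S28_of_kcore (N : ℕ) [NeZero N] (ℓ : ℕ) [Fact ℓ.Prime]
    (K : Type) [Field K] [CharP K ℓ] [Algebra ↥(GaloisRep.ratLocalizedAt ℓ) K]
    (h : ∃ (n : ℕ) (x : Fin n → LaurentSeries ℤ),
      (∀ i, (x i).map (Int.castRingHom ℚ) ∈ modularFunctionFieldFull N) ∧
      (∀ i, ∀ hF : (x i).map (Int.castRingHom ℚ) ∈ modularFunctionFieldFull N,
        (⟨(x i).map (Int.castRingHom ℚ), hF⟩ : modularFunctionFieldFull N) ∈ chartAlgFin N ℓ) ∧
      (∀ m ∈ modularFunctionFieldFull N, ∃ (c₀ : Polynomial ℤ) (c : Fin n → Polynomial ℤ),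
        (c₀ ≠ 0 ∨ ∃ i, c i ≠ 0) ∧
        Polynomial.aeval jq c₀ * m +
          ∑ i, Polynomial.aeval jq (c i) * (x i).map (Int.castRingHom ℚ) = 0) ∧
      (∀ c : Fin n → Polynomial (ZMod ℓ),
        ∑ i, Polynomial.aeval (jA' (ZMod ℓ)) (c i) *
          (x i).map (Int.castRingHom (ZMod ℓ)) = 0 → ∀ i, c i = 0)) :
    IsIntegral ↑(pullback (igusaTo N ℓ)
      (Spec.map (CommRingCat.ofHom (algebraMap ↥(GaloisRep.ratLocalizedAt ℓ) K)))) := by
  obtain ⟨n, x, hF, hInt, hdep, hind⟩ := h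
  obtain ⟨h1, h2, h3⟩ := charts_of_basis N ℓ K n x hF hInt hdep hind
  exact isIntegral_of_charts N ℓ K h1 h2 h3

end Fermat.Agent.S28
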