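import Fermat.Agent.S28.KCore.Main
import Fermat.Agent.S28.Final
import Fermat.Agent.S28.Data
import Fermat.Agent.S28.Rank
import Fermat.Agent.S28.Conj

/-!
# S28: everything except `AC3`

`S28_of_ac3`: the frozen statement S28 (Igusa integrality) follows from the single remaining
analytic input `AC3 N` (integrality relations of the conjugates of `E4(dτ)^3`, `Δ(dτ)` over
`ℤ[ζ_N, 1/N][E4^3, Δ]`).
-/

set_option autoImplicit false

open AlgebraicGeometry CategoryTheory CategoryTheory.Limits ModularCurve ModularCurve.IgusaScheme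

noncomputable section

namespace Fermat.Agent.S28

theorem S28_of_ac3 (N : ℕ) [NeZero N] (ℓ : ℕ) [Fact ℓ.Prime] (hℓN : ¬ ℓ ∣ N)
    (K : Type) [Field K] [CharP K ℓ] [Algebra ↥(GaloisRep.ratLocalizedAt ℓ) K] (h3 : AC3 N) :
    IsIntegral ↑(pullback (igusaTo N ℓ)
      (Spec.map (CommRingCat.ofHom (algebraMap ↥(GaloisRep.ratLocalizedAt ℓ) K)))) :=
  S28_of_kcore N ℓ K (kcore N ℓ hℓN (ac1 N) (ac2 N) h3 (ac4 N))

end Fermat.Agent.S28
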