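import Fermat.Agent.S28.Defs
import Mathlib.RingTheory.Valuation.ValuationSubring
import Mathlib.RingTheory.LaurentSeries

/-!
# S28: the interface between the analytic core and the characteristic-`ℓ` core

The analytic core proves `AC1 N`, `AC2 N`, `AC3 N`, `AC4 N`; the characteristic-`ℓ` core deduces
the input of Package B from them.
-/

set_option autoImplicit false

open scoped MatrixGroups
open CongruenceSubgroup

namespace Fermat.Agent.S28

/-- The expansion (over `ℂ`, in `t = q^{1/N}`) of the conjugate `α` of the generator `g`. -/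
noncomputable abbrev csC (N : ℕ) (α : Cos N) (g : Gen N) : PowerSeries ℂ :=
  cs ℂ (zetaC N) N α g

/-- (Conj): homogeneous relations at `∞` hold at all conjugates. -/
def AC1 (N : ℕ) : Prop :=
  ∀ (m : ℕ) (P : MvPolynomial (Gen N) ℂ), P.IsHomogeneous m →
    MvPolynomial.aeval (csC N (cos0 N)) P = 0 → ∀ α, MvPolynomial.aeval (csC N α) P = 0

/-- (Rank): any `ψ + 1` forms of the same degree are dependent over binary forms in `E, D`. -/
def AC2 (N : ℕ) [NeZero N] : Prop :=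
  ∀ (m : ℕ) (P : Fin (Nat.card (Cos N) + 1) → MvPolynomial (Gen N) ℂ),
    (∀ i, (P i).IsHomogeneous m) →
    ∃ (s : ℕ) (c : Fin (Nat.card (Cos N) + 1) → MvPolynomial Bool ℂ),
      (∀ i, (c i).IsHomogeneous s) ∧ (∃ i, c i ≠ 0) ∧
      ∑ i, MvPolynomial.aeval (csC N (cos0 N)) (MvPolynomial.rename (gen1 N) (c i) * P i) = 0

/-- "`x ∈ ℂ` is integral over `ℤ[1/N]`", in the form in which it is used. -/
def IsGood (N : ℕ) (x : ℂ) : Prop :=
  ∀ V : ValuationSubring ℂ, ((N : ℂ))⁻¹ ∈ V → x ∈ V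

/-- `A / B` is integral over `ℤ[ζ_N, 1/N][j]`, `j = E / D`, written homogeneously at `∞`:
`A^n D^n + Σ_{k<n} Σ_{i≤n} r k i · E^i D^(n-i) A^k B^(n-k) = 0`. -/
def IntRel (N : ℕ) [NeZero N] (A B : Gen N) : Prop :=
  ∃ (n : ℕ) (r : Fin n → Fin (n + 1) → ℂ), (∀ k i, IsGood N (r k i)) ∧
    csC N (cos0 N) A ^ n * csC N (cos0 N) (gen1 N false) ^ n +
      ∑ k : Fin n, ∑ i : Fin (n + 1), r k i •
        (csC N (cos0 N) (gen1 N true) ^ (i : ℕ) * csC N (cos0 N) (gen1 N false) ^ (n - (i : ℕ)) *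
          csC N (cos0 N) A ^ (k : ℕ) * csC N (cos0 N) B ^ (n - (k : ℕ))) = 0

/-- (Int): `j_d = E_d / D_d`, `u_d = D_d / D` and `u_d⁻¹` are integral over `ℤ[ζ_N, 1/N][j]`. -/
def AC3 (N : ℕ) [NeZero N] : Prop :=
  ∀ d : N.divisors, IntRel N (true, d) (false, d) ∧ IntRel N (false, d) (gen1 N false) ∧
    IntRel N (gen1 N false) (false, d)

/-- (Distinct): the conjugates of `j(Nτ)` are pairwise distinct. -/
def AC4 (N : ℕ) : Prop :=
  ∀ α β : Cos N, cA N α N = cA N β N → cB N α N = cB N β N → α = β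

end Fermat.Agent.S28
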