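import Mathlib

/-!
# S28, Package D: Dedekind independence / norm algebra (pure algebra)

`B ⊂ 𝕂` fields, `Ω` a finite set, `Q ⊂ 𝕂^Ω` a point-separating `B`-subalgebra.
* `exists_indep_of_sep`  (D1) : `card Ω` elements of the monoid generated by `s`, independent over `B`
  (`S28_exists_Kindep_of_sep`: even independent over `𝕂`).
* `charpoly_of_sep`      (D2) : if `dim_B Q ≤ card Ω` then `∏ (X - y α)` is defined over `B` for `y ∈ Q`.
* `indicator_support_mem`(D3) : indicator functions of supports lie in `Q`.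
* `proj_injective_of_idempotents` (D4).
-/

set_option autoImplicit false
set_option linter.unusedSectionVars false

namespace Fermat.Agent.S28

variable {B 𝕂 : Type} [Field B] [Field 𝕂] [Algebra B 𝕂] {Ω : Type} [Fintype Ω] [DecidableEq Ω]

/-- evaluation at `α` as a monoid hom on the submonoid generated by `s`. -/
noncomputable def S28_evalHom (s : Set (Ω → 𝕂)) (α : Ω) : ↥(Submonoid.closure s) →* 𝕂 :=
  (Pi.evalMonoidHom (fun _ : Ω => 𝕂) α).comp (Submonoid.closure s).subtype

omit [Fintype Ω] [DecidableEq Ω] in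
theorem S28_evalHom_apply (s : Set (Ω → 𝕂)) (α : Ω) (m : ↥(Submonoid.closure s)) :
    S28_evalHom s α m = (m : Ω → 𝕂) α := rfl

omit [Fintype Ω] [DecidableEq Ω] in
theorem S28_evalHom_injective (s : Set (Ω → 𝕂))
    (hsep : ∀ α β : Ω, α ≠ β → ∃ x ∈ Algebra.adjoin B s, x α ≠ x β) :
    Function.Injective (S28_evalHom (𝕂 := 𝕂) s) := by
  intro α β h
  by_contra hne
  obtain ⟨x, hx, hxne⟩ := hsep α β hne
  apply hxne
  have hx' : x ∈ Submodule.span B (Submonoid.closure s : Set (Ω → 𝕂)) := by
    rw [← Algebra.adjoin_eq_span]; exact hx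
  refine Submodule.span_induction (p := fun x _ => x α = x β) ?_ ?_ ?_ ?_ hx'
  · intro m hm
    have := DFunLike.congr_fun h ⟨m, hm⟩
    simpa [S28_evalHom_apply] using this
  · simp
  · intro u v _ _ hu hv
    simp [hu, hv]
  · intro c u _ hu
    simp [hu]

/-- the `𝕂`-span of the monoid generated by a separating set is everything. -/
theorem S28_span_closure_eq_top (s : Set (Ω → 𝕂))
    (hsep : ∀ α β : Ω, α ≠ β → ∃ x ∈ Algebra.adjoin B s, x α ≠ x β) :
    Submodule.span 𝕂 (Submonoid.closure s : Set (Ω → 𝕂)) = ⊤ := by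
  by_contra hne
  obtain ⟨f, hf0, hf⟩ := Submodule.exists_le_ker_of_lt_top _ (lt_top_iff_ne_top.mpr hne)
  have hli : LinearIndependent 𝕂 (fun α : Ω => (S28_evalHom s α : ↥(Submonoid.closure s) → 𝕂)) :=
    (linearIndependent_monoidHom ↥(Submonoid.closure s) 𝕂).comp _
      (S28_evalHom_injective (B := B) s hsep)
  rw [Fintype.linearIndependent_iff] at hli
  have hc := hli (fun α => f (fun j => if α = j then 1 else 0)) (by
    funext m
    have h1 : f (m : Ω → 𝕂) = 0 := hf (Submodule.subset_span m.2)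
    rw [LinearMap.pi_apply_eq_sum_univ] at h1
    simp only [Finset.sum_apply, Pi.smul_apply, smul_eq_mul, Pi.zero_apply, S28_evalHom_apply]
    exact Eq.trans (Finset.sum_congr rfl fun α _ => mul_comm _ _) h1)
  apply hf0
  refine LinearMap.ext fun x => ?_
  rw [LinearMap.pi_apply_eq_sum_univ]
  simp [hc]

/-- D1, strong form: `card Ω` elements of the monoid generated by `s` which are linearly independent
over the big field `𝕂`. -/
theorem S28_exists_Kindep_of_sep (s : Set (Ω → 𝕂))
    (hsep : ∀ α β : Ω, α ≠ β → ∃ x ∈ Algebra.adjoin B s, x α ≠ x β) :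
    ∃ y : Fin (Fintype.card Ω) → (Ω → 𝕂), (∀ i, y i ∈ Submonoid.closure s) ∧
      LinearIndependent 𝕂 y := by
  obtain ⟨b, hbs, hspan, hli⟩ := exists_linearIndependent 𝕂 (Submonoid.closure s : Set (Ω → 𝕂))
  rw [S28_span_closure_eq_top (B := B) s hsep] at hspan
  have hb : ⊤ ≤ Submodule.span 𝕂 (Set.range (Subtype.val : b → (Ω → 𝕂))) := by
    rw [Subtype.range_coe, hspan]
  let bas : Module.Basis b 𝕂 (Ω → 𝕂) := Module.Basis.mk hli hb
  let e : b ≃ Ω := bas.indexEquiv (Pi.basisFun 𝕂 Ω)
  let e' : Fin (Fintype.card Ω) ≃ b := (Fintype.equivFin Ω).symm.trans e.symm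
  refine ⟨fun i => (e' i : Ω → 𝕂), fun i => hbs (e' i).2, ?_⟩
  exact hli.comp e' e'.injective

/-- D1 (Dedekind): a point-separating subalgebra of `Ω → 𝕂` has `card Ω` linearly independent
elements, which can be taken in the multiplicative monoid generated by any generating set. -/
theorem exists_indep_of_sep (s : Set (Ω → 𝕂))
    (hsep : ∀ α β : Ω, α ≠ β → ∃ x ∈ Algebra.adjoin B s, x α ≠ x β) :
    ∃ y : Fin (Fintype.card Ω) → (Ω → 𝕂), (∀ i, y i ∈ Submonoid.closure s) ∧
      LinearIndependent B y := by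
  obtain ⟨y, hy, hli⟩ := S28_exists_Kindep_of_sep (B := B) s hsep
  refine ⟨y, hy, hli.restrict_scalars ?_⟩
  intro a b hab
  simp only [Algebra.smul_def, mul_one] at hab
  exact (algebraMap B 𝕂).injective hab

omit [DecidableEq Ω] in
/-- under `hdim`, a `B`-independent family of `card Ω` elements of `Q` spans `Q` over `B`. -/
theorem S28_mem_span_of_hdim (Q : Subalgebra B (Ω → 𝕂))
    (hdim : ∀ y : Fin (Fintype.card Ω + 1) → (Ω → 𝕂), (∀ i, y i ∈ Q) → ¬ LinearIndependent B y)
    (y : Fin (Fintype.card Ω) → (Ω → 𝕂)) (hy : ∀ i, y i ∈ Q) (hli : LinearIndependent B y)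
    (x : Ω → 𝕂) (hx : x ∈ Q) : x ∈ Submodule.span B (Set.range y) := by
  by_contra hxs
  refine hdim (Fin.cons x y) ?_ ((linearIndependent_finCons).2 ⟨hli, hxs⟩)
  intro i
  refine Fin.cases ?_ (fun j => ?_) i
  · simpa using hx
  · simpa using hy j

/-- D2 (norm / characteristic polynomial): if moreover `dim_B Q ≤ card Ω`, every `y ∈ Q` has
`∏ (X - y α)` defined over `B`. -/
theorem charpoly_of_sep (Q : Subalgebra B (Ω → 𝕂))
    (hdim : ∀ y : Fin (Fintype.card Ω + 1) → (Ω → 𝕂), (∀ i, y i ∈ Q) → ¬ LinearIndependent B y)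
    (hsep : ∀ α β : Ω, α ≠ β → ∃ x ∈ Q, x α ≠ x β)
    (y : Ω → 𝕂) (hy : y ∈ Q) :
    ∃ p : Polynomial B, p.Monic ∧
      p.map (algebraMap B 𝕂) = ∏ α, (Polynomial.X - Polynomial.C (y α)) := by
  classical
  -- a `𝕂`-independent family `b` of `card Ω` elements of `Q`
  obtain ⟨b, hbQ, hbK⟩ := S28_exists_Kindep_of_sep (B := B) (Q : Set (Ω → 𝕂)) (by
    intro α β hne
    obtain ⟨x, hx, hxne⟩ := hsep α β hne
    exact ⟨x, Algebra.subset_adjoin hx, hxne⟩)
  have hbQ' : ∀ i, b i ∈ Q := fun i => by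
    have h := hbQ i
    rwa [show Submonoid.closure (Q : Set (Ω → 𝕂)) = Q.toSubmonoid from
      Submonoid.closure_eq Q.toSubmonoid] at h
  have hbB : LinearIndependent B b := by
    refine hbK.restrict_scalars ?_
    intro a c hac
    simp only [Algebra.smul_def, mul_one] at hac
    exact (algebraMap B 𝕂).injective hac
  -- matrix of multiplication by `y`
  have hM : ∀ i, ∃ c : Fin (Fintype.card Ω) → B, ∑ k, c k • b k = y * b i := fun i =>
    (Submodule.mem_span_range_iff_exists_fun B).1
      (S28_mem_span_of_hdim Q hdim b hbQ' hbB _ (Q.mul_mem hy (hbQ' i)))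
  choose M hM using hM
  let e : Ω ≃ Fin (Fintype.card Ω) := Fintype.equivFin Ω
  let P : Matrix (Fin (Fintype.card Ω)) (Fin (Fintype.card Ω)) 𝕂 := fun i k => b i (e.symm k)
  have hP : IsUnit P := by
    rw [← Matrix.linearIndependent_rows_iff_isUnit]
    have : P.row = fun i => (LinearEquiv.funCongrLeft 𝕂 𝕂 e.symm) (b i) := by
      funext i k
      rfl
    rw [this]
    exact hbK.map' _ (LinearEquiv.ker _)
  let D : Matrix (Fin (Fintype.card Ω)) (Fin (Fintype.card Ω)) 𝕂 :=
    Matrix.diagonal fun k => y (e.symm k)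
  have hMP : (Matrix.of M).map (algebraMap B 𝕂) * P = P * D := by
    ext i k
    rw [Matrix.mul_apply, Matrix.mul_diagonal]
    have h := congrFun (hM i) (e.symm k)
    simp only [Finset.sum_apply, Pi.smul_apply, Pi.mul_apply] at h
    simp only [Algebra.smul_def] at h
    simp only [Matrix.map_apply, Matrix.of_apply, P]
    rw [h, mul_comm]
  obtain ⟨u, hu⟩ := hP
  have hconj : (Matrix.of M).map (algebraMap B 𝕂) = (u : Matrix _ _ 𝕂) * D * (u⁻¹ : Units _).val := by
    have h1 : (Matrix.of M).map (algebraMap B 𝕂) * (u : Matrix _ _ 𝕂) = (u : Matrix _ _ 𝕂) * D := by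
      rw [hu]; exact hMP
    calc (Matrix.of M).map (algebraMap B 𝕂)
        = (Matrix.of M).map (algebraMap B 𝕂) * ((u : Matrix _ _ 𝕂) * (u⁻¹ : Units _).val) := by
          rw [Units.mul_inv, mul_one]
      _ = (u : Matrix _ _ 𝕂) * D * (u⁻¹ : Units _).val := by
          rw [← mul_assoc, h1]
  refine ⟨(Matrix.of M).charpoly, Matrix.charpoly_monic _, ?_⟩
  rw [← Matrix.charpoly_map, hconj]
  have h2 : ((u : Matrix _ _ 𝕂) * D * (u⁻¹ : Units _).val).charpoly = D.charpoly := by
    have := Matrix.charpoly_units_conj u D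
    rw [Matrix.coe_units_inv]
    exact this
  rw [h2, Matrix.charpoly_diagonal]
  exact Equiv.prod_comp e.symm fun α => (Polynomial.X - Polynomial.C (y α))

omit [DecidableEq Ω] in
/-- under `hdim` every element of `Q` is killed by a nonzero polynomial over `B`. -/
theorem S28_exists_aeval_eq_zero (Q : Subalgebra B (Ω → 𝕂))
    (hdim : ∀ y : Fin (Fintype.card Ω + 1) → (Ω → 𝕂), (∀ i, y i ∈ Q) → ¬ LinearIndependent B y)
    (x : Ω → 𝕂) (hx : x ∈ Q) : ∃ p : Polynomial B, p ≠ 0 ∧ Polynomial.aeval x p = 0 := by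
  have h := hdim (fun i => x ^ (i : ℕ)) (fun i => Q.pow_mem hx _)
  rw [Fintype.not_linearIndependent_iff] at h
  obtain ⟨g, hg, i, hi⟩ := h
  refine ⟨∑ k : Fin (Fintype.card Ω + 1), Polynomial.monomial (k : ℕ) (g k), ?_, ?_⟩
  · intro h0
    apply hi
    have := congrArg (fun q => Polynomial.coeff q (i : ℕ)) h0
    simp only [Polynomial.finsetSum_coeff, Polynomial.coeff_monomial, Polynomial.coeff_zero] at this
    rw [Finset.sum_eq_single i] at this
    · simpa using this
    · intro k _ hk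
      rw [if_neg]
      exact fun h => hk (Fin.ext h)
    · intro h; exact absurd (Finset.mem_univ i) h
  · rw [map_sum, ← hg]
    refine Finset.sum_congr rfl fun k _ => ?_
    rw [Polynomial.aeval_monomial, Algebra.smul_def]

open Classical in
/-- D3 (supports are idempotents in `Q`): for finite-dimensional `Q`, the indicator of the support
of any `x ∈ Q` lies in `Q`. -/
theorem indicator_support_mem (Q : Subalgebra B (Ω → 𝕂))
    (hdim : ∀ y : Fin (Fintype.card Ω + 1) → (Ω → 𝕂), (∀ i, y i ∈ Q) → ¬ LinearIndependent B y)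
    (x : Ω → 𝕂) (hx : x ∈ Q) :
    (fun α => if x α = 0 then (0 : 𝕂) else 1) ∈ Q := by
  obtain ⟨p, hp0, hp⟩ := S28_exists_aeval_eq_zero Q hdim x hx
  obtain ⟨p₁, hpp, hnd⟩ := Polynomial.exists_eq_pow_rootMultiplicity_mul_and_not_dvd p hp0 0
  simp only [map_zero, sub_zero] at hpp hnd
  set e := Polynomial.rootMultiplicity 0 p
  have hc : p₁.coeff 0 ≠ 0 := fun h => hnd (Polynomial.X_dvd_iff.2 h)
  -- componentwise evaluation
  have hα : ∀ α, x α ^ e * Polynomial.aeval (x α) p₁ = 0 := by
    intro α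
    have h1 : Polynomial.aeval (x α) p = 0 := by
      have := Polynomial.aeval_algHom_apply (Pi.evalAlgHom B (fun _ : Ω => 𝕂) α) x p
      rw [hp] at this
      simpa using this
    rw [hpp] at h1
    simpa using h1
  have hval : ∀ α, Polynomial.aeval (x α) p₁ =
      if x α = 0 then algebraMap B 𝕂 (p₁.coeff 0) else 0 := by
    intro α
    split_ifs with h
    · rw [h, ← Polynomial.coeff_zero_eq_aeval_zero']
    · rcases mul_eq_zero.1 (hα α) with h' | h'
      · exact absurd h' (pow_ne_zero e h)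
      · exact h'
  have hmem : Polynomial.aeval x p₁ ∈ Q := by
    have := Subalgebra.aeval_coe Q ⟨x, hx⟩ p₁
    simp only at this
    rw [this]
    exact Subtype.property _
  have key : (fun α => if x α = 0 then (0 : 𝕂) else 1) =
      1 - (p₁.coeff 0)⁻¹ • Polynomial.aeval x p₁ := by
    funext α
    have h2 : (Polynomial.aeval x p₁) α = Polynomial.aeval (x α) p₁ := by
      have := Polynomial.aeval_algHom_apply (Pi.evalAlgHom B (fun _ : Ω => 𝕂) α) x p₁
      simpa using this.symm
    simp only [Pi.sub_apply, Pi.one_apply, Pi.smul_apply, h2, hval α]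
    split_ifs with h
    · rw [Algebra.smul_def, ← map_mul, inv_mul_cancel₀ hc, map_one, sub_self]
    · rw [smul_zero, sub_zero]
  rw [key]
  exact Q.sub_mem Q.one_mem (Q.smul_mem hmem _)

open Classical in
/-- D4: if the only idempotent indicators in `Q` are `0` and `1`, every projection is injective on
`Q`. -/
theorem proj_injective_of_idempotents (Q : Subalgebra B (Ω → 𝕂))
    (hdim : ∀ y : Fin (Fintype.card Ω + 1) → (Ω → 𝕂), (∀ i, y i ∈ Q) → ¬ LinearIndependent B y)
    (hid : ∀ S : Finset Ω, (fun α => if α ∈ S then (1 : 𝕂) else 0) ∈ Q → S = ∅ ∨ S = Finset.univ)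
    (x : Ω → 𝕂) (hx : x ∈ Q) (α : Ω) (hxα : x α = 0) : x = 0 := by
  have h := indicator_support_mem Q hdim x hx
  have hS : (fun β => if β ∈ (Finset.univ.filter fun β => x β ≠ 0) then (1 : 𝕂) else 0) =
      (fun β => if x β = 0 then (0 : 𝕂) else 1) := by
    funext β
    by_cases hβ : x β = 0
    · simp [hβ]
    · simp [hβ]
  rcases hid (Finset.univ.filter fun β => x β ≠ 0) (by rw [hS]; exact h) with hS' | hS'
  · funext β
    by_contra hβ
    have hβ' : x β ≠ 0 := hβ
    have : β ∈ (Finset.univ.filter fun β => x β ≠ 0) := by simp [hβ']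
    rw [hS'] at this
    exact absurd this (Finset.notMem_empty β)
  · have : α ∈ (Finset.univ.filter fun β => x β ≠ 0) := by rw [hS']; exact Finset.mem_univ α
    simp [hxα] at this

end Fermat.Agent.S28
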