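import Fermat.Agent.S28.QExp
import Fermat.Prelude.Def_ModularCurve_X0
import Mathlib.NumberTheory.ModularForms.Discriminant
import Mathlib.NumberTheory.ModularForms.EisensteinSeries.Basic
import Mathlib.RingTheory.MvPolynomial.Homogeneous

/-!
# S28: common definitions for the analytic core and the characteristic-`ℓ` core

* `Cos N` : index set of the conjugates (cosets of `Γ₀(N)` in `SL(2,ℤ)`), `rep α` the matrix by
  which we slash.
* `genFn f d` : the generators `d^12 E₄(dτ)^3` (`f = true`) and `d^12 Δ(dτ)` (`f = false`).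
* `conjS A z N a b d' φ` : the formal `q^{1/N}`-expansion
  `a^12 · φ(z^{b N/d'} t^{a N / d'})` of a conjugate, over any ring `A` with a chosen `z : A`
  (to be a primitive `N`-th root of unity).
* `cs A z N α g` : the formal expansion of the conjugate `α` of the generator `g`.
-/

set_option autoImplicit false

open scoped MatrixGroups ModularForm Real
open UpperHalfPlane hiding I
open ModularForm Complex CongruenceSubgroup

namespace Fermat.Agent.S28

/-- Index set of the conjugates: left cosets of `Γ₀(N)` in `SL(2,ℤ)`. -/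
abbrev Cos (N : ℕ) : Type := SL(2, ℤ) ⧸ Gamma0 N

/-- the coset of the identity -/
def cos0 (N : ℕ) : Cos N := QuotientGroup.mk 1

/-- The matrix by which we slash for the conjugate `α`. -/
noncomputable def rep (N : ℕ) (α : Cos N) : SL(2, ℤ) := (Quotient.out α)⁻¹

/-- `a = gcd(d, c)` in the Hermite normal form `!![d,0;0,1] * rep α = γ' * !![a,b;0,d']`. -/
noncomputable def cA (N : ℕ) (α : Cos N) (d : ℕ) : ℕ := Nat.gcd d ((rep N α) 1 0).natAbs

/-- `d' = d / a` in the Hermite normal form. -/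
noncomputable def cD (N : ℕ) (α : Cos N) (d : ℕ) : ℕ := d / cA N α d

theorem cA_pos (N : ℕ) (α : Cos N) {d : ℕ} (hd : 0 < d) : 0 < cA N α d :=
  Nat.gcd_pos_of_pos_left _ hd

theorem cA_dvd (N : ℕ) (α : Cos N) (d : ℕ) : cA N α d ∣ d := Nat.gcd_dvd_left _ _

theorem cA_mul_cD (N : ℕ) (α : Cos N) (d : ℕ) : cA N α d * cD N α d = d :=
  Nat.mul_div_cancel' (cA_dvd N α d)

theorem cD_pos (N : ℕ) (α : Cos N) {d : ℕ} (hd : 0 < d) : 0 < cD N α d :=
  Nat.div_pos (Nat.le_of_dvd hd (cA_dvd N α d)) (cA_pos N α hd)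

theorem exists_cB (N : ℕ) (α : Cos N) {d : ℕ} (hd : 0 < d) :
    ∃ b : ℕ, b < cD N α d ∧ ∃ γ' : SL(2, ℤ),
      ut d 0 1 * (rep N α : GL (Fin 2) ℝ) = (γ' : GL (Fin 2) ℝ) * ut (cA N α d) b (cD N α d) := by
  obtain ⟨γ', a, b, d', ha, hd', hadd, hag, hb, h⟩ := hnf_GL (rep N α) d hd
  have ha' : a = cA N α d := hag
  have hd'' : d' = cD N α d := by
    unfold cD
    rw [← ha', ← hadd, Nat.mul_div_cancel_left _ ha]
  subst ha' hd''
  exact ⟨b, hb, γ', h⟩

/-- `b` in the Hermite normal form (a choice). -/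
noncomputable def cB (N : ℕ) (α : Cos N) (d : ℕ) : ℕ :=
  if hd : 0 < d then Classical.choose (exists_cB N α hd) else 0

theorem cB_lt (N : ℕ) (α : Cos N) {d : ℕ} (hd : 0 < d) : cB N α d < cD N α d := by
  rw [cB, dif_pos hd]
  exact (Classical.choose_spec (exists_cB N α hd)).1

theorem cB_spec (N : ℕ) (α : Cos N) {d : ℕ} (hd : 0 < d) :
    ∃ γ' : SL(2, ℤ), ut d 0 1 * (rep N α : GL (Fin 2) ℝ) =
      (γ' : GL (Fin 2) ℝ) * ut (cA N α d) (cB N α d) (cD N α d) := by
  rw [cB, dif_pos hd]
  exact (Classical.choose_spec (exists_cB N α hd)).2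

/-- The two base power series over `ℤ`: `E₄^3` and `Δ = q ∏ (1 - q^n)^24`. -/
noncomputable def baseSeries : Bool → PowerSeries ℤ
  | true => ModularCurve.eisenstein4 ^ 3
  | false => PowerSeries.X * ModularCurve.etaProd ^ 24

/-- The two base level one forms of weight 12, as functions: `E₄^3` and `Δ`. -/
noncomputable def baseFn : Bool → ℍ → ℂ
  | true => fun τ ↦ E₄ τ ^ 3
  | false => fun τ ↦ ModularForm.discriminant τ

/-- The generators, as functions: `d^12 f(dτ)`. -/
noncomputable def genFn (f : Bool) (d : ℕ) : ℍ → ℂ := (d : ℂ) • (baseFn f ∣[(12 : ℤ)] ut d 0 1)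

/-- index type of the generators for level `N` -/
abbrev Gen (N : ℕ) : Type := Bool × N.divisors

/-- the level one generators `E = (true, 1)` and `D = (false, 1)` -/
def gen1 (N : ℕ) [NeZero N] (f : Bool) : Gen N :=
  (f, ⟨1, Nat.one_mem_divisors.mpr (NeZero.ne N)⟩)

/-- The formal `q^{1/N}`-expansion `a^12 φ(z^{b N/d'} t^{a N/d'})`. -/
noncomputable def conjS (A : Type*) [CommRing A] (z : A) (N a b d' : ℕ) (φ : PowerSeries ℤ) :
    PowerSeries A :=
  PowerSeries.mk fun n ↦
    if (a * N / d') ∣ n then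
      (a : A) ^ 12 * ((z ^ (b * (N / d'))) ^ (n / (a * N / d')) *
        ((PowerSeries.coeff (n / (a * N / d')) φ : ℤ) : A))
    else 0

/-- The formal expansion of the conjugate `α` of the generator `g`. -/
noncomputable def cs (A : Type*) [CommRing A] (z : A) (N : ℕ) (α : Cos N) (g : Gen N) :
    PowerSeries A :=
  conjS A z N (cA N α g.2) (cB N α g.2) (cD N α g.2) (baseSeries g.1)

/-- the standard primitive `N`-th root of unity in `ℂ` -/
noncomputable def zetaC (N : ℕ) : ℂ := Complex.exp (2 * π * I / (N : ℂ))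

theorem map_conjS {A B : Type*} [CommRing A] [CommRing B] (ρ : A →+* B) (z : A) (N a b d' : ℕ)
    (φ : PowerSeries ℤ) :
    PowerSeries.map ρ (conjS A z N a b d' φ) = conjS B (ρ z) N a b d' φ := by
  ext n
  simp only [conjS, PowerSeries.coeff_map, PowerSeries.coeff_mk]
  split_ifs <;> simp

theorem map_cs {A B : Type*} [CommRing A] [CommRing B] (ρ : A →+* B) (z : A) (N : ℕ) (α : Cos N)
    (g : Gen N) : PowerSeries.map ρ (cs A z N α g) = cs B (ρ z) N α g :=
  map_conjS ρ z N _ _ _ _

end Fermat.Agent.S28
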