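import Mathlib.NumberTheory.ModularForms.CongruenceSubgroups
import Mathlib.NumberTheory.ModularForms.SlashActions
import Fermat.Prelude.Def_ModularForm_HeckeOperator

/-!
# S28 helper: Hermite normal form of `diag(d,1) * γ` for `γ ∈ SL(2,ℤ)`
-/

set_option autoImplicit false

open scoped MatrixGroups

namespace Fermat.Agent.S28

/-- Integer Hermite normal form: for `γ ∈ SL(2,ℤ)` and `d ≥ 1` there are `γ' ∈ SL(2,ℤ)` and an
upper triangular integer matrix `!![a, b; 0, d']` with `a * d' = d`, `a = gcd(d, γ₁₀)`,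
`0 ≤ b < d'` such that `diag(d,1) * γ = γ' * !![a, b; 0, d']`. -/
theorem hnf_int (γ : SL(2, ℤ)) (d : ℕ) (hd : 0 < d) :
    ∃ (γ' : SL(2, ℤ)) (a b d' : ℕ), 0 < a ∧ 0 < d' ∧ a * d' = d ∧
      a = Nat.gcd d (γ 1 0).natAbs ∧ b < d' ∧
      (!![(d : ℤ), 0; 0, 1] : Matrix (Fin 2) (Fin 2) ℤ) * (γ : Matrix (Fin 2) (Fin 2) ℤ) =
        (γ' : Matrix (Fin 2) (Fin 2) ℤ) * !![(a : ℤ), (b : ℤ); 0, (d' : ℤ)] := by
  set x : ℤ := γ 0 0 with hx
  set y : ℤ := γ 0 1 with hy
  set z : ℤ := γ 1 0 with hz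
  set w : ℤ := γ 1 1 with hw
  have hdet : x * w - y * z = 1 := by
    have := γ.det_coe
    rw [Matrix.det_fin_two] at this
    exact this
  set g : ℕ := Nat.gcd d z.natAbs with hg
  have hgpos : 0 < g := Nat.gcd_pos_of_pos_left _ hd
  have hgd : (g : ℤ) ∣ (d : ℤ) := Int.natCast_dvd_natCast.mpr (Nat.gcd_dvd_left _ _)
  have hgz : (g : ℤ) ∣ z := by
    have : g ∣ z.natAbs := Nat.gcd_dvd_right _ _
    exact Int.natCast_dvd.mpr this
  obtain ⟨d', hd'⟩ : ∃ d' : ℕ, d = g * d' := Nat.gcd_dvd_left d z.natAbs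
  obtain ⟨r, hr⟩ := hgz
  have hd'pos : 0 < d' := by
    rcases Nat.eq_zero_or_pos d' with h | h
    · rw [h, Nat.mul_zero] at hd'; omega
    · exact h
  -- Bezout for `d` and `z`
  have hbez : ∃ u0 v0 : ℤ, u0 * d + v0 * z = g := by
    refine ⟨Int.gcdA d z, Int.gcdB d z, ?_⟩
    have h := Int.gcd_eq_gcd_ab (d : ℤ) z
    have hgg : (Int.gcd (d : ℤ) z : ℤ) = g := by
      simp [Int.gcd, hg]
    rw [hgg] at h
    linarith
  obtain ⟨u0, v0, huv0⟩ := hbez
  -- Bezout for `d * x` and `z`: multiply `1 = x*w - y*z`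
  -- g = u0*d + v0*z = u0*d*(x*w - y*z) + v0*z = (u0*w)*(d*x) + (v0 - u0*d*y)*z
  set u : ℤ := u0 * w with hu
  set v : ℤ := v0 - u0 * d * y with hv
  have huv : u * (d * x) + v * z = g := by
    have : u * (d * x) + v * z = u0 * d * (x * w - y * z) + v0 * z := by rw [hu, hv]; ring
    rw [this, hdet]; linarith
  set p : ℤ := d' * x with hp
  have hdx : (d : ℤ) * x = g * p := by rw [hp, hd']; push_cast; ring
  have hgne : (g : ℤ) ≠ 0 := by exact_mod_cast hgpos.ne'
  have hone : u * p + v * r = 1 := by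
    have h1 : (g : ℤ) * (u * p + v * r) = g * 1 := by
      calc (g : ℤ) * (u * p + v * r) = u * (g * p) + v * (g * r) := by ring
        _ = u * (d * x) + v * z := by rw [← hdx, ← hr]
        _ = g * 1 := by rw [huv, mul_one]
    exact mul_left_cancel₀ hgne h1
  set b0 : ℤ := u * d * y + v * w with hb0
  set k : ℤ := b0 / d' with hk
  set b : ℤ := b0 % d' with hb
  have hd'z : (0 : ℤ) < d' := by exact_mod_cast hd'pos
  have hbnn : 0 ≤ b := Int.emod_nonneg _ hd'z.ne'
  have hblt : b < d' := Int.emod_lt_of_pos _ hd'z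
  have hb0eq : b0 = b + d' * k := by rw [hb, hk]; exact (Int.emod_add_mul_ediv b0 d').symm
  have hdet' : p * (r * k + u) - (p * k - v) * r = 1 := by linear_combination hone
  let γ' : SL(2, ℤ) := ⟨!![p, p * k - v; r, r * k + u], by
    rw [Matrix.det_fin_two_of]; exact hdet'⟩
  refine ⟨γ', g, b.toNat, d', hgpos, hd'pos, hd'.symm, rfl, ?_, ?_⟩
  · have : (b.toNat : ℤ) < d' := by rw [Int.toNat_of_nonneg hbnn]; exact hblt
    exact_mod_cast this
  · have hbt : ((b.toNat : ℕ) : ℤ) = b := Int.toNat_of_nonneg hbnn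
    have hγ : (γ : Matrix (Fin 2) (Fin 2) ℤ) = !![x, y; z, w] := by
      ext i j
      fin_cases i <;> fin_cases j <;> rfl
    rw [hγ, hbt]
    show !![(d : ℤ), 0; 0, 1] * !![x, y; z, w] =
      !![p, p * k - v; r, r * k + u] * !![(g : ℤ), b; 0, (d' : ℤ)]
    rw [Matrix.mul_fin_two, Matrix.mul_fin_two]
    have hdz : (d : ℤ) = g * d' := by rw [hd']; push_cast; ring
    have e01 : (d : ℤ) * y = p * b + (p * k - v) * d' := by
      have h1 : (g : ℤ) * (d * y) = g * (p * b + (p * k - v) * d') := by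
        have hb' : b = b0 - d' * k := by linarith
        have : (g : ℤ) * (p * b + (p * k - v) * d') = (g * p) * b0 - v * (g * d') := by
          rw [hb']; ring
        rw [this, ← hdx, ← hdz, hb0]
        have : (g : ℤ) * (d * y) = (u * (d * x) + v * z) * (d * y) := by rw [huv]
        rw [this]
        linear_combination (-(v * d)) * hdet
      exact mul_left_cancel₀ hgne h1
    have e11 : w = r * b + (r * k + u) * d' := by
      have h1 : (g : ℤ) * w = g * (r * b + (r * k + u) * d') := by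
        have hb' : b = b0 - d' * k := by linarith
        have : (g : ℤ) * (r * b + (r * k + u) * d') = (g * r) * b0 + u * (g * d') := by
          rw [hb']; ring
        rw [this, ← hr, ← hdz, hb0]
        have : (g : ℤ) * w = (u * (d * x) + v * z) * w := by rw [huv]
        rw [this]
        linear_combination (u * d) * hdet
      exact mul_left_cancel₀ hgne h1
    ext i j
    fin_cases i <;> fin_cases j
    · simp [hdx]; ring
    · simp [e01]
    · simp [hr]; ring
    · simp; linear_combination e11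

end Fermat.Agent.S28
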