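import Mathlib
import Fermat.Prelude.Def_ModularCurve_IgusaScheme

set_option autoImplicit false

open AlgebraicGeometry CategoryTheory CategoryTheory.Limits ModularCurve ModularCurve.IgusaScheme
open scoped TensorProduct

noncomputable section

namespace Fermat.Agent.S28

/-- A space covered by two irreducible open subsets with nonempty intersection is irreducible. -/
theorem S28_irreducibleSpace_of_two_opens {X : Type*} [TopologicalSpace X] (U V : Set X)
    (hU : IsOpen U) (hV : IsOpen V) (hUi : IsIrreducible U) (hVi : IsIrreducible V)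
    (hUV : (U ∩ V).Nonempty) (hcov : U ∪ V = Set.univ) : IrreducibleSpace X := by
  -- every nonempty open set meets `U ∩ V`
  have key : ∀ W : Set X, IsOpen W → W.Nonempty → (W ∩ (U ∩ V)).Nonempty := by
    intro W hW ⟨x, hx⟩
    have hxUV : x ∈ U ∪ V := hcov ▸ Set.mem_univ x
    rcases hxUV with hxU | hxV
    · obtain ⟨y, hyU, hyW, hyV⟩ := hUi.2 W V hW hV ⟨x, hxU, hx⟩
        (by obtain ⟨z, hz⟩ := hUV; exact ⟨z, hz.1, hz.2⟩)
      exact ⟨y, hyW, hyU, hyV⟩
    · obtain ⟨y, hyV, hyW, hyU⟩ := hVi.2 W U hW hU ⟨x, hxV, hx⟩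
        (by obtain ⟨z, hz⟩ := hUV; exact ⟨z, hz.2, hz.1⟩)
      exact ⟨y, hyW, hyU, hyV⟩
  have hne : Nonempty X := by
    obtain ⟨z, -⟩ := hUV
    exact ⟨z⟩
  refine { toPreirreducibleSpace := ⟨?_⟩, toNonempty := hne }
  rintro W₁ W₂ hW₁ hW₂ ⟨x₁, -, hx₁⟩ ⟨x₂, -, hx₂⟩
  obtain ⟨y₁, hy₁W, hy₁U, -⟩ := key W₁ hW₁ ⟨x₁, hx₁⟩
  obtain ⟨y₂, hy₂W, hy₂U, -⟩ := key W₂ hW₂ ⟨x₂, hx₂⟩
  obtain ⟨y, -, hyW₁, hyW₂⟩ := hUi.2 W₁ W₂ hW₁ hW₂ ⟨y₁, hy₁U, hy₁W⟩ ⟨y₂, hy₂U, hy₂W⟩
  exact ⟨y, Set.mem_univ y, hyW₁, hyW₂⟩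

variable (N : ℕ) [NeZero N] (ℓ : ℕ) [Fact ℓ.Prime]

/-- The two-chart open cover of the Igusa scheme. -/
def S28_cover : (ModularCurve.IgusaScheme N ℓ).OpenCover :=
  Scheme.Cover.mkOfCovers Bool (fun b => cond b (XFin N ℓ) (XInf N ℓ))
    (fun b => match b with
      | true => ιFin N ℓ
      | false => ιInf N ℓ)
    (fun x => by
      rcases mem_range_ιFin_or_mem_range_ιInf N ℓ x with ⟨y, hy⟩ | ⟨y, hy⟩
      · exact ⟨true, y, hy⟩
      · exact ⟨false, y, hy⟩)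
    (fun b => by
      cases b
      · exact isOpenImmersion_ιInf N ℓ
      · exact isOpenImmersion_ιFin N ℓ)

variable (K : Type) [Field K] [Algebra ↥(GaloisRep.ratLocalizedAt ℓ) K]

/-- The base change morphism `Spec K ⟶ Spec ℤ_(ℓ)`. -/
abbrev S28_g : Spec (CommRingCat.of K) ⟶ Spec (CommRingCat.of ↥(GaloisRep.ratLocalizedAt ℓ)) :=
  Spec.map (CommRingCat.ofHom (algebraMap ↥(GaloisRep.ratLocalizedAt ℓ) K))

/-- The open cover of the special fibre by the base changes of the two charts. -/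
def S28_coverFibre : (pullback (igusaTo N ℓ) (S28_g ℓ K)).OpenCover :=
  Scheme.Pullback.openCoverOfLeft (S28_cover N ℓ) (igusaTo N ℓ) (S28_g ℓ K)

/-- The finite chart of the special fibre. -/
abbrev S28_YFin : Scheme.{0} := pullback (ιFin N ℓ ≫ igusaTo N ℓ) (S28_g ℓ K)

/-- The infinite chart of the special fibre. -/
abbrev S28_YInf : Scheme.{0} := pullback (ιInf N ℓ ≫ igusaTo N ℓ) (S28_g ℓ K)

/-- The middle chart of the special fibre. -/
abbrev S28_YMid : Scheme.{0} :=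
  pullback (Spec.map (CommRingCat.ofHom
    (algebraMap ↥(GaloisRep.ratLocalizedAt ℓ) (chartAlgMid N ℓ)))) (S28_g ℓ K)

/-- The inclusion of the finite chart of the special fibre. -/
def S28_jFin : S28_YFin N ℓ K ⟶ pullback (igusaTo N ℓ) (S28_g ℓ K) :=
  pullback.map _ _ _ _ (ιFin N ℓ) (𝟙 _) (𝟙 _) (by simp) (by simp)

/-- The inclusion of the infinite chart of the special fibre. -/
def S28_jInf : S28_YInf N ℓ K ⟶ pullback (igusaTo N ℓ) (S28_g ℓ K) :=
  pullback.map _ _ _ _ (ιInf N ℓ) (𝟙 _) (𝟙 _) (by simp) (by simp)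

instance S28_isOpenImmersion_jFin : IsOpenImmersion (S28_jFin N ℓ K) :=
  (S28_coverFibre N ℓ K).map_prop true

instance S28_isOpenImmersion_jInf : IsOpenImmersion (S28_jInf N ℓ K) :=
  (S28_coverFibre N ℓ K).map_prop false

theorem S28_range_jFin_union_range_jInf :
    Set.range (S28_jFin N ℓ K) ∪ Set.range (S28_jInf N ℓ K) = Set.univ := by
  rw [Set.eq_univ_iff_forall]
  intro x
  obtain ⟨i, y, hy⟩ := (S28_coverFibre N ℓ K).exists_eq x
  have hi : ∀ (b : Bool) (y : (Scheme.Pullback.openCoverOfLeft (S28_cover N ℓ) (igusaTo N ℓ)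
      (S28_g ℓ K)).X b), (Scheme.Pullback.openCoverOfLeft (S28_cover N ℓ) (igusaTo N ℓ)
      (S28_g ℓ K)).f b y = x → x ∈ Set.range (S28_jFin N ℓ K) ∪ Set.range (S28_jInf N ℓ K) := by
    intro b
    cases b
    · intro y hy
      exact Or.inr ⟨y, hy⟩
    · intro y hy
      exact Or.inl ⟨y, hy⟩
  exact hi i y hy

/-- The finite chart of the special fibre is `Spec (A_fin ⊗ K)`. -/
def S28_isoFin : S28_YFin N ℓ K ≅
    Spec (CommRingCat.of (chartAlgFin N ℓ ⊗[↥(GaloisRep.ratLocalizedAt ℓ)] K)) :=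
  pullback.congrHom (ιFin_igusaTo N ℓ) rfl ≪≫
    pullbackSpecIso ↥(GaloisRep.ratLocalizedAt ℓ) (chartAlgFin N ℓ) K

/-- The infinite chart of the special fibre is `Spec (A_inf ⊗ K)`. -/
def S28_isoInf : S28_YInf N ℓ K ≅
    Spec (CommRingCat.of (chartAlgInf N ℓ ⊗[↥(GaloisRep.ratLocalizedAt ℓ)] K)) :=
  pullback.congrHom (ιInf_igusaTo N ℓ) rfl ≪≫
    pullbackSpecIso ↥(GaloisRep.ratLocalizedAt ℓ) (chartAlgInf N ℓ) K

theorem S28_fFin_comp :
    fFin N ℓ ≫ (ιFin N ℓ ≫ igusaTo N ℓ) =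
      Spec.map (CommRingCat.ofHom
        (algebraMap ↥(GaloisRep.ratLocalizedAt ℓ) (chartAlgMid N ℓ))) := by
  have h : (inclFin N ℓ).toRingHom.comp
      (algebraMap ↥(GaloisRep.ratLocalizedAt ℓ) (chartAlgFin N ℓ)) =
      algebraMap ↥(GaloisRep.ratLocalizedAt ℓ) (chartAlgMid N ℓ) :=
    RingHom.ext fun a => (inclFin N ℓ).commutes a
  rw [ιFin_igusaTo, ← Spec.map_comp, ← CommRingCat.ofHom_comp, h]

theorem S28_fInf_comp :
    fInf N ℓ ≫ (ιInf N ℓ ≫ igusaTo N ℓ) =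
      Spec.map (CommRingCat.ofHom
        (algebraMap ↥(GaloisRep.ratLocalizedAt ℓ) (chartAlgMid N ℓ))) := by
  have h : (inclInf N ℓ).toRingHom.comp
      (algebraMap ↥(GaloisRep.ratLocalizedAt ℓ) (chartAlgInf N ℓ)) =
      algebraMap ↥(GaloisRep.ratLocalizedAt ℓ) (chartAlgMid N ℓ) :=
    RingHom.ext fun a => (inclInf N ℓ).commutes a
  rw [ιInf_igusaTo, ← Spec.map_comp, ← CommRingCat.ofHom_comp, h]

/-- The map from the middle chart of the fibre to the finite chart of the fibre. -/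
def S28_mFin : S28_YMid N ℓ K ⟶ S28_YFin N ℓ K :=
  pullback.map _ _ _ _ (fFin N ℓ) (𝟙 _) (𝟙 _)
    (by rw [Category.comp_id]; exact (S28_fFin_comp N ℓ).symm) (by simp)

/-- The map from the middle chart of the fibre to the infinite chart of the fibre. -/
def S28_mInf : S28_YMid N ℓ K ⟶ S28_YInf N ℓ K :=
  pullback.map _ _ _ _ (fInf N ℓ) (𝟙 _) (𝟙 _)
    (by rw [Category.comp_id]; exact (S28_fInf_comp N ℓ).symm) (by simp)

theorem S28_jFin_fst :
    S28_jFin N ℓ K ≫ pullback.fst _ _ = pullback.fst _ _ ≫ ιFin N ℓ :=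
  pullback.lift_fst _ _ _

theorem S28_jFin_snd :
    S28_jFin N ℓ K ≫ pullback.snd _ _ = pullback.snd _ _ :=
  (pullback.lift_snd _ _ _).trans (Category.comp_id _)

theorem S28_jInf_fst :
    S28_jInf N ℓ K ≫ pullback.fst _ _ = pullback.fst _ _ ≫ ιInf N ℓ :=
  pullback.lift_fst _ _ _

theorem S28_jInf_snd :
    S28_jInf N ℓ K ≫ pullback.snd _ _ = pullback.snd _ _ :=
  (pullback.lift_snd _ _ _).trans (Category.comp_id _)

theorem S28_mFin_fst :
    S28_mFin N ℓ K ≫ pullback.fst _ _ = pullback.fst _ _ ≫ fFin N ℓ :=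
  pullback.lift_fst _ _ _

theorem S28_mFin_snd :
    S28_mFin N ℓ K ≫ pullback.snd _ _ = pullback.snd _ _ :=
  (pullback.lift_snd _ _ _).trans (Category.comp_id _)

theorem S28_mInf_fst :
    S28_mInf N ℓ K ≫ pullback.fst _ _ = pullback.fst _ _ ≫ fInf N ℓ :=
  pullback.lift_fst _ _ _

theorem S28_mInf_snd :
    S28_mInf N ℓ K ≫ pullback.snd _ _ = pullback.snd _ _ :=
  (pullback.lift_snd _ _ _).trans (Category.comp_id _)

theorem S28_mFin_comp_eq :
    S28_mFin N ℓ K ≫ S28_jFin N ℓ K = S28_mInf N ℓ K ≫ S28_jInf N ℓ K := by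
  apply pullback.hom_ext
  · rw [Category.assoc, Category.assoc, S28_jFin_fst, S28_jInf_fst,
      ← Category.assoc, ← Category.assoc, S28_mFin_fst, S28_mInf_fst, Category.assoc,
      Category.assoc, glue_condition]
  · rw [Category.assoc, Category.assoc, S28_jFin_snd, S28_jInf_snd,
      S28_mFin_snd, S28_mInf_snd]

theorem isIntegral_of_charts
    (hFin : IsDomain (chartAlgFin N ℓ ⊗[↥(GaloisRep.ratLocalizedAt ℓ)] K))
    (hInf : IsDomain (chartAlgInf N ℓ ⊗[↥(GaloisRep.ratLocalizedAt ℓ)] K))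
    (hMid : Nontrivial (chartAlgMid N ℓ ⊗[↥(GaloisRep.ratLocalizedAt ℓ)] K)) :
    IsIntegral ↑(pullback (igusaTo N ℓ)
      (Spec.map (CommRingCat.ofHom (algebraMap ↥(GaloisRep.ratLocalizedAt ℓ) K)))) := by
  haveI hiFin : IsIntegral (S28_YFin N ℓ K) := IsIntegral.of_isIso (S28_isoFin N ℓ K).inv
  haveI hiInf : IsIntegral (S28_YInf N ℓ K) := IsIntegral.of_isIso (S28_isoInf N ℓ K).inv
  haveI hred : ∀ i, IsReduced ((S28_coverFibre N ℓ K).X i) := by
    have h : ∀ b : Bool, IsReduced ((Scheme.Pullback.openCoverOfLeft (S28_cover N ℓ)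
        (igusaTo N ℓ) (S28_g ℓ K)).X b) := by
      intro b
      cases b
      · exact (inferInstance : IsReduced (S28_YInf N ℓ K))
      · exact (inferInstance : IsReduced (S28_YFin N ℓ K))
    exact h
  haveI : IsReduced (pullback (igusaTo N ℓ) (S28_g ℓ K)) :=
    IsReduced.of_openCover _ (S28_coverFibre N ℓ K)
  haveI : Nonempty (S28_YMid N ℓ K) := by
    have e : S28_YMid N ℓ K ≅
        Spec (CommRingCat.of (chartAlgMid N ℓ ⊗[↥(GaloisRep.ratLocalizedAt ℓ)] K)) :=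
      pullbackSpecIso ↥(GaloisRep.ratLocalizedAt ℓ) (chartAlgMid N ℓ) K
    have : Nonempty (Spec (CommRingCat.of
        (chartAlgMid N ℓ ⊗[↥(GaloisRep.ratLocalizedAt ℓ)] K))) :=
      inferInstanceAs (Nonempty (PrimeSpectrum
        (chartAlgMid N ℓ ⊗[↥(GaloisRep.ratLocalizedAt ℓ)] K)))
    exact this.map e.inv
  haveI : IrreducibleSpace ↥(pullback (igusaTo N ℓ) (S28_g ℓ K)) := by
    apply S28_irreducibleSpace_of_two_opens
      (Set.range (S28_jFin N ℓ K)) (Set.range (S28_jInf N ℓ K))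
    · exact (S28_jFin N ℓ K).isOpenEmbedding.isOpen_range
    · exact (S28_jInf N ℓ K).isOpenEmbedding.isOpen_range
    · rw [← Set.image_univ]
      exact (IrreducibleSpace.isIrreducible_univ _).image _
        (S28_jFin N ℓ K).continuous.continuousOn
    · rw [← Set.image_univ]
      exact (IrreducibleSpace.isIrreducible_univ _).image _
        (S28_jInf N ℓ K).continuous.continuousOn
    · obtain ⟨z⟩ := ‹Nonempty (S28_YMid N ℓ K)›
      refine ⟨(S28_mFin N ℓ K ≫ S28_jFin N ℓ K) z, ⟨S28_mFin N ℓ K z, rfl⟩, ?_⟩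
      rw [S28_mFin_comp_eq]
      exact ⟨S28_mInf N ℓ K z, rfl⟩
    · exact S28_range_jFin_union_range_jInf N ℓ K
  exact isIntegral_of_irreducibleSpace_of_isReduced _

end Fermat.Agent.S28
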