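import Fermat.Agent.S28.SymPerm
import Fermat.Agent.S28.PkgT

/-!
# S28 (AC3, steps b, c): the symmetric functions of the conjugates

For `a b : Cos N → ℍ → ℂ` (conjugates of two generators) we consider the polynomial
`∏ α, (b α τ • X - a α τ)` and its coefficients `symCoeff a b s k`.
-/

set_option autoImplicit false

open scoped MatrixGroups ModularForm Real Manifold
open UpperHalfPlane hiding I
open ModularForm Complex CongruenceSubgroup Polynomial

namespace Fermat.Agent.S28

/-- the coefficient ring `ℤ[ζ_N]` -/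
noncomputable def R0 (N : ℕ) : Subring ℂ := Subring.closure {zetaC N}

theorem zetaC_mem_R0 (N : ℕ) : zetaC N ∈ R0 N := Subring.subset_closure rfl

/-- nice with `q^{1/N}`-expansion coefficients in `ℤ[ζ_N]` -/
def NiceR (N : ℕ) (f : ℍ → ℂ) : Prop :=
  Nice (N : ℝ) f ∧ CoeffMem (R0 N) (qExpansion (N : ℝ) f)

namespace NiceR

variable {N : ℕ} {f g : ℍ → ℂ}

theorem add (hN : 0 < N) (hf : NiceR N f) (hg : NiceR N g) : NiceR N (f + g) := by
  have hN' : (0 : ℝ) < N := by exact_mod_cast hN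
  refine ⟨hf.1.add hg.1, ?_⟩
  rw [qExpansion_add (hf.1.analyticAt hN') (hg.1.analyticAt hN')]
  intro n
  rw [map_add]
  exact Subring.add_mem _ (hf.2 n) (hg.2 n)

theorem mul (hN : 0 < N) (hf : NiceR N f) (hg : NiceR N g) : NiceR N (f * g) := by
  have hN' : (0 : ℝ) < N := by exact_mod_cast hN
  refine ⟨hf.1.mul hg.1, ?_⟩
  rw [qExpansion_mul (hf.1.analyticAt hN') (hg.1.analyticAt hN')]
  exact hf.2.mul hg.2

theorem const (c : ℂ) (hc : c ∈ R0 N) : NiceR N (fun _ ↦ c) := by
  refine ⟨Nice.const c, ?_⟩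
  rw [qExpansion_const]
  intro n
  rw [PowerSeries.coeff_C]
  split_ifs
  · exact hc
  · exact Subring.zero_mem _

theorem neg (hN : 0 < N) (hf : NiceR N f) : NiceR N (-f) := by
  have h : -f = (fun _ ↦ (-1 : ℂ)) * f := by ext τ; simp
  rw [h]
  exact (const (-1) (Subring.neg_mem _ (Subring.one_mem _))).mul hN hf

theorem sub (hN : 0 < N) (hf : NiceR N f) (hg : NiceR N g) : NiceR N (f - g) := by
  rw [sub_eq_add_neg]
  exact hf.add hN (hg.neg hN)

end NiceR

theorem coeffMem_csC (N : ℕ) (α : Cos N) (g : Gen N) : CoeffMem (R0 N) (csC N α g) := by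
  intro n
  simp only [csC, cs, conjS, PowerSeries.coeff_mk]
  split_ifs
  · refine Subring.mul_mem _ (Subring.pow_mem _ (natCast_mem _ _) _)
      (Subring.mul_mem _ (Subring.pow_mem _ (Subring.pow_mem _ (zetaC_mem_R0 N) _) _) ?_)
    exact intCast_mem _ _
  · exact Subring.zero_mem _

theorem niceR_conjFn (N : ℕ) [NeZero N] (α : Cos N) (g : Gen N) : NiceR N (conjFn N α g) := by
  refine ⟨nice_conjFn N α g, ?_⟩
  rw [qExpansion_conjFn]
  exact coeffMem_csC N α g

/-! ### the polynomial `∏ (b X - a)` -/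

/-- `∏ α ∈ s, (b α τ X - a α τ)` -/
noncomputable def symPoly {Ω : Type} (a b : Ω → ℍ → ℂ) (s : Finset Ω) (τ : ℍ) : ℂ[X] :=
  ∏ α ∈ s, (C (b α τ) * X - C (a α τ))

/-- the coefficients of `symPoly`, as functions on `ℍ` -/
noncomputable def symCoeff {Ω : Type} (a b : Ω → ℍ → ℂ) (s : Finset Ω) (k : ℕ) : ℍ → ℂ :=
  fun τ ↦ (symPoly a b s τ).coeff k

theorem symCoeff_empty {Ω : Type} (a b : Ω → ℍ → ℂ) (k : ℕ) :
    symCoeff a b ∅ k = fun _ ↦ if k = 0 then 1 else 0 := by
  ext τ
  simp only [symCoeff, symPoly, Finset.prod_empty, Polynomial.coeff_one]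

theorem symCoeff_insert_zero {Ω : Type} [DecidableEq Ω] (a b : Ω → ℍ → ℂ) (s : Finset Ω)
    {α : Ω} (hα : α ∉ s) :
    symCoeff a b (insert α s) 0 = -(a α * symCoeff a b s 0) := by
  ext τ
  simp only [symCoeff, symPoly, Finset.prod_insert hα, Pi.neg_apply, Pi.mul_apply]
  rw [sub_mul, Polynomial.coeff_sub, mul_assoc, Polynomial.coeff_C_mul, Polynomial.coeff_C_mul,
    Polynomial.coeff_X_mul_zero]
  ring

theorem symCoeff_insert_succ {Ω : Type} [DecidableEq Ω] (a b : Ω → ℍ → ℂ) (s : Finset Ω)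
    {α : Ω} (hα : α ∉ s) (k : ℕ) :
    symCoeff a b (insert α s) (k + 1) = b α * symCoeff a b s k - a α * symCoeff a b s (k + 1) := by
  ext τ
  simp only [symCoeff, symPoly, Finset.prod_insert hα, Pi.sub_apply, Pi.mul_apply]
  rw [sub_mul, Polynomial.coeff_sub, mul_assoc, Polynomial.coeff_C_mul, Polynomial.coeff_C_mul,
    Polynomial.coeff_X_mul]

theorem niceR_symCoeff {Ω : Type} [DecidableEq Ω] (N : ℕ) (hN : 0 < N) (a b : Ω → ℍ → ℂ)
    (ha : ∀ α, NiceR N (a α)) (hb : ∀ α, NiceR N (b α)) (s : Finset Ω) :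
    ∀ k, NiceR N (symCoeff a b s k) := by
  induction s using Finset.induction_on with
  | empty =>
    intro k
    rw [symCoeff_empty]
    apply NiceR.const
    split_ifs
    · exact Subring.one_mem _
    · exact Subring.zero_mem _
  | insert α s hα ih =>
    intro k
    cases k with
    | zero =>
      rw [symCoeff_insert_zero a b s hα]
      exact ((ha α).mul hN (ih 0)).neg hN
    | succ k =>
      rw [symCoeff_insert_succ a b s hα]
      exact ((hb α).mul hN (ih k)).sub hN ((ha α).mul hN (ih (k + 1)))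

theorem symPoly_natDegree_le {Ω : Type} (a b : Ω → ℍ → ℂ) (s : Finset Ω) (τ : ℍ) :
    (symPoly a b s τ).natDegree ≤ s.card := by
  unfold symPoly
  refine (Polynomial.natDegree_prod_le _ _).trans ?_
  rw [Finset.card_eq_sum_ones]
  apply Finset.sum_le_sum
  intro α _
  refine (Polynomial.natDegree_sub_le _ _).trans ?_
  rw [Polynomial.natDegree_C, max_le_iff]
  refine ⟨(Polynomial.natDegree_C_mul_le _ _).trans ?_, Nat.zero_le _⟩
  exact Polynomial.natDegree_X_le

theorem symCoeff_card {Ω : Type} [DecidableEq Ω] (a b : Ω → ℍ → ℂ) (s : Finset Ω) :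
    symCoeff a b s s.card = ∏ α ∈ s, b α := by
  induction s using Finset.induction_on with
  | empty =>
    rw [symCoeff_empty]
    ext τ
    simp
  | insert α s hα ih =>
    rw [Finset.card_insert_of_notMem hα, symCoeff_insert_succ a b s hα, ih,
      Finset.prod_insert hα]
    have : symCoeff a b s (s.card + 1) = 0 := by
      ext τ
      exact Polynomial.coeff_eq_zero_of_natDegree_lt
        (lt_of_le_of_lt (symPoly_natDegree_le a b s τ) (Nat.lt_succ_self _))
    rw [this, mul_zero, sub_zero]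

/-- **Vieta**: if `α₀ ∈ s` and `b α₀ τ ≠ 0` then
`Σ_k symCoeff k · (a α₀)^k (b α₀)^(n-k) = 0`, `n = #s`. -/
theorem symCoeff_vieta {Ω : Type} [DecidableEq Ω] (a b : Ω → ℍ → ℂ) (s : Finset Ω) {α₀ : Ω}
    (hα₀ : α₀ ∈ s) (τ : ℍ) (hb : b α₀ τ ≠ 0) :
    ∑ k ∈ Finset.range (s.card + 1),
      symCoeff a b s k τ * a α₀ τ ^ k * b α₀ τ ^ (s.card - k) = 0 := by
  have hroot : (symPoly a b s τ).eval (a α₀ τ / b α₀ τ) = 0 := by
    unfold symPoly
    rw [Polynomial.eval_prod]
    apply Finset.prod_eq_zero hα₀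
    simp only [Polynomial.eval_sub, Polynomial.eval_mul, Polynomial.eval_C, Polynomial.eval_X]
    field_simp
    ring
  rw [Polynomial.eval_eq_sum_range' (Nat.lt_succ_of_le (symPoly_natDegree_le a b s τ))] at hroot
  have h2 : ∑ k ∈ Finset.range (s.card + 1),
      symCoeff a b s k τ * a α₀ τ ^ k * b α₀ τ ^ (s.card - k) =
      b α₀ τ ^ s.card * ∑ k ∈ Finset.range (s.card + 1),
        (symPoly a b s τ).coeff k * (a α₀ τ / b α₀ τ) ^ k := by
    rw [Finset.mul_sum]
    apply Finset.sum_congr rfl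
    intro k hk
    have hk' : k ≤ s.card := Nat.lt_succ_iff.mp (Finset.mem_range.mp hk)
    simp only [symCoeff]
    rw [div_pow]
    have : b α₀ τ ^ s.card = b α₀ τ ^ (s.card - k) * b α₀ τ ^ k := by
      rw [← pow_add, Nat.sub_add_cancel hk']
    rw [this]
    field_simp
  rw [h2, hroot, mul_zero]

end Fermat.Agent.S28

namespace Fermat.Agent.S28

open scoped MatrixGroups ModularForm Real Manifold
open UpperHalfPlane hiding I
open ModularForm Complex CongruenceSubgroup Polynomial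

/-! ### the symmetric functions of the conjugates are level one forms -/

section univ

variable (N : ℕ) [NeZero N] [Fintype (Cos N)] (A B : Gen N)

/-- the polynomial `∏_α (b_α X - a_α)` for the conjugates of `A` and `B` -/
noncomputable def cPoly (τ : ℍ) : ℂ[X] :=
  symPoly (fun α ↦ conjFn N α A) (fun α ↦ conjFn N α B) Finset.univ τ

/-- the symmetric functions of the conjugates of `A`, `B` -/
noncomputable def cSym (k : ℕ) : ℍ → ℂ :=
  symCoeff (fun α ↦ conjFn N α A) (fun α ↦ conjFn N α B) Finset.univ k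

theorem cPoly_smul (γ : SL(2, ℤ)) (τ : ℍ) :
    cPoly N A B (γ • τ) =
      C ((UpperHalfPlane.denom γ τ) ^ (12 * (Fintype.card (Cos N) : ℤ))) * cPoly N A B τ := by
  classical
  unfold cPoly symPoly
  have h1 : ∀ α : Cos N, (C (conjFn N α B (γ • τ)) * X - C (conjFn N α A (γ • τ)) : ℂ[X]) =
      C ((UpperHalfPlane.denom γ τ) ^ (12 : ℤ)) *
        (fun β : Cos N ↦ (C (conjFn N β B τ) * X - C (conjFn N β A τ) : ℂ[X]))
          (MulAction.toPerm γ⁻¹ α) := by
    intro α
    simp only [MulAction.toPerm_apply]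
    rw [conjFn_smul, conjFn_smul, C_mul, C_mul]
    ring
  rw [Finset.prod_congr rfl (fun α _ ↦ h1 α), Finset.prod_mul_distrib, Finset.prod_const,
    Equiv.prod_comp (MulAction.toPerm γ⁻¹)
      (fun β : Cos N ↦ (C (conjFn N β B τ) * X - C (conjFn N β A τ) : ℂ[X]))]
  congr 1
  rw [← C_pow, Finset.card_univ, ← zpow_natCast, ← zpow_mul]

theorem cSym_smul (k : ℕ) (γ : SL(2, ℤ)) (τ : ℍ) :
    cSym N A B k (γ • τ) =
      (UpperHalfPlane.denom γ τ) ^ (12 * (Fintype.card (Cos N) : ℤ)) * cSym N A B k τ := by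
  have h := congrArg (fun p : ℂ[X] ↦ p.coeff k) (cPoly_smul N A B γ τ)
  simp only [Polynomial.coeff_C_mul] at h
  exact h

theorem cSym_slash (k : ℕ) (γ : SL(2, ℤ)) :
    cSym N A B k ∣[(12 * (Fintype.card (Cos N) : ℤ))] γ = cSym N A B k := by
  ext τ
  rw [ModularForm.SL_slash_apply, cSym_smul]
  have hne : UpperHalfPlane.denom γ τ ≠ 0 := UpperHalfPlane.denom_ne_zero _ _
  rw [mul_comm, ← mul_assoc, ← zpow_add₀ hne]
  simp

theorem niceR_cSym (k : ℕ) : NiceR N (cSym N A B k) := by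
  classical
  exact niceR_symCoeff N (NeZero.pos N) _ _ (fun α ↦ niceR_conjFn N α A)
    (fun α ↦ niceR_conjFn N α B) Finset.univ k

/-- the symmetric functions as level one modular forms of weight `12 ψ` -/
noncomputable def cForm (k : ℕ) : ModularForm 𝒮ℒ (12 * (Fintype.card (Cos N) : ℤ)) :=
  levelOneOfData _ (cSym N A B k) (niceR_cSym N A B k).1.2.1 (cSym_slash N A B k)
    (niceR_cSym N A B k).1.2.2

@[simp] theorem coe_cForm (k : ℕ) : ⇑(cForm N A B k) = cSym N A B k := rfl

theorem cSym_top : cSym N A B (Fintype.card (Cos N)) = ∏ α : Cos N, conjFn N α B := by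
  classical
  unfold cSym
  rw [← Finset.card_univ, symCoeff_card]

theorem cSym_vieta (α₀ : Cos N) (τ : ℍ) (hb : conjFn N α₀ B τ ≠ 0) :
    ∑ k ∈ Finset.range (Fintype.card (Cos N) + 1),
      cSym N A B k τ * conjFn N α₀ A τ ^ k * conjFn N α₀ B τ ^ (Fintype.card (Cos N) - k) = 0 := by
  classical
  have := symCoeff_vieta (fun α ↦ conjFn N α A) (fun α ↦ conjFn N α B) Finset.univ
    (Finset.mem_univ α₀) τ hb
  rwa [Finset.card_univ] at this

end univ

end Fermat.Agent.S28
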