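import Fermat.Agent.S28.Conj
import Fermat.Agent.S28.Data

/-!
# S28 (AC3, step a): `SL(2,ℤ)` permutes the conjugates

* `genFn_slash_Gamma0` : `genFn f d` is `Γ₀(N)`-invariant of weight 12 for `d ∣ N`.
* `conjFn_slash` : `conjFn N α g ∣[12] γ = conjFn N (γ⁻¹ • α) g`.
-/

set_option autoImplicit false

open scoped MatrixGroups ModularForm Real Manifold
open UpperHalfPlane hiding I
open ModularForm Complex CongruenceSubgroup

namespace Fermat.Agent.S28

/-- `genFn f d` is `Γ₀(N)`-invariant of weight 12 for `d ∣ N`. -/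
theorem genFn_slash_Gamma0 (N : ℕ) [NeZero N] (f : Bool) {d : ℕ} (hd : d ∣ N) (δ : SL(2, ℤ))
    (hδ : δ ∈ Gamma0 N) : genFn f d ∣[(12 : ℤ)] δ = genFn f d := by
  have hdpos : 0 < d := Nat.pos_of_dvd_of_pos hd (NeZero.pos N)
  obtain ⟨γ', a, b, d', ha, hd', hadd, hag, hb, h⟩ := hnf_GL δ d hdpos
  have hNc : N ∣ (δ 1 0).natAbs := by
    rw [Gamma0_mem, ZMod.intCast_zmod_eq_zero_iff_dvd] at hδ
    exact Int.natCast_dvd.mp hδ
  have ha' : a = d := by
    rw [hag]
    exact Nat.gcd_eq_left (hd.trans hNc)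
  have hd'1 : d' = 1 := by
    rw [ha'] at hadd
    exact Nat.eq_of_mul_eq_mul_left hdpos (by rw [hadd, mul_one])
  have hb0 : b = 0 := by rw [hd'1] at hb; omega
  rw [ha', hd'1, hb0] at h
  unfold genFn
  rw [ModularForm.SL_smul_slash]
  congr 1
  rw [ModularForm.SL_slash, ← SlashAction.slash_mul, h, SlashAction.slash_mul]
  congr 1
  exact baseFn_slash_SL f γ'

/-- the key coset computation -/
theorem rep_mul_mem (N : ℕ) (α : Cos N) (γ : SL(2, ℤ)) :
    rep N α * γ * (rep N (γ⁻¹ • α))⁻¹ ∈ Gamma0 N := by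
  unfold rep
  rw [inv_inv, mul_assoc]
  apply (QuotientGroup.eq (s := Gamma0 N)).mp
  rw [QuotientGroup.out_eq']
  have h1 : ((γ * Quotient.out (γ⁻¹ • α) : SL(2, ℤ)) : Cos N) =
      γ • ((Quotient.out (γ⁻¹ • α) : SL(2, ℤ)) : Cos N) := rfl
  rw [h1, QuotientGroup.out_eq', smul_inv_smul]

/-- **Permutation**: slashing by `γ ∈ SL(2,ℤ)` permutes the conjugates. -/
theorem conjFn_slash (N : ℕ) [NeZero N] (α : Cos N) (g : Gen N) (γ : SL(2, ℤ)) :
    conjFn N α g ∣[(12 : ℤ)] γ = conjFn N (γ⁻¹ • α) g := by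
  have hdN : (g.2 : ℕ) ∣ N := Nat.dvd_of_mem_divisors g.2.2
  unfold conjFn
  rw [← SlashAction.slash_mul]
  have h : rep N α * γ = (rep N α * γ * (rep N (γ⁻¹ • α))⁻¹) * rep N (γ⁻¹ • α) := by group
  rw [h, SlashAction.slash_mul, genFn_slash_Gamma0 N g.1 hdN _ (rep_mul_mem N α γ)]

/-- pointwise form of `conjFn_slash` -/
theorem conjFn_smul (N : ℕ) [NeZero N] (α : Cos N) (g : Gen N) (γ : SL(2, ℤ)) (τ : ℍ) :
    conjFn N α g (γ • τ) = (UpperHalfPlane.denom γ τ) ^ (12 : ℤ) * conjFn N (γ⁻¹ • α) g τ := by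
  have h := congrFun (conjFn_slash N α g γ) τ
  rw [ModularForm.SL_slash_apply] at h
  rw [← h]
  have hne : UpperHalfPlane.denom γ τ ≠ 0 := UpperHalfPlane.denom_ne_zero _ _
  rw [mul_comm, mul_assoc, ← zpow_add₀ hne]
  simp

/-- the conjugates of the level one generators are the base forms -/
theorem conjFn_gen1 (N : ℕ) [NeZero N] (α : Cos N) (f : Bool) :
    conjFn N α (gen1 N f) = baseFn f := by
  rw [conjFn_eq]
  simp only [gen1]
  rw [cA_one, cB_one, cD_one]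
  have h1 : ut 1 0 1 = 1 := by
    apply Matrix.GeneralLinearGroup.ext
    intro i j
    rw [val_ut one_pos one_pos]
    fin_cases i <;> fin_cases j <;> simp
  rw [h1, SlashAction.slash_one]
  simp

end Fermat.Agent.S28
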